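/-
S13 library: the x-only (Montgomery) ladder on a general Weierstrass curve.
Core: projective x-only doubling and differential addition, and their correctness with
respect to Mathlib's group law on nonsingular affine points.
-/
import Mathlib

set_option autoImplicit false
set_option linter.unusedSectionVars false

namespace Fermat.Agent.S13lib

open WeierstrassCurve

section defs

variable {S : Type*} [CommRing S]

/-- Numerator of the x-only doubling formula, homogenised. -/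
def ldblX (b₄ b₆ b₈ X Z : S) : S :=
  X ^ 4 - b₄ * X ^ 2 * Z ^ 2 - 2 * b₆ * X * Z ^ 3 - b₈ * Z ^ 4

/-- Denominator of the x-only doubling formula, homogenised. -/
def ldblZ (b₂ b₄ b₆ X Z : S) : S :=
  Z * (4 * X ^ 3 + b₂ * X ^ 2 * Z + 2 * b₄ * X * Z ^ 2 + b₆ * Z ^ 3)

/-- Numerator of the x-only differential addition (the difference of the two points has
x-coordinate `x`), homogenised. -/
def laddX (b₂ b₄ b₆ x X₁ Z₁ X₂ Z₂ : S) : S :=
  2 * X₁ * X₂ * (X₁ * Z₂ + X₂ * Z₁) + b₂ * X₁ * X₂ * Z₁ * Z₂ +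
    b₄ * Z₁ * Z₂ * (X₁ * Z₂ + X₂ * Z₁) + b₆ * Z₁ ^ 2 * Z₂ ^ 2 - x * (X₁ * Z₂ - X₂ * Z₁) ^ 2

/-- Denominator of the x-only differential addition, homogenised. -/
def laddZ (X₁ Z₁ X₂ Z₂ : S) : S :=
  (X₁ * Z₂ - X₂ * Z₁) ^ 2

end defs

section field

variable {F : Type*} [Field F] (W : Affine F)

/-- `(X : Z)` is a projective x-coordinate of the point `Q`. -/
def XRep (X Z : F) : W.Point → Prop
  | .zero => Z = 0 ∧ X ≠ 0
  | .some x _ _ => Z ≠ 0 ∧ X = x * Z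

variable {W}

lemma xrep_zero {X Z : F} : XRep W X Z 0 ↔ Z = 0 ∧ X ≠ 0 := Iff.rfl

lemma xrep_some {X Z x y : F} (h : W.Nonsingular x y) :
    XRep W X Z (Affine.Point.some x y h) ↔ Z ≠ 0 ∧ X = x * Z := Iff.rfl

lemma XRep.eq_zero_iff {X Z : F} {Q : W.Point} (h : XRep W X Z Q) : Q = 0 ↔ Z = 0 := by
  cases Q with
  | zero => exact ⟨fun _ => h.1, fun _ => rfl⟩
  | some x y hxy =>
    exact ⟨fun hq => absurd hq (Affine.Point.some_ne_zero hxy), fun hz => absurd hz h.1⟩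

/-- Key identity: `Ψ₂Sq(x) = ψ₂(x,y)²` on the curve. -/
lemma psi2sq_eq {x y : F} (h : W.Equation x y) :
    4 * x ^ 3 + W.b₂ * x ^ 2 + 2 * W.b₄ * x + W.b₆ = (y - W.negY x y) ^ 2 := by
  rw [Affine.equation_iff] at h
  simp only [Affine.negY, WeierstrassCurve.b₂, WeierstrassCurve.b₄, WeierstrassCurve.b₆]
  linear_combination (-4 : F) * h

/-- Key identity for the numerator of the duplication formula. -/
lemma dblnum_eq {x y : F} (h : W.Equation x y) :
    x ^ 4 - W.b₄ * x ^ 2 - 2 * W.b₆ * x - W.b₈ =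
      (W.a₁ * y - (3 * x ^ 2 + 2 * W.a₂ * x + W.a₄)) ^ 2
        - W.a₁ * (W.a₁ * y - (3 * x ^ 2 + 2 * W.a₂ * x + W.a₄)) * (y - W.negY x y)
        - (W.a₂ + 2 * x) * (y - W.negY x y) ^ 2 := by
  rw [Affine.equation_iff] at h
  simp only [Affine.negY, WeierstrassCurve.b₄, WeierstrassCurve.b₆, WeierstrassCurve.b₈]
  linear_combination (W.a₁ ^ 2 + 4 * W.a₂ + 8 * x) * h

variable [DecidableEq F]

/-- Correctness of x-only doubling. -/
theorem xrep_dbl {X Z : F} {Q : W.Point} (h : XRep W X Z Q) :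
    XRep W (ldblX W.b₄ W.b₆ W.b₈ X Z) (ldblZ W.b₂ W.b₄ W.b₆ X Z) (Q + Q) := by
  cases Q with
  | zero =>
    obtain ⟨hZ, hX⟩ := h
    have : (Affine.Point.zero : W.Point) + Affine.Point.zero = 0 := by
      rw [← Affine.Point.zero_def, add_zero]
    rw [this, xrep_zero]
    subst hZ
    refine ⟨by simp [ldblZ], ?_⟩
    simp only [ldblX]
    simpa using pow_ne_zero 4 hX
  | some x y hxy =>
    obtain ⟨hZ, hX⟩ := h
    subst hX
    have heq := hxy.1
    have hZ' : ldblZ W.b₂ W.b₄ W.b₆ (x * Z) Z = Z ^ 4 * (y - W.negY x y) ^ 2 := by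
      rw [← psi2sq_eq heq]; simp only [ldblZ]; ring
    have hX' : ldblX W.b₄ W.b₆ W.b₈ (x * Z) Z =
        Z ^ 4 * (x ^ 4 - W.b₄ * x ^ 2 - 2 * W.b₆ * x - W.b₈) := by
      simp only [ldblX]; ring
    by_cases hy : y = W.negY x y
    · rw [Affine.Point.add_self_of_Y_eq hy, xrep_zero, hZ', hX', dblnum_eq heq]
      have h0 : y - W.negY x y = 0 := sub_eq_zero.mpr hy
      refine ⟨by rw [h0]; ring, ?_⟩
      rw [h0]
      have hns := (Affine.nonsingular_iff' x y).mp hxy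
      have hne : W.a₁ * y - (3 * x ^ 2 + 2 * W.a₂ * x + W.a₄) ≠ 0 := by
        rcases hns.2 with h1 | h1
        · exact h1
        · exfalso; apply h1; rw [Affine.negY] at hy; linear_combination hy
      have : Z ^ 4 * ((W.a₁ * y - (3 * x ^ 2 + 2 * W.a₂ * x + W.a₄)) ^ 2
          - W.a₁ * (W.a₁ * y - (3 * x ^ 2 + 2 * W.a₂ * x + W.a₄)) * 0
          - (W.a₂ + 2 * x) * 0 ^ 2) =
          Z ^ 4 * (W.a₁ * y - (3 * x ^ 2 + 2 * W.a₂ * x + W.a₄)) ^ 2 := by ring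
      rw [this]
      exact mul_ne_zero (pow_ne_zero 4 hZ) (pow_ne_zero 2 hne)
    · rw [Affine.Point.add_self_of_Y_ne hy, xrep_some, hZ', hX', dblnum_eq heq]
      have h0 : y - W.negY x y ≠ 0 := sub_ne_zero.mpr hy
      refine ⟨mul_ne_zero (pow_ne_zero 4 hZ) (pow_ne_zero 2 h0), ?_⟩
      rw [Affine.slope_of_Y_ne rfl hy, Affine.addX]
      field_simp
      ring

/-- The sum formula `x(A+B) + x(A-B)`, with abstract slopes. -/
lemma addX_add_addX_aux {x₁ y₁ x₂ y₂ ℓ m : F} (h₁ : W.Equation x₁ y₁) (h₂ : W.Equation x₂ y₂)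
    (hℓ : ℓ * (x₁ - x₂) = y₁ - y₂) (hm : m * (x₂ - x₁) = y₂ - W.negY x₁ y₁) :
    (W.addX x₁ x₂ ℓ + W.addX x₂ x₁ m) * (x₁ - x₂) ^ 2 =
      2 * x₁ * x₂ * (x₁ + x₂) + W.b₂ * x₁ * x₂ + W.b₄ * (x₁ + x₂) + W.b₆ := by
  rw [Affine.equation_iff] at h₁ h₂
  simp only [Affine.negY] at hm
  simp only [Affine.addX, WeierstrassCurve.b₂, WeierstrassCurve.b₄, WeierstrassCurve.b₆]
  linear_combination (ℓ * (x₁ - x₂) + (y₁ - y₂) + W.a₁ * (x₁ - x₂)) * hℓ +
    (m * (x₂ - x₁) + (y₂ + y₁ + W.a₁ * x₁ + W.a₃) - W.a₁ * (x₁ - x₂)) * hm + 2 * h₁ + 2 * h₂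

/-- The sum formula `x(A+B) + x(A-B)` for two affine points with distinct x-coordinates. -/
lemma addX_add_addX {x₁ y₁ x₂ y₂ : F} (h₁ : W.Equation x₁ y₁) (h₂ : W.Equation x₂ y₂)
    (hx : x₁ ≠ x₂) :
    (W.addX x₁ x₂ ((y₁ - y₂) / (x₁ - x₂)) +
      W.addX x₂ x₁ ((y₂ - W.negY x₁ y₁) / (x₂ - x₁))) * (x₁ - x₂) ^ 2 =
      2 * x₁ * x₂ * (x₁ + x₂) + W.b₂ * x₁ * x₂ + W.b₄ * (x₁ + x₂) + W.b₆ := by
  have hx' : x₁ - x₂ ≠ 0 := sub_ne_zero.mpr hx
  have hx'' : x₂ - x₁ ≠ 0 := sub_ne_zero.mpr (Ne.symm hx)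
  exact addX_add_addX_aux h₁ h₂ (div_mul_cancel₀ _ hx') (div_mul_cancel₀ _ hx'')

/-- Correctness of x-only differential addition: if `B = A + P` with `P = (x, y)` affine,
then `laddX/laddZ` computes a projective x-coordinate of `A + B`. -/
theorem xrep_add {x y : F} (hP : W.Nonsingular x y) {X₁ Z₁ X₂ Z₂ : F} {A B : W.Point}
    (hA : XRep W X₁ Z₁ A) (hB : XRep W X₂ Z₂ B) (hAB : B = A + Affine.Point.some x y hP) :
    XRep W (laddX W.b₂ W.b₄ W.b₆ x X₁ Z₁ X₂ Z₂) (laddZ X₁ Z₁ X₂ Z₂) (A + B) := by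
  cases A with
  | zero =>
    have hA0 : (Affine.Point.zero : W.Point) = 0 := rfl
    rw [hA0, zero_add] at hAB
    subst hAB
    rw [hA0, zero_add]
    obtain ⟨hZ₁, hX₁⟩ := hA
    obtain ⟨hZ₂, hX₂⟩ := hB
    subst hZ₁ hX₂
    rw [xrep_some]
    refine ⟨?_, ?_⟩
    · simp only [laddZ]
      have : (X₁ * Z₂ - x * Z₂ * 0) ^ 2 = (X₁ * Z₂) ^ 2 := by ring
      rw [this]
      exact pow_ne_zero 2 (mul_ne_zero hX₁ hZ₂)
    · simp only [laddX, laddZ]; ring
  | some x₁ y₁ h₁ =>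
    cases B with
    | zero =>
      have hB0 : (Affine.Point.zero : W.Point) = 0 := rfl
      rw [hB0] at hAB ⊢
      rw [add_zero]
      -- `0 = A + P` forces `x₁ = x`
      have hx : x₁ = x := by
        by_contra hne
        rw [Affine.Point.add_of_X_ne hne] at hAB
        exact Affine.Point.some_ne_zero _ hAB.symm
      obtain ⟨hZ₁, hX₁⟩ := hA
      obtain ⟨hZ₂, hX₂⟩ := hB
      subst hZ₂ hX₁ hx
      rw [xrep_some]
      refine ⟨?_, ?_⟩
      · simp only [laddZ]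
        have : (x₁ * Z₁ * 0 - X₂ * Z₁) ^ 2 = (X₂ * Z₁) ^ 2 := by ring
        rw [this]
        exact pow_ne_zero 2 (mul_ne_zero hX₂ hZ₁)
      · simp only [laddX, laddZ]; ring
    | some x₂ y₂ h₂ =>
      obtain ⟨hZ₁, hX₁⟩ := hA
      obtain ⟨hZ₂, hX₂⟩ := hB
      subst hX₁ hX₂
      have hZ' : laddZ (x₁ * Z₁) Z₁ (x₂ * Z₂) Z₂ = Z₁ ^ 2 * Z₂ ^ 2 * (x₁ - x₂) ^ 2 := by
        simp only [laddZ]; ring
      have hX' : laddX W.b₂ W.b₄ W.b₆ x (x₁ * Z₁) Z₁ (x₂ * Z₂) Z₂ =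
          Z₁ ^ 2 * Z₂ ^ 2 * (2 * x₁ * x₂ * (x₁ + x₂) + W.b₂ * x₁ * x₂ + W.b₄ * (x₁ + x₂) + W.b₆
            - x * (x₁ - x₂) ^ 2) := by
        simp only [laddX]; ring
      -- `A ≠ B` since `P ≠ 0`
      have hne : Affine.Point.some x₁ y₁ h₁ ≠ Affine.Point.some x₂ y₂ h₂ := by
        intro he
        rw [← he] at hAB
        have : Affine.Point.some x y hP = 0 := by
          have h3 := hAB
          nth_rewrite 1 [← add_zero (Affine.Point.some x₁ y₁ h₁)] at h3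
          exact (add_left_cancel h3).symm
        exact Affine.Point.some_ne_zero _ this
      by_cases hx : x₁ = x₂
      · -- then `A = -B`
        subst hx
        have hy : y₁ = W.negY x₁ y₂ := by
          rcases Affine.Y_eq_of_X_eq h₁.1 h₂.1 rfl with hy | hy
          · exact absurd (by subst hy; rfl) hne
          · exact hy
        rw [Affine.Point.add_of_Y_eq rfl hy, xrep_zero, hZ', hX']
        refine ⟨by ring, ?_⟩
        have hy' : y₁ ≠ W.negY x₁ y₁ := by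
          intro h'
          apply hne
          have : y₁ = y₂ := by
            have := congrArg (W.negY x₁) (h'.symm.trans hy)
            simpa [Affine.negY_negY] using this
          subst this; rfl
        have h4 : 2 * x₁ * x₁ * (x₁ + x₁) + W.b₂ * x₁ * x₁ + W.b₄ * (x₁ + x₁) + W.b₆
            - x * (x₁ - x₁) ^ 2 = 4 * x₁ ^ 3 + W.b₂ * x₁ ^ 2 + 2 * W.b₄ * x₁ + W.b₆ := by ring
        rw [h4, psi2sq_eq h₁.1]
        exact mul_ne_zero (mul_ne_zero (pow_ne_zero 2 hZ₁) (pow_ne_zero 2 hZ₂))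
          (pow_ne_zero 2 (sub_ne_zero.mpr hy'))
      · -- generic case
        have hx' : x₁ - x₂ ≠ 0 := sub_ne_zero.mpr hx
        -- `P = B - A = B + (-A)`
        have hPeq : Affine.Point.some x y hP =
            Affine.Point.some x₂ y₂ h₂ + -Affine.Point.some x₁ y₁ h₁ := by
          rw [hAB]; abel
        rw [Affine.Point.neg_some, Affine.Point.add_of_X_ne (Ne.symm hx)] at hPeq
        have hxeq : x = W.addX x₂ x₁ (W.slope x₂ x₁ y₂ (W.negY x₁ y₁)) := by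
          injection hPeq
        rw [Affine.slope_of_X_ne (Ne.symm hx)] at hxeq
        rw [Affine.Point.add_of_X_ne hx, xrep_some, hZ', hX', Affine.slope_of_X_ne hx]
        refine ⟨mul_ne_zero (mul_ne_zero (pow_ne_zero 2 hZ₁) (pow_ne_zero 2 hZ₂))
          (pow_ne_zero 2 hx'), ?_⟩
        have key := addX_add_addX h₁.1 h₂.1 hx
        rw [← hxeq] at key
        linear_combination (- Z₁ ^ 2 * Z₂ ^ 2) * key

end field

end Fermat.Agent.S13lib
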