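/-
S13 library: the binary x-only ladder and the polynomial `ladF` whose roots are the
x-coordinates of the nonzero points of odd order `2m+1`.
-/
import Mathlib
import Fermat.Agent.S13lib.LadderCore

set_option autoImplicit false
set_option linter.unusedSectionVars false

namespace Fermat.Agent.S13lib

open WeierstrassCurve Polynomial

section ladder

variable {S : Type*} [CommRing S]

/-- One step of the binary ladder on the state `((X_n, Z_n), (X_{n+1}, Z_{n+1}))`. -/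
def ladStep (b₂ b₄ b₆ b₈ x : S) (bit : Bool) (st : (S × S) × (S × S)) : (S × S) × (S × S) :=
  if bit then
    ((laddX b₂ b₄ b₆ x st.1.1 st.1.2 st.2.1 st.2.2, laddZ st.1.1 st.1.2 st.2.1 st.2.2),
      (ldblX b₄ b₆ b₈ st.2.1 st.2.2, ldblZ b₂ b₄ b₆ st.2.1 st.2.2))
  else
    ((ldblX b₄ b₆ b₈ st.1.1 st.1.2, ldblZ b₂ b₄ b₆ st.1.1 st.1.2),
      (laddX b₂ b₄ b₆ x st.1.1 st.1.2 st.2.1 st.2.2, laddZ st.1.1 st.1.2 st.2.1 st.2.2))

/-- The binary ladder: `lad n = ((X_n, Z_n), (X_{n+1}, Z_{n+1}))`. -/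
def lad (b₂ b₄ b₆ b₈ x : S) : ℕ → (S × S) × (S × S) :=
  Nat.binaryRec ((1, 0), (x, 1)) (fun bit _ st => ladStep b₂ b₄ b₆ b₈ x bit st)

@[simp] lemma lad_zero (b₂ b₄ b₆ b₈ x : S) : lad b₂ b₄ b₆ b₈ x 0 = ((1, 0), (x, 1)) := by
  simp [lad]

lemma ladStep_false_base (b₂ b₄ b₆ b₈ x : S) :
    ladStep b₂ b₄ b₆ b₈ x false ((1, 0), (x, 1)) = ((1, 0), (x, 1)) := by
  simp only [ladStep, Bool.false_eq_true, if_false, ldblX, ldblZ, laddX, laddZ]
  refine Prod.ext (Prod.ext ?_ ?_) (Prod.ext ?_ ?_) <;> simp only [] <;> ring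

lemma lad_bit (b₂ b₄ b₆ b₈ x : S) (b : Bool) (n : ℕ) :
    lad b₂ b₄ b₆ b₈ x (Nat.bit b n) = ladStep b₂ b₄ b₆ b₈ x b (lad b₂ b₄ b₆ b₈ x n) := by
  unfold lad
  rw [Nat.binaryRec_eq]
  exact Or.inl (ladStep_false_base b₂ b₄ b₆ b₈ x)

lemma lad_two_mul (b₂ b₄ b₆ b₈ x : S) (n : ℕ) :
    lad b₂ b₄ b₆ b₈ x (2 * n) = ladStep b₂ b₄ b₆ b₈ x false (lad b₂ b₄ b₆ b₈ x n) := by
  have := lad_bit b₂ b₄ b₆ b₈ x false n
  rwa [Nat.bit_val, Bool.toNat_false, add_zero] at this

lemma lad_two_mul_add_one (b₂ b₄ b₆ b₈ x : S) (n : ℕ) :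
    lad b₂ b₄ b₆ b₈ x (2 * n + 1) = ladStep b₂ b₄ b₆ b₈ x true (lad b₂ b₄ b₆ b₈ x n) := by
  have := lad_bit b₂ b₄ b₆ b₈ x true n
  rwa [Nat.bit_val, Bool.toNat_true] at this

lemma ladStep_map {S' : Type*} [CommRing S'] (φ : S →+* S') (b₂ b₄ b₆ b₈ x : S) (b : Bool)
    (st : (S × S) × (S × S)) :
    ladStep (φ b₂) (φ b₄) (φ b₆) (φ b₈) (φ x) b (Prod.map (Prod.map φ φ) (Prod.map φ φ) st) =
      Prod.map (Prod.map φ φ) (Prod.map φ φ) (ladStep b₂ b₄ b₆ b₈ x b st) := by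
  obtain ⟨⟨X₁, Z₁⟩, ⟨X₂, Z₂⟩⟩ := st
  cases b <;>
    simp only [ladStep, Bool.false_eq_true, if_false, if_true, Prod.map_apply, ldblX, ldblZ,
      laddX, laddZ, map_sub, map_add, map_mul, map_pow, map_ofNat]

/-- The ladder commutes with ring homomorphisms. -/
lemma lad_map {S' : Type*} [CommRing S'] (φ : S →+* S') (b₂ b₄ b₆ b₈ x : S) (n : ℕ) :
    lad (φ b₂) (φ b₄) (φ b₆) (φ b₈) (φ x) n =
      Prod.map (Prod.map φ φ) (Prod.map φ φ) (lad b₂ b₄ b₆ b₈ x n) := by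
  induction n using Nat.binaryRec with
  | zero => simp
  | bit b n ih => rw [lad_bit, lad_bit, ih, ladStep_map]

/-- The polynomial `X_m Z_{m+1} - X_{m+1} Z_m` (for the ladder over `S`). -/
def ladFval (b₂ b₄ b₆ b₈ x : S) (m : ℕ) : S :=
  (lad b₂ b₄ b₆ b₈ x m).1.1 * (lad b₂ b₄ b₆ b₈ x m).2.2 -
    (lad b₂ b₄ b₆ b₈ x m).2.1 * (lad b₂ b₄ b₆ b₈ x m).1.2

lemma lad_odd_Z (b₂ b₄ b₆ b₈ x : S) (m : ℕ) :
    (lad b₂ b₄ b₆ b₈ x (2 * m + 1)).1.2 = ladFval b₂ b₄ b₆ b₈ x m ^ 2 := by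
  rw [lad_two_mul_add_one]
  simp [ladStep, laddZ, ladFval]

lemma ladFval_map {S' : Type*} [CommRing S'] (φ : S →+* S') (b₂ b₄ b₆ b₈ x : S) (m : ℕ) :
    ladFval (φ b₂) (φ b₄) (φ b₆) (φ b₈) (φ x) m = φ (ladFval b₂ b₄ b₆ b₈ x m) := by
  simp only [ladFval, lad_map, map_sub, map_mul]
  rfl

end ladder

section correctness

variable {F : Type*} [Field F] [DecidableEq F] {W : Affine F}

/-- The ladder invariant: `lad n` holds projective x-coordinates of `n • P` and `(n+1) • P`. -/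
theorem lad_xrep {x y : F} (h : W.Nonsingular x y) (n : ℕ) :
    XRep W (lad W.b₂ W.b₄ W.b₆ W.b₈ x n).1.1 (lad W.b₂ W.b₄ W.b₆ W.b₈ x n).1.2
        (n • Affine.Point.some x y h) ∧
      XRep W (lad W.b₂ W.b₄ W.b₆ W.b₈ x n).2.1 (lad W.b₂ W.b₄ W.b₆ W.b₈ x n).2.2
        ((n + 1) • Affine.Point.some x y h) := by
  induction n using Nat.binaryRec with
  | zero =>
    rw [lad_zero, zero_smul, zero_add, one_smul]
    exact ⟨⟨rfl, one_ne_zero⟩, ⟨one_ne_zero, (mul_one x).symm⟩⟩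
  | bit b n ih =>
    obtain ⟨ih1, ih2⟩ := ih
    have hsucc : (n + 1) • Affine.Point.some x y h =
        n • Affine.Point.some x y h + Affine.Point.some x y h := succ_nsmul _ n
    have hadd := xrep_add h ih1 ih2 hsucc
    have hd1 := xrep_dbl ih1
    have hd2 := xrep_dbl ih2
    rw [lad_bit]
    cases b
    · have e1 : Nat.bit false n • Affine.Point.some x y h =
          n • Affine.Point.some x y h + n • Affine.Point.some x y h := by
        rw [Nat.bit_val, Bool.toNat_false, add_zero, two_mul, add_nsmul]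
      have e2 : (Nat.bit false n + 1) • Affine.Point.some x y h =
          n • Affine.Point.some x y h + (n + 1) • Affine.Point.some x y h := by
        rw [Nat.bit_val, Bool.toNat_false, add_zero, ← add_nsmul]
        congr 1; ring
      rw [e1, e2]
      simp only [ladStep, Bool.false_eq_true, if_false]
      exact ⟨hd1, hadd⟩
    · have e1 : Nat.bit true n • Affine.Point.some x y h =
          n • Affine.Point.some x y h + (n + 1) • Affine.Point.some x y h := by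
        rw [Nat.bit_val, Bool.toNat_true, ← add_nsmul]
        congr 1; ring
      have e2 : (Nat.bit true n + 1) • Affine.Point.some x y h =
          (n + 1) • Affine.Point.some x y h + (n + 1) • Affine.Point.some x y h := by
        rw [Nat.bit_val, Bool.toNat_true, ← add_nsmul]
        congr 1; ring
      rw [e1, e2]
      simp only [ladStep, if_true]
      exact ⟨hadd, hd2⟩

/-- `n • P = 0` iff the ladder denominator `Z_n` vanishes at `x(P)`. -/
theorem nsmul_eq_zero_iff_lad {x y : F} (h : W.Nonsingular x y) (n : ℕ) :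
    n • Affine.Point.some x y h = 0 ↔ (lad W.b₂ W.b₄ W.b₆ W.b₈ x n).1.2 = 0 :=
  (lad_xrep h n).1.eq_zero_iff

/-- For odd `n = 2m+1`: `n • P = 0` iff `ladFval` vanishes at `x(P)`. -/
theorem odd_nsmul_eq_zero_iff {x y : F} (h : W.Nonsingular x y) (m : ℕ) :
    (2 * m + 1) • Affine.Point.some x y h = 0 ↔ ladFval W.b₂ W.b₄ W.b₆ W.b₈ x m = 0 := by
  rw [nsmul_eq_zero_iff_lad, lad_odd_Z, sq_eq_zero_iff]

end correctness

section poly

variable {R : Type*} [CommRing R] (W : WeierstrassCurve R)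

/-- The ladder polynomial for odd order `2m+1`: its roots are the x-coordinates of the nonzero
points of order dividing `2m+1`. -/
noncomputable def ladF (m : ℕ) : R[X] :=
  ladFval (C W.b₂) (C W.b₄) (C W.b₆) (C W.b₈) (X : R[X]) m

lemma ladF_eval (x : R) (m : ℕ) :
    (ladF W m).eval x = ladFval W.b₂ W.b₄ W.b₆ W.b₈ x m := by
  have := ladFval_map (evalRingHom x) (C W.b₂) (C W.b₄) (C W.b₆) (C W.b₈) (X : R[X]) m
  simp only [coe_evalRingHom, eval_C, eval_X] at this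
  rw [this]; rfl

lemma ladF_map {S : Type*} [CommRing S] (f : R →+* S) (m : ℕ) :
    (ladF W m).map f = ladF (W.map f) m := by
  have := ladFval_map (mapRingHom f) (C W.b₂) (C W.b₄) (C W.b₆) (C W.b₈) (X : R[X]) m
  simp only [coe_mapRingHom, map_C, map_X] at this
  rw [ladF, ← this, ladF, WeierstrassCurve.map_b₂, WeierstrassCurve.map_b₄,
    WeierstrassCurve.map_b₆, WeierstrassCurve.map_b₈]

end poly

section polyfield

variable {F : Type*} [Field F] [DecidableEq F] (W : Affine F)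

/-- **Torsion points of odd order via the ladder polynomial.** -/
theorem odd_nsmul_eq_zero_iff_ladF {x y : F} (h : W.Nonsingular x y) (m : ℕ) :
    (2 * m + 1) • Affine.Point.some x y h = 0 ↔ (ladF W m).eval x = 0 := by
  rw [ladF_eval]
  exact odd_nsmul_eq_zero_iff h m

end polyfield

end Fermat.Agent.S13lib
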