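/-
S13 library: degree and leading coefficient of the ladder polynomials.
-/
import Mathlib
import Fermat.Agent.S13lib.LadderMain

set_option autoImplicit false
set_option linter.unusedSectionVars false

namespace Fermat.Agent.S13lib

open Polynomial

section islead

variable {R : Type*} [CommRing R]

/-- `p` has degree at most `n`, with `n`-th coefficient `c`. -/
def IsLead (p : R[X]) (n : ℕ) (c : R) : Prop := p.natDegree ≤ n ∧ p.coeff n = c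

lemma IsLead.mul {p q : R[X]} {m n : ℕ} {a b : R} (hp : IsLead p m a) (hq : IsLead q n b) :
    IsLead (p * q) (m + n) (a * b) :=
  ⟨natDegree_mul_le_of_le hp.1 hq.1, by
    rw [coeff_mul_add_eq_of_natDegree_le hp.1 hq.1, hp.2, hq.2]⟩

lemma IsLead.pow {p : R[X]} {m : ℕ} {a : R} (hp : IsLead p m a) (k : ℕ) :
    IsLead (p ^ k) (k * m) (a ^ k) :=
  ⟨natDegree_pow_le_of_le k hp.1, by rw [coeff_pow_of_natDegree_le hp.1, hp.2]⟩

lemma IsLead.add {p q : R[X]} {n : ℕ} {a b : R} (hp : IsLead p n a) (hq : IsLead q n b) :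
    IsLead (p + q) n (a + b) :=
  ⟨natDegree_add_le_of_degree_le hp.1 hq.1, by rw [coeff_add, hp.2, hq.2]⟩

lemma IsLead.sub {p q : R[X]} {n : ℕ} {a b : R} (hp : IsLead p n a) (hq : IsLead q n b) :
    IsLead (p - q) n (a - b) :=
  ⟨(natDegree_sub_le_of_le hp.1 hq.1).trans (by simp), by rw [coeff_sub, hp.2, hq.2]⟩

lemma IsLead.mono {p : R[X]} {m n : ℕ} {a : R} (hp : IsLead p m a) (h : m < n) :
    IsLead p n 0 :=
  ⟨hp.1.trans h.le, coeff_eq_zero_of_natDegree_lt (lt_of_le_of_lt hp.1 h)⟩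

lemma IsLead.C_mul {p : R[X]} {n : ℕ} {a : R} (r : R) (hp : IsLead p n a) :
    IsLead (C r * p) n (r * a) :=
  ⟨(natDegree_C_mul_le r p).trans hp.1, by rw [coeff_C_mul, hp.2]⟩

lemma IsLead.ofNat_mul {p : R[X]} {n : ℕ} {a : R} (k : ℕ) [k.AtLeastTwo] (hp : IsLead p n a) :
    IsLead ((OfNat.ofNat k : R[X]) * p) n ((OfNat.ofNat k : R) * a) := by
  have : (OfNat.ofNat k : R[X]) = C (OfNat.ofNat k : R) := (map_ofNat C k).symm
  rw [this]
  exact hp.C_mul _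

lemma IsLead.X_mul {p : R[X]} {n : ℕ} {a : R} (hp : IsLead p n a) :
    IsLead (X * p) (n + 1) a := by
  refine ⟨?_, ?_⟩
  · rw [mul_comm]
    exact (natDegree_mul_le_of_le hp.1 natDegree_X_le)
  · rw [coeff_X_mul, hp.2]

lemma IsLead.congr {p : R[X]} {m n : ℕ} {a b : R} (hp : IsLead p m a) (hmn : m = n)
    (hab : a = b) : IsLead p n b := by subst hmn hab; exact hp

lemma isLead_X : IsLead (X : R[X]) 1 1 := ⟨natDegree_X_le, coeff_X_one⟩

lemma isLead_one : IsLead (1 : R[X]) 0 1 := ⟨by simp, by simp⟩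

lemma isLead_C (r : R) : IsLead (C r : R[X]) 0 r := ⟨by simp, by simp⟩

lemma isLead_zero (n : ℕ) : IsLead (0 : R[X]) n 0 := ⟨by simp, by simp⟩

lemma IsLead.sub_lower {p q : R[X]} {m n : ℕ} {a b : R} (hp : IsLead p n a) (hq : IsLead q m b)
    (h : m < n) : IsLead (p - q) n a := by
  simpa using hp.sub (hq.mono h)

lemma IsLead.add_lower {p q : R[X]} {m n : ℕ} {a b : R} (hp : IsLead p n a) (hq : IsLead q m b)
    (h : m < n) : IsLead (p + q) n a := by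
  simpa using hp.add (hq.mono h)

end islead

section steps

variable {R : Type*} [CommRing R] (b₂ b₄ b₆ b₈ : R)

lemma isLead_ldblX {X₁ Z₁ : R[X]} {a' : ℕ} {cA : R} (hX : IsLead X₁ (a' + 1) 1)
    (hZ : IsLead Z₁ a' cA) :
    IsLead (ldblX (C b₄) (C b₆) (C b₈) X₁ Z₁) (4 * a' + 4) 1 := by
  have t0 : IsLead (X₁ ^ 4) (4 * a' + 4) 1 := (hX.pow 4).congr (by ring) (by ring)
  have t1 := ((hX.pow 2).C_mul b₄).mul (hZ.pow 2)
  have t2 := (((isLead_C b₆).ofNat_mul 2).mul hX).mul (hZ.pow 3)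
  have t3 := (hZ.pow 4).C_mul b₈
  unfold ldblX
  exact ((t0.sub_lower t1 (by omega)).sub_lower t2 (by omega)).sub_lower t3 (by omega)

lemma isLead_ldblZ {X₁ Z₁ : R[X]} {a' : ℕ} {cA : R} (hX : IsLead X₁ (a' + 1) 1)
    (hZ : IsLead Z₁ a' cA) :
    IsLead (ldblZ (C b₂) (C b₄) (C b₆) X₁ Z₁) (4 * a' + 3) (4 * cA) := by
  have t0 : IsLead (4 * X₁ ^ 3) (3 * a' + 3) 4 :=
    ((hX.pow 3).ofNat_mul 4).congr (by ring) (by ring)
  have t1 := ((hX.pow 2).C_mul b₂).mul hZ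
  have t2 := (((isLead_C b₄).ofNat_mul 2).mul hX).mul (hZ.pow 2)
  have t3 := (hZ.pow 3).C_mul b₆
  unfold ldblZ
  have := hZ.mul (((t0.add_lower t1 (by omega)).add_lower t2 (by omega)).add_lower t3 (by omega))
  exact this.congr (by ring) (by ring)

lemma isLead_cross_add {X₁ Z₁ X₂ Z₂ : R[X]} {a' b' : ℕ} {cA cB : R}
    (hX₁ : IsLead X₁ (a' + 1) 1) (hZ₁ : IsLead Z₁ a' cA)
    (hX₂ : IsLead X₂ (b' + 1) 1) (hZ₂ : IsLead Z₂ b' cB) :
    IsLead (X₁ * Z₂ + X₂ * Z₁) (a' + b' + 1) (cB + cA) :=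
  ((hX₁.mul hZ₂).congr (by ring) (by ring)).add ((hX₂.mul hZ₁).congr (by ring) (by ring))

lemma isLead_cross_sub {X₁ Z₁ X₂ Z₂ : R[X]} {a' b' : ℕ} {cA cB : R}
    (hX₁ : IsLead X₁ (a' + 1) 1) (hZ₁ : IsLead Z₁ a' cA)
    (hX₂ : IsLead X₂ (b' + 1) 1) (hZ₂ : IsLead Z₂ b' cB) :
    IsLead (X₁ * Z₂ - X₂ * Z₁) (a' + b' + 1) (cB - cA) :=
  ((hX₁.mul hZ₂).congr (by ring) (by ring)).sub ((hX₂.mul hZ₁).congr (by ring) (by ring))

lemma isLead_laddZ {X₁ Z₁ X₂ Z₂ : R[X]} {a' b' : ℕ} {cA cB : R}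
    (hX₁ : IsLead X₁ (a' + 1) 1) (hZ₁ : IsLead Z₁ a' cA)
    (hX₂ : IsLead X₂ (b' + 1) 1) (hZ₂ : IsLead Z₂ b' cB) :
    IsLead (laddZ X₁ Z₁ X₂ Z₂) (2 * a' + 2 * b' + 2) ((cB - cA) ^ 2) := by
  unfold laddZ
  exact ((isLead_cross_sub hX₁ hZ₁ hX₂ hZ₂).pow 2).congr (by ring) rfl

lemma isLead_laddX {X₁ Z₁ X₂ Z₂ : R[X]} {a' b' : ℕ} {cA cB : R}
    (hX₁ : IsLead X₁ (a' + 1) 1) (hZ₁ : IsLead Z₁ a' cA)
    (hX₂ : IsLead X₂ (b' + 1) 1) (hZ₂ : IsLead Z₂ b' cB) :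
    IsLead (laddX (C b₂) (C b₄) (C b₆) X X₁ Z₁ X₂ Z₂) (2 * a' + 2 * b' + 3)
      (2 * (cB + cA) - (cB - cA) ^ 2) := by
  have hadd := isLead_cross_add hX₁ hZ₁ hX₂ hZ₂
  have hsub := isLead_cross_sub hX₁ hZ₁ hX₂ hZ₂
  have t0 : IsLead (2 * X₁ * X₂ * (X₁ * Z₂ + X₂ * Z₁)) (2 * a' + 2 * b' + 3) (2 * (cB + cA)) :=
    (((hX₁.ofNat_mul 2).mul hX₂).mul hadd).congr (by ring) (by ring)
  have t1 := ((((hX₁.C_mul b₂).mul hX₂).mul hZ₁).mul hZ₂)
  have t2 := (((hZ₁.C_mul b₄).mul hZ₂).mul hadd)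
  have t3 := ((hZ₁.pow 2).C_mul b₆).mul (hZ₂.pow 2)
  have t4 : IsLead (X * (X₁ * Z₂ - X₂ * Z₁) ^ 2) (2 * a' + 2 * b' + 3) ((cB - cA) ^ 2) :=
    ((hsub.pow 2).X_mul).congr (by ring) rfl
  unfold laddX
  exact (((t0.add_lower t1 (by omega)).add_lower t2 (by omega)).add_lower t3 (by omega)).sub t4

end steps

section main

variable {R : Type*} [CommRing R] (W : WeierstrassCurve R)

/-- The ladder over `R[X]` with base point `X`. -/
noncomputable def ladPoly (n : ℕ) : (R[X] × R[X]) × (R[X] × R[X]) :=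
  lad (C W.b₂) (C W.b₄) (C W.b₆) (C W.b₈) (X : R[X]) n

/-- The degree invariant of the ladder, in the shifted form used by the step lemmas. -/
def LadInv (n : ℕ) : Prop :=
  ∃ a' b' : ℕ, n ^ 2 = a' + 1 ∧ (n + 1) ^ 2 = b' + 1 ∧
    IsLead (ladPoly W n).1.1 (a' + 1) 1 ∧ IsLead (ladPoly W n).1.2 a' ((n : R) ^ 2) ∧
    IsLead (ladPoly W n).2.1 (b' + 1) 1 ∧ IsLead (ladPoly W n).2.2 b' (((n : R) + 1) ^ 2)

lemma ladInv_one : LadInv W 1 := by
  refine ⟨0, 3, by norm_num, by norm_num, ?_, ?_, ?_, ?_⟩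
  all_goals
    have h1 : ladPoly W 1 = ladStep (C W.b₂) (C W.b₄) (C W.b₆) (C W.b₈) (X : R[X]) true
        ((1, 0), (X, 1)) := by
      have := lad_two_mul_add_one (C W.b₂) (C W.b₄) (C W.b₆) (C W.b₈) (X : R[X]) 0
      rw [lad_zero] at this
      simpa [ladPoly] using this
    rw [h1]
    simp only [ladStep, if_true]
  · have : laddX (C W.b₂) (C W.b₄) (C W.b₆) (X : R[X]) 1 0 X 1 = X := by
      simp only [laddX]; ring
    rw [this]; exact isLead_X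
  · have : laddZ (1 : R[X]) 0 X 1 = 1 := by simp only [laddZ]; ring
    rw [this]; simpa using (isLead_one (R := R))
  · exact (isLead_ldblX W.b₄ W.b₆ W.b₈ (a' := 0) isLead_X isLead_one).congr (by norm_num) rfl
  · exact (isLead_ldblZ W.b₂ W.b₄ W.b₆ (a' := 0) isLead_X isLead_one).congr (by norm_num)
      (by norm_num)

lemma ladInv_two_mul {n : ℕ} (h : LadInv W n) : LadInv W (2 * n) := by
  obtain ⟨a', b', ha, hb, hX₁, hZ₁, hX₂, hZ₂⟩ := h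
  refine ⟨4 * a' + 3, 2 * a' + 2 * b' + 2, by rw [mul_pow, ha]; ring, ?_, ?_, ?_, ?_, ?_⟩
  · have : (2 * n + 1) ^ 2 = 2 * n ^ 2 + 2 * (n + 1) ^ 2 - 1 := by
      have : 2 * n ^ 2 + 2 * (n + 1) ^ 2 = (2 * n + 1) ^ 2 + 1 := by ring
      omega
    rw [this, ha, hb]; omega
  all_goals
    simp only [ladPoly, lad_two_mul, ladStep, Bool.false_eq_true, if_false]
  · exact (isLead_ldblX W.b₄ W.b₆ W.b₈ hX₁ hZ₁).congr (by ring) rfl
  · exact (isLead_ldblZ W.b₂ W.b₄ W.b₆ hX₁ hZ₁).congr rfl (by push_cast; ring)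
  · exact (isLead_laddX W.b₂ W.b₄ W.b₆ hX₁ hZ₁ hX₂ hZ₂).congr (by ring) (by ring)
  · exact (isLead_laddZ hX₁ hZ₁ hX₂ hZ₂).congr rfl (by push_cast; ring)

lemma ladInv_two_mul_add_one {n : ℕ} (h : LadInv W n) : LadInv W (2 * n + 1) := by
  obtain ⟨a', b', ha, hb, hX₁, hZ₁, hX₂, hZ₂⟩ := h
  refine ⟨2 * a' + 2 * b' + 2, 4 * b' + 3, ?_, ?_, ?_, ?_, ?_, ?_⟩
  · have : (2 * n + 1) ^ 2 = 2 * n ^ 2 + 2 * (n + 1) ^ 2 - 1 := by
      have : 2 * n ^ 2 + 2 * (n + 1) ^ 2 = (2 * n + 1) ^ 2 + 1 := by ring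
      omega
    rw [this, ha, hb]; omega
  · have : (2 * n + 1 + 1) ^ 2 = 4 * (n + 1) ^ 2 := by ring
    rw [this, hb]; ring
  all_goals
    simp only [ladPoly, lad_two_mul_add_one, ladStep, if_true]
  · exact (isLead_laddX W.b₂ W.b₄ W.b₆ hX₁ hZ₁ hX₂ hZ₂).congr (by ring) (by ring)
  · exact (isLead_laddZ hX₁ hZ₁ hX₂ hZ₂).congr rfl (by push_cast; ring)
  · exact (isLead_ldblX W.b₄ W.b₆ W.b₈ hX₂ hZ₂).congr (by ring) rfl
  · exact (isLead_ldblZ W.b₂ W.b₄ W.b₆ hX₂ hZ₂).congr rfl (by push_cast; ring)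

theorem ladInv (n : ℕ) (hn : 0 < n) : LadInv W n := by
  induction n using Nat.strong_induction_on with
  | _ n ih =>
    rcases Nat.even_or_odd' n with ⟨k, rfl | rfl⟩
    · exact ladInv_two_mul W (ih k (by omega) (by omega))
    · rcases Nat.eq_zero_or_pos k with rfl | hk
      · exact ladInv_one W
      · exact ladInv_two_mul_add_one W (ih k (by omega) hk)

/-- Degree bound and top coefficient of the ladder polynomial `ladF W m`. -/
theorem ladF_isLead (m : ℕ) : IsLead (ladF W m) (2 * m ^ 2 + 2 * m) (2 * (m : R) + 1) := by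
  rcases Nat.eq_zero_or_pos m with rfl | hm
  · have : ladF W 0 = 1 := by simp [ladF, ladFval]
    rw [this]
    simpa using (isLead_one (R := R))
  · obtain ⟨a', b', ha, hb, hX₁, hZ₁, hX₂, hZ₂⟩ := ladInv W m hm
    have := isLead_cross_sub hX₁ hZ₁ hX₂ hZ₂
    refine this.congr ?_ (by ring)
    have h2 : (m + 1) ^ 2 = m ^ 2 + 2 * m + 1 := by ring
    omega

theorem ladF_natDegree_le (m : ℕ) : (ladF W m).natDegree ≤ 2 * m ^ 2 + 2 * m :=
  (ladF_isLead W m).1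

theorem ladF_coeff_top (m : ℕ) : (ladF W m).coeff (2 * m ^ 2 + 2 * m) = 2 * (m : R) + 1 :=
  (ladF_isLead W m).2

theorem ladF_natDegree (m : ℕ) (h : (2 * (m : R) + 1) ≠ 0) :
    (ladF W m).natDegree = 2 * m ^ 2 + 2 * m := by
  refine le_antisymm (ladF_natDegree_le W m) ?_
  apply le_natDegree_of_ne_zero
  rw [ladF_coeff_top]; exact h

theorem ladF_leadingCoeff (m : ℕ) (h : (2 * (m : R) + 1) ≠ 0) :
    (ladF W m).leadingCoeff = 2 * (m : R) + 1 := by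
  rw [leadingCoeff, ladF_natDegree W m h, ladF_coeff_top]

end main

end Fermat.Agent.S13lib
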