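/-
S13 library: existence of nonzero points of odd order `n` and the bound `#E[n] ≤ n²` over an
algebraically closed field, from the ladder polynomial.
-/
import Mathlib
import Fermat.Agent.S13lib.LadderDegree

set_option autoImplicit false
set_option linter.unusedSectionVars false

namespace Fermat.Agent.S13lib

open Polynomial WeierstrassCurve

section

variable {K : Type*} [Field K] [DecidableEq K] (W : Affine K)

/-- Over an algebraically closed field every `x` is the x-coordinate of a point of the curve. -/
lemma exists_equation_of_x [IsAlgClosed K] (x : K) : ∃ y : K, W.Equation x y := by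
  let q : K[X] := X ^ 2 + C (W.a₁ * x + W.a₃) * X - C (x ^ 3 + W.a₂ * x ^ 2 + W.a₄ * x + W.a₆)
  have hdeg : q.degree = 2 := by
    have h1 : (X ^ 2 + C (W.a₁ * x + W.a₃) * X : K[X]).degree = 2 := by
      rw [degree_add_eq_left_of_degree_lt]
      · simp
      · calc (C (W.a₁ * x + W.a₃) * X : K[X]).degree ≤ 1 := by
              refine (degree_C_mul_X_le _).trans le_rfl
          _ < (X ^ 2 : K[X]).degree := by simp
    rw [degree_sub_eq_left_of_degree_lt]
    · exact h1
    · rw [h1]; exact lt_of_le_of_lt degree_C_le (by norm_num)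
  obtain ⟨y, hy⟩ := IsAlgClosed.exists_root q (by rw [hdeg]; norm_num)
  refine ⟨y, ?_⟩
  rw [Affine.equation_iff]
  have : q.eval y = 0 := hy
  simp only [q, eval_sub, eval_add, eval_pow, eval_X, eval_mul, eval_C] at this
  linear_combination this

/-- **Existence of a nonzero point of odd order `2m+1`** on an elliptic curve over an
algebraically closed field in which `2m+1 ≠ 0`. -/
theorem exists_ne_zero_nsmul_eq_zero [IsAlgClosed K] (hΔ : W.Δ ≠ 0) (m : ℕ) (hm : 0 < m)
    (h : (2 * (m : K) + 1) ≠ 0) :
    ∃ P : W.Point, P ≠ 0 ∧ (2 * m + 1) • P = 0 := by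
  have hdeg : (ladF W m).degree ≠ 0 := by
    rw [degree_eq_natDegree, ladF_natDegree W m h]
    · have : 0 < 2 * m ^ 2 + 2 * m := by positivity
      exact_mod_cast this.ne'
    · intro h0
      have := ladF_leadingCoeff W m h
      rw [h0, leadingCoeff_zero] at this
      exact h this.symm
  obtain ⟨x, hx⟩ := IsAlgClosed.exists_root (ladF W m) hdeg
  obtain ⟨y, hy⟩ := exists_equation_of_x W x
  have hns : W.Nonsingular x y := (Affine.equation_iff_nonsingular_of_Δ_ne_zero hΔ).mp hy
  exact ⟨Affine.Point.some x y hns, Affine.Point.some_ne_zero hns,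
    (odd_nsmul_eq_zero_iff_ladF W hns m).mpr hx⟩

/-- Two affine points with the same x-coordinate are equal or opposite. -/
lemma eq_or_eq_neg_of_X_eq {x y y' : K} (h : W.Nonsingular x y) (h' : W.Nonsingular x y') :
    Affine.Point.some x y h = Affine.Point.some x y' h' ∨
      Affine.Point.some x y h = -Affine.Point.some x y' h' :=
  Affine.Point.X_eq_iff.mp rfl

open Classical in
/-- The (at most two) points with a given x-coordinate, as a finset. -/
noncomputable def fiberX (x : K) : Finset W.Point :=
  if h : ∃ y, W.Nonsingular x y then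
    {Affine.Point.some x h.choose h.choose_spec, -Affine.Point.some x h.choose h.choose_spec}
  else ∅

lemma card_fiberX_le (x : K) : (fiberX W x).card ≤ 2 := by
  classical
  unfold fiberX
  split_ifs
  · exact Finset.card_le_two
  · simp

lemma mem_fiberX {x y : K} (h : W.Nonsingular x y) : Affine.Point.some x y h ∈ fiberX W x := by
  classical
  have hex : ∃ y, W.Nonsingular x y := ⟨y, h⟩
  unfold fiberX
  rw [dif_pos hex]
  rcases eq_or_eq_neg_of_X_eq W h hex.choose_spec with e | e
  · rw [e]; exact Finset.mem_insert_self _ _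
  · rw [e]; exact Finset.mem_insert_of_mem (Finset.mem_singleton_self _)

lemma ladF_ne_zero (m : ℕ) (h : (2 * (m : K) + 1) ≠ 0) : ladF W m ≠ 0 := by
  intro h0
  have := ladF_leadingCoeff W m h
  rw [h0, leadingCoeff_zero] at this
  exact h this.symm

open Classical in
/-- The points of odd order dividing `2m+1` lie in an explicit finset. -/
theorem torsion_subset_finset (m : ℕ) (h : (2 * (m : K) + 1) ≠ 0) :
    {P : W.Point | (2 * m + 1) • P = 0} ⊆
      ↑(insert (0 : W.Point) ((ladF W m).roots.toFinset.biUnion (fiberX W))) := by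
  intro P hP
  simp only [Finset.coe_insert, Finset.coe_biUnion, Set.mem_insert_iff, Set.mem_iUnion]
  cases P with
  | zero => exact Or.inl rfl
  | some x y hxy =>
    right
    have hroot : (ladF W m).eval x = 0 := (odd_nsmul_eq_zero_iff_ladF W hxy m).mp hP
    refine ⟨x, ?_, mem_fiberX W hxy⟩
    simp only [Finset.mem_coe, Multiset.mem_toFinset, mem_roots', IsRoot.def]
    exact ⟨ladF_ne_zero W m h, hroot⟩

open Classical in
lemma card_torsion_finset_le (m : ℕ) :
    (insert (0 : W.Point) ((ladF W m).roots.toFinset.biUnion (fiberX W))).card ≤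
      (2 * m + 1) ^ 2 := by
  calc (insert (0 : W.Point) ((ladF W m).roots.toFinset.biUnion (fiberX W))).card
      ≤ ((ladF W m).roots.toFinset.biUnion (fiberX W)).card + 1 := Finset.card_insert_le _ _
    _ ≤ (∑ x ∈ (ladF W m).roots.toFinset, (fiberX W x).card) + 1 :=
        Nat.add_le_add_right Finset.card_biUnion_le 1
    _ ≤ (∑ _x ∈ (ladF W m).roots.toFinset, 2) + 1 :=
        Nat.add_le_add_right (Finset.sum_le_sum fun x _ => card_fiberX_le W x) 1
    _ = (ladF W m).roots.toFinset.card * 2 + 1 := by rw [Finset.sum_const, smul_eq_mul]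
    _ ≤ (2 * m ^ 2 + 2 * m) * 2 + 1 := by
        have h1 : (ladF W m).roots.toFinset.card ≤ Multiset.card (ladF W m).roots :=
          Multiset.toFinset_card_le _
        have h2 : Multiset.card (ladF W m).roots ≤ (ladF W m).natDegree := card_roots' _
        have h3 := ladF_natDegree_le W m
        omega
    _ = (2 * m + 1) ^ 2 := by ring

/-- **Finiteness of the torsion** of odd order. -/
theorem torsion_finite (m : ℕ) (h : (2 * (m : K) + 1) ≠ 0) :
    {P : W.Point | (2 * m + 1) • P = 0}.Finite := by
  classical
  exact (Finset.finite_toSet _).subset (torsion_subset_finset W m h)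

/-- **The bound `#E[n] ≤ n²`** for odd `n = 2m+1` with `n ≠ 0` in the field. -/
theorem ncard_torsion_le (m : ℕ) (h : (2 * (m : K) + 1) ≠ 0) :
    {P : W.Point | (2 * m + 1) • P = 0}.ncard ≤ (2 * m + 1) ^ 2 := by
  classical
  calc {P : W.Point | (2 * m + 1) • P = 0}.ncard
      ≤ (↑(insert (0 : W.Point) ((ladF W m).roots.toFinset.biUnion (fiberX W))) :
          Set W.Point).ncard :=
        Set.ncard_le_ncard (torsion_subset_finset W m h) (Finset.finite_toSet _)
    _ = (insert (0 : W.Point) ((ladF W m).roots.toFinset.biUnion (fiberX W))).card :=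
        Set.ncard_coe_finset _
    _ ≤ (2 * m + 1) ^ 2 := card_torsion_finset_le W m

end

end Fermat.Agent.S13lib
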