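/-
S13 library: the ladder polynomial of an integral Weierstrass curve, seen over `ℚ̄`.
-/
import Mathlib
import Fermat.Prelude.Def_FLTPrelim_GaloisRep
import Fermat.Agent.S13lib.LadderDegree

set_option autoImplicit false

namespace Fermat.Agent.S13lib

open Polynomial WeierstrassCurve

section

variable (Wz : WeierstrassCurve ℤ) (m : ℕ)

lemma two_mul_add_one_int_ne_zero : (2 * (m : ℤ) + 1) ≠ 0 := by positivity

lemma ladF_int_natDegree : (ladF Wz m).natDegree = 2 * m ^ 2 + 2 * m :=
  ladF_natDegree Wz m (two_mul_add_one_int_ne_zero m)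

lemma ladF_int_leadingCoeff : (ladF Wz m).leadingCoeff = ((2 * m + 1 : ℕ) : ℤ) := by
  rw [ladF_leadingCoeff Wz m (two_mul_add_one_int_ne_zero m)]
  push_cast; ring

lemma ladF_int_natDegree_pos (hm : 0 < m) : 0 < (ladF Wz m).natDegree := by
  rw [ladF_int_natDegree]; positivity

/-- Evaluating the integral ladder polynomial at an element of a field `K` of
characteristic zero (or any `ℤ`-algebra that is a commutative ring). -/
lemma aeval_ladF_int {K : Type*} [CommRing K] [Algebra ℤ K] (r : K) :
    aeval r (ladF Wz m) = (ladF (Wz.map (algebraMap ℤ K)) m).eval r := by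
  rw [← ladF_map, eval_map, aeval_def]

/-- The curve over `ℚ̄` obtained from `Wz` through `ℚ`. -/
lemma baseChange_map_int {K : Type*} [Field K] [Algebra ℚ K] :
    ((Wz.map (Int.castRingHom ℚ) : WeierstrassCurve ℚ)⁄K) = Wz.map (algebraMap ℤ K) := by
  rw [WeierstrassCurve.baseChange, WeierstrassCurve.map_map]
  congr 1
  exact RingHom.ext_int _ _

/-- **The integral ladder polynomial cuts out the odd torsion over `ℚ̄`** (or any field
extension `K` of `ℚ`). -/
theorem nsmul_eq_zero_iff_aeval_ladF_int {K : Type*} [Field K] [DecidableEq K] [Algebra ℚ K]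
    {x y : K}
    (h : ((Wz.map (Int.castRingHom ℚ) : WeierstrassCurve ℚ)⁄K).toAffine.Nonsingular x y) :
    (2 * m + 1) • (Affine.Point.some x y h :
        ((Wz.map (Int.castRingHom ℚ) : WeierstrassCurve ℚ)⁄K).toAffine.Point) = 0 ↔
      aeval x (ladF Wz m) = 0 := by
  rw [odd_nsmul_eq_zero_iff_ladF, aeval_ladF_int, baseChange_map_int]

end

end Fermat.Agent.S13lib
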