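/-
S13 long shot, brick [E1] (helper7): an open normal subgroup of `G_ℚ = Gal(ℚ̄/ℚ)` containing all
inertia groups (in the prelude's formalism `A.inertiaSubgroupIn ℚ`, `A` a valuation subring of `ℚ̄`
over a prime number) is everything.  Equivalently: a character of `G_ℚ` with open kernel which is
unramified at every prime is trivial (Minkowski: `ℚ` has no unramified extension).
-/
import Mathlib
import Fermat.Agent.ExtVan.InertiaLift
import Fermat.Agent.ExtVan.BridgeUnram

set_option autoImplicit false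
set_option linter.style.haveILetI false
set_option linter.unusedSectionVars false

noncomputable section

namespace Fermat.Agent.S13lib

open NumberField IsDedekindDomain
open scoped Pointwise

/-- the algebraic closure of `ℚ` used by the prelude. -/
abbrev Qbar : Type := AlgebraicClosure ℚ

/-- the absolute Galois group of `ℚ`. -/
abbrev GQ : Type := Qbar ≃ₐ[ℚ] Qbar

open Fermat.Agent.ExtVan in
/-- **Minkowski, Galois form**: an open normal subgroup of `G_ℚ` containing every inertia group is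
everything. -/
theorem eq_top_of_inertiaSubgroupIn_le (H : Subgroup GQ) [hn : H.Normal]
    (hopen : IsOpen (H : Set GQ))
    (hin : ∀ ℓ : ℕ, ℓ.Prime → ∀ A : ValuationSubring Qbar, A.LiesOverPrime ℓ →
      A.inertiaSubgroupIn ℚ ≤ H) : H = ⊤ := by
  have hclosed : IsClosed (H : Set GQ) := Subgroup.isClosed_of_isOpen _ hopen
  set M : IntermediateField ℚ Qbar := IntermediateField.fixedField H with hM
  have hfix : M.fixingSubgroup = H := InfiniteGalois.fixingSubgroup_fixedField ⟨H, hclosed⟩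
  haveI hfd : FiniteDimensional ℚ M :=
    (InfiniteGalois.isOpen_iff_finite M).mp (by rw [hfix]; exact hopen)
  haveI hgal : IsGalois ℚ M := by
    change @IsGalois ℚ _ M _ (IntermediateField.algebra' _)
    rw [← InfiniteGalois.normal_iff_isGalois, hfix]
    exact hn
  haveI hNF : NumberField M := ⟨⟩
  -- it suffices to show `[M : ℚ] = 1`
  suffices h1 : Module.finrank ℚ M = 1 by
    have hbot : M = ⊥ := IntermediateField.finrank_eq_one_iff.mp h1
    rw [← hfix, hbot, IntermediateField.fixingSubgroup_bot]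
  by_contra hne
  obtain ⟨P, hPmax, hPram⟩ := NumberField.exists_not_isUnramifiedAt_int (K := M) (𝒪 := 𝓞 M) hne
  haveI : P.IsPrime := hPmax.isPrime
  have hP0 : P ≠ ⊥ := Ring.ne_bot_of_isMaximal_of_not_isField hPmax (RingOfIntegers.not_isField M)
  -- the inertia group of `P` is nontrivial
  have hinert : ∃ σ : M ≃ₐ[ℚ] M, σ ∈ Ideal.inertia (M ≃ₐ[ℚ] M) P ∧ σ ≠ 1 := by
    by_contra hcon
    push Not at hcon
    apply hPram
    have hbot : Ideal.inertia (M ≃ₐ[ℚ] M) P = ⊥ := by
      rw [eq_bot_iff]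
      intro σ hσ
      exact Subgroup.mem_bot.mpr (hcon σ hσ)
    have h1 := Ideal.card_inertia_eq_ramificationIdxIn (G := (M ≃ₐ[ℚ] M)) (P.under ℤ) P
    rw [Ideal.ramificationIdxIn_eq_ramificationIdx (P.under ℤ) P (M ≃ₐ[ℚ] M), hbot,
      Subgroup.card_bot] at h1
    exact Ideal.ramificationIdx_eq_one_iff.mp h1.symm
  obtain ⟨σ, hσ, hσ1⟩ := hinert
  obtain ⟨ℓ, hℓ, hℓP⟩ := exists_prime_natCast_mem P hP0
  have hσin : ∀ x : 𝓞 M, σ • x - x ∈ P := fun x => (AddSubgroup.mem_inertia.mp hσ) x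
  obtain ⟨A, τ, hA, hτ, hτσ⟩ := InertiaLift.exists_inertia_lift M P hℓ.ne_zero hℓP σ hσin
  -- `τ ∈ H` fixes `M`, so `σ = 1`
  have hτH : τ ∈ M.fixingSubgroup := by rw [hfix]; exact hin ℓ hℓ A hA hτ
  apply hσ1
  rw [← hτσ]
  ext x
  have h1 := AlgEquiv.restrictNormal_commutes τ M x
  have h2 : τ (x : Qbar) = x := (IntermediateField.mem_fixingSubgroup_iff M τ).mp hτH x x.2
  show ((AlgEquiv.restrictNormalHom M τ) x : Qbar) = x
  exact h1.trans h2

/-- **Character form**: a homomorphism from `G_ℚ` with open kernel which kills every inertia group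
is trivial. -/
theorem monoidHom_eq_one_of_unramified {G : Type*} [Group G] (χ : GQ →* G)
    (hopen : IsOpen (χ.ker : Set GQ))
    (hin : ∀ ℓ : ℕ, ℓ.Prime → ∀ A : ValuationSubring Qbar, A.LiesOverPrime ℓ →
      ∀ σ ∈ A.inertiaSubgroupIn ℚ, χ σ = 1) (σ : GQ) : χ σ = 1 := by
  have h := eq_top_of_inertiaSubgroupIn_le χ.ker hopen
    (fun ℓ hℓ A hA σ hσ => MonoidHom.mem_ker.mpr (hin ℓ hℓ A hA σ hσ))
  have hσ : σ ∈ χ.ker := by rw [h]; exact Subgroup.mem_top σ
  exact MonoidHom.mem_ker.mp hσ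

/-- the same for two characters agreeing on all inertia groups. -/
theorem monoidHom_eq_of_eq_on_inertia {G : Type*} [CommGroup G] (χ ψ : GQ →* G)
    (hχ : IsOpen (χ.ker : Set GQ)) (hψ : IsOpen (ψ.ker : Set GQ))
    (hin : ∀ ℓ : ℕ, ℓ.Prime → ∀ A : ValuationSubring Qbar, A.LiesOverPrime ℓ →
      ∀ σ ∈ A.inertiaSubgroupIn ℚ, χ σ = ψ σ) (σ : GQ) : χ σ = ψ σ := by
  have hopen : IsOpen ((χ / ψ).ker : Set GQ) := by
    have hsub : χ.ker ⊓ ψ.ker ≤ (χ / ψ).ker := by
      intro τ hτ
      rw [Subgroup.mem_inf, MonoidHom.mem_ker, MonoidHom.mem_ker] at hτ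
      rw [MonoidHom.mem_ker, MonoidHom.div_apply, hτ.1, hτ.2, div_one]
    have hinf : IsOpen ((χ.ker ⊓ ψ.ker : Subgroup GQ) : Set GQ) := by
      rw [Subgroup.coe_inf]; exact hχ.inter hψ
    exact Subgroup.isOpen_mono hsub hinf
  have h := monoidHom_eq_one_of_unramified (χ / ψ) hopen
    (fun ℓ hℓ A hA τ hτ => by rw [MonoidHom.div_apply, hin ℓ hℓ A hA τ hτ, div_self']) σ
  rw [MonoidHom.div_apply] at h
  exact div_eq_one.mp h

end Fermat.Agent.S13lib
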