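/-
S13 long shot, brick [E1'] = WP5 (helper7): an open normal subgroup of `G_ℚ` containing, for every
prime number `ℓ`, the inertia group of at least ONE valuation subring of `ℚ̄` over `ℓ`, is everything.

Ingredients: every valuation subring `A` of `ℚ̄` over `ℓ` is the localization of the ring of all
algebraic integers at the prime `𝔓_A = 𝔪_A ∩ 𝓞`; inertia lifting for a GIVEN `A` (the proof of
`ExtVan.InertiaLift.exists_lift` with the prime of `𝓞 ℚ̄` as a parameter); Minkowski in the form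
"in a nontrivial Galois number field some rational prime ramifies at ALL primes above it".
-/
import Mathlib
import Fermat.Agent.S13lib.UnramTop

set_option autoImplicit false
set_option linter.style.haveILetI false
set_option linter.unusedSectionVars false

noncomputable section

namespace Fermat.Agent.S13lib

open NumberField IsDedekindDomain Fermat.Agent.ExtVan Fermat.Agent.ExtVan.InertiaLift
open scoped Pointwise

section PrimeOfVal

variable (A : ValuationSubring Qbar)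

/-- every algebraic integer lies in every valuation subring of `ℚ̄`. -/
theorem int_mem_valuationSubring (b : 𝓞 Qbar) : (b : Qbar) ∈ A := by
  have hint : IsIntegral ℤ (b : Qbar) := RingOfIntegers.isIntegral_coe b
  have hint' : IsIntegral A (b : Qbar) := hint.tower_top
  obtain ⟨y, hy⟩ := (IsIntegrallyClosed.isIntegral_iff (R := A) (K := Qbar)).mp hint'
  rw [← hy]
  exact y.2

/-- the prime `𝔪_A ∩ 𝓞` of the ring of all algebraic integers. -/
def primeOfVal : Ideal (𝓞 Qbar) where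
  carrier := {b | (b : Qbar) ∈ A.nonunits}
  add_mem' := by
    intro a b ha hb
    rw [Set.mem_ofPred_eq, ValuationSubring.mem_nonunits_iff] at ha hb ⊢
    have h : ((a + b : 𝓞 Qbar) : Qbar) = (a : Qbar) + (b : Qbar) := rfl
    rw [h]
    exact lt_of_le_of_lt (A.valuation.map_add _ _) (max_lt ha hb)
  zero_mem' := by
    rw [Set.mem_ofPred_eq, ValuationSubring.mem_nonunits_iff]
    have h : ((0 : 𝓞 Qbar) : Qbar) = 0 := rfl
    rw [h, map_zero]
    exact zero_lt_one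
  smul_mem' := by
    intro c b hb
    rw [Set.mem_ofPred_eq, ValuationSubring.mem_nonunits_iff] at hb ⊢
    have h : ((c • b : 𝓞 Qbar) : Qbar) = (c : Qbar) * (b : Qbar) := rfl
    rw [h, map_mul]
    have hc : A.valuation (c : Qbar) ≤ 1 :=
      (A.valuation_le_one_iff _).mpr (int_mem_valuationSubring A c)
    calc A.valuation (c : Qbar) * A.valuation (b : Qbar) ≤ 1 * A.valuation (b : Qbar) :=
          mul_le_mul_left hc _
      _ = A.valuation (b : Qbar) := one_mul _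
      _ < 1 := hb

theorem mem_primeOfVal {b : 𝓞 Qbar} : b ∈ primeOfVal A ↔ A.valuation (b : Qbar) < 1 := by
  change (b : Qbar) ∈ A.nonunits ↔ _
  rw [ValuationSubring.mem_nonunits_iff]

instance primeOfVal_isPrime : (primeOfVal A).IsPrime := by
  constructor
  · intro h
    have h1 : (1 : 𝓞 Qbar) ∈ primeOfVal A := h ▸ Submodule.mem_top
    rw [mem_primeOfVal] at h1
    have h2 : ((1 : 𝓞 Qbar) : Qbar) = 1 := rfl
    rw [h2, map_one] at h1
    exact lt_irrefl _ h1
  · intro a b hab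
    rw [mem_primeOfVal] at hab
    rw [mem_primeOfVal, mem_primeOfVal]
    have h : ((a * b : 𝓞 Qbar) : Qbar) = (a : Qbar) * (b : Qbar) := rfl
    rw [h, map_mul] at hab
    by_contra hcon
    push Not at hcon
    have ha : A.valuation (a : Qbar) = 1 := le_antisymm
      ((A.valuation_le_one_iff _).mpr (int_mem_valuationSubring A a)) hcon.1
    have hb : A.valuation (b : Qbar) = 1 := le_antisymm
      ((A.valuation_le_one_iff _).mpr (int_mem_valuationSubring A b)) hcon.2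
    rw [ha, hb, one_mul] at hab
    exact lt_irrefl _ hab

theorem natCast_mem_primeOfVal {ℓ : ℕ} (hA : A.LiesOverPrime ℓ) : (ℓ : 𝓞 Qbar) ∈ primeOfVal A := by
  change ((ℓ : 𝓞 Qbar) : Qbar) ∈ A.nonunits
  have h : ((ℓ : 𝓞 Qbar) : Qbar) = (ℓ : Qbar) := rfl
  rw [h]
  exact hA

/-- every valuation subring of `ℚ̄` over a prime number is the localization of the ring of all
algebraic integers at `primeOfVal A`. -/
theorem eq_locVal {ℓ : ℕ} (hℓ : ℓ ≠ 0) (hA : A.LiesOverPrime ℓ) :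
    A = locVal (primeOfVal A) hℓ (natCast_mem_primeOfVal A hA) := by
  have hle : locVal (primeOfVal A) hℓ (natCast_mem_primeOfVal A hA) ≤ A := by
    intro x hx
    obtain ⟨a, s, hs, h⟩ := hx
    have hs1 : A.valuation (s : Qbar) = 1 := by
      rw [mem_primeOfVal, not_lt] at hs
      exact le_antisymm ((A.valuation_le_one_iff _).mpr (int_mem_valuationSubring A s)) hs
    have ha : A.valuation (a : Qbar) ≤ 1 :=
      (A.valuation_le_one_iff _).mpr (int_mem_valuationSubring A a)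
    rw [← A.valuation_le_one_iff]
    have h' : A.valuation x * A.valuation (s : Qbar) = A.valuation (a : Qbar) := by
      rw [← map_mul]; exact congrArg _ h
    rw [hs1, mul_one] at h'
    rw [h']; exact ha
  apply le_antisymm _ hle
  intro x hx
  rcases mem_or_inv_mem_locSubring (primeOfVal A) hℓ (natCast_mem_primeOfVal A hA) x with h | h
  · exact h
  · by_cases hx0 : x = 0
    · rw [hx0]; exact (locVal (primeOfVal A) hℓ (natCast_mem_primeOfVal A hA)).zero_mem
    obtain ⟨a, s, hs, h⟩ := h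
    -- `x⁻¹ * s = a`, so `x * a = s`
    have hxa : x * algebraMap (𝓞 Qbar) Qbar a = algebraMap (𝓞 Qbar) Qbar s := by
      rw [← h, ← mul_assoc, mul_inv_cancel₀ hx0, one_mul]
    refine ⟨s, a, ?_, hxa⟩
    intro ha
    apply hs
    rw [mem_primeOfVal] at ha ⊢
    have h' : A.valuation x * A.valuation (a : Qbar) = A.valuation (s : Qbar) := by
      rw [← map_mul]; exact congrArg _ hxa
    rw [← h']
    calc A.valuation x * A.valuation (a : Qbar) ≤ 1 * A.valuation (a : Qbar) :=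
          mul_le_mul_left ((A.valuation_le_one_iff _).mpr hx) _
      _ = A.valuation (a : Qbar) := one_mul _
      _ < 1 := ha

end PrimeOfVal

section LiftAt

variable (M : IntermediateField ℚ Qbar) [IsGalois ℚ M]

/-- **Lifting of inertia elements at a given prime** of the ring of all algebraic integers
(the proof of `InertiaLift.exists_lift` with the prime as a parameter). -/
theorem exists_lift_at (𝔓 : Ideal (𝓞 Qbar)) [h𝔓prime : 𝔓.IsPrime] (σ : M ≃ₐ[ℚ] M)
    (hσ : ∀ x : 𝓞 M, σ • x - x ∈ 𝔓.under (𝓞 M)) :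
    ∃ τ : Qbar ≃ₐ[ℚ] Qbar, AlgEquiv.restrictNormalHom M τ = σ ∧ τ • 𝔓 = 𝔓 ∧
      ∀ b : 𝓞 Qbar, τ • b - b ∈ 𝔓 := by
  set Q : Ideal (𝓞 M) := 𝔓.under (𝓞 M) with hQ
  haveI : Q.IsPrime := inferInstanceAs (𝔓.under (𝓞 M)).IsPrime
  have : 𝔓.LiesOver Q := ⟨rfl⟩
  have hmem : ∀ x : 𝓞 M, algebraMap (𝓞 M) (𝓞 Qbar) x ∈ 𝔓 ↔ x ∈ Q := by
    intro x
    rw [hQ, Ideal.under_def, Ideal.mem_comap]
  -- an arbitrary lift of `σ`
  obtain ⟨g, hg⟩ := AlgEquiv.restrictNormalHom_surjective Qbar σ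
  have hσQ : ∀ x : 𝓞 M, σ • x ∈ Q ↔ x ∈ Q := by
    intro x
    constructor
    · intro h
      have := Q.sub_mem h (hσ x)
      rwa [sub_sub_cancel] at this
    · intro h
      have := Q.add_mem (hσ x) h
      rwa [sub_add_cancel] at this
  have hσQ' : ∀ x : 𝓞 M, σ⁻¹ • x ∈ Q ↔ x ∈ Q := by
    intro x
    rw [← hσQ (σ⁻¹ • x), smul_inv_smul]
  have h3 : (g • 𝔓).under (𝓞 M) = 𝔓.under (𝓞 M) := by
    ext x
    rw [Ideal.under_def, Ideal.under_def, Ideal.mem_comap, Ideal.mem_comap,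
      Ideal.mem_pointwise_smul_iff_inv_smul_mem, smul_algebraMap_int, map_inv, hg, hmem, hmem,
      hσQ']
  obtain ⟨n, hn⟩ := Algebra.IsInvariant.exists_smul_of_under_eq_of_profinite (A := 𝓞 M)
    (G := Qbar ≃ₐ[M] Qbar) (g • 𝔓) 𝔓 h3
  set g₁ : Qbar ≃ₐ[ℚ] Qbar := n.restrictScalars ℚ * g with hg₁
  have hg₁𝔓 : g₁ • 𝔓 = 𝔓 := by
    rw [hg₁, mul_smul, restrictScalars_smul_ideal, ← hn]
  have hg₁σ : AlgEquiv.restrictNormalHom M g₁ = σ := by
    rw [hg₁, map_mul, restrictNormalHom_restrictScalars, one_mul, hg]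
  let e : 𝓞 Qbar ≃+* 𝓞 Qbar := MulSemiringAction.toRingEquiv (Qbar ≃ₐ[ℚ] Qbar) (𝓞 Qbar) g₁
  have he : 𝔓 = 𝔓.map e := by
    conv_lhs => rw [← hg₁𝔓]
    rfl
  let φ : (𝓞 Qbar ⧸ 𝔓) ≃ₐ[𝓞 M ⧸ Q] (𝓞 Qbar ⧸ 𝔓) :=
    { Ideal.quotientEquiv 𝔓 𝔓 e he with
      commutes' := by
        rintro ⟨x⟩
        change Ideal.Quotient.mk 𝔓 (g₁ • algebraMap (𝓞 M) (𝓞 Qbar) x) =
          Ideal.Quotient.mk 𝔓 (algebraMap (𝓞 M) (𝓞 Qbar) x)
        rw [Ideal.Quotient.eq, smul_algebraMap_int, hg₁σ, ← map_sub, hmem]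
        exact hσ x }
  have hφ : ∀ b : 𝓞 Qbar, φ (Ideal.Quotient.mk 𝔓 b) = Ideal.Quotient.mk 𝔓 (g₁ • b) := fun b => rfl
  obtain ⟨⟨n₁, hn₁stab⟩, hn₁⟩ := Ideal.Quotient.stabilizerHom_surjective_of_profinite
    (G := Qbar ≃ₐ[M] Qbar) Q 𝔓 φ
  have hn₁' : ∀ b : 𝓞 Qbar, Ideal.Quotient.mk 𝔓 (n₁ • b) = φ (Ideal.Quotient.mk 𝔓 b) := by
    intro b
    rw [← hn₁]
    rfl
  have hn₁𝔓 : n₁ • 𝔓 = 𝔓 := hn₁stab
  refine ⟨(n₁.restrictScalars ℚ)⁻¹ * g₁, ?_, ?_, ?_⟩
  · rw [map_mul, map_inv, restrictNormalHom_restrictScalars, inv_one, one_mul, hg₁σ]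
  · rw [mul_smul, hg₁𝔓, inv_smul_eq_iff, restrictScalars_smul_ideal, hn₁𝔓]
  · intro b
    rw [← Ideal.Quotient.eq]
    apply φ.injective
    rw [hφ b, ← hn₁', mul_smul]
    congr 1
    change n₁ • ((n₁.restrictScalars ℚ)⁻¹ • (g₁ • b)) = g₁ • b
    have : (n₁.restrictScalars ℚ)⁻¹ • (g₁ • b) = n₁⁻¹ • (g₁ • b) := rfl
    rw [this, smul_inv_smul]

/-- **Inertia lifting at a given valuation subring**: for `A` over `ℓ`, every element of the inertia
group of the prime `𝔪_A ∩ 𝓞 M` of a finite Galois `M / ℚ` lifts to `A.inertiaSubgroupIn ℚ`. -/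
theorem exists_inertia_lift_at (A : ValuationSubring Qbar) {ℓ : ℕ} (hℓ : ℓ ≠ 0)
    (hA : A.LiesOverPrime ℓ) (σ : M ≃ₐ[ℚ] M)
    (hσ : ∀ x : 𝓞 M, σ • x - x ∈ (primeOfVal A).under (𝓞 M)) :
    ∃ τ : Qbar ≃ₐ[ℚ] Qbar, τ ∈ A.inertiaSubgroupIn ℚ ∧ AlgEquiv.restrictNormalHom M τ = σ := by
  obtain ⟨τ, hτσ, hτ𝔓, hτ⟩ := exists_lift_at M (primeOfVal A) σ hσ
  refine ⟨τ, ?_, hτσ⟩
  have h := mem_inertiaSubgroupIn_locVal (primeOfVal A) hℓ (natCast_mem_primeOfVal A hA) τ hτ𝔓 hτ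
  rwa [← eq_locVal A hℓ hA] at h

end LiftAt

/-- a ramified prime of a Galois number field has a nontrivial inertia element. -/
theorem exists_mem_inertia_ne_one (M : IntermediateField ℚ Qbar) [FiniteDimensional ℚ M]
    [IsGalois ℚ M] (P : Ideal (𝓞 M)) [P.IsPrime]
    (hPram : ¬ Algebra.IsUnramifiedAt ℤ P) :
    ∃ σ : M ≃ₐ[ℚ] M, σ ∈ Ideal.inertia (M ≃ₐ[ℚ] M) P ∧ σ ≠ 1 := by
  haveI hNF : NumberField M := ⟨⟩
  by_contra hcon
  push Not at hcon
  apply hPram
  have hbot : Ideal.inertia (M ≃ₐ[ℚ] M) P = ⊥ := by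
    rw [eq_bot_iff]
    intro σ hσ
    exact Subgroup.mem_bot.mpr (hcon σ hσ)
  have h1 := Ideal.card_inertia_eq_ramificationIdxIn (G := (M ≃ₐ[ℚ] M)) (P.under ℤ) P
  rw [Ideal.ramificationIdxIn_eq_ramificationIdx (P.under ℤ) P (M ≃ₐ[ℚ] M), hbot,
    Subgroup.card_bot] at h1
  exact Ideal.ramificationIdx_eq_one_iff.mp h1.symm

/-- **Minkowski, Galois form, one place per prime**: an open normal subgroup of `G_ℚ` containing,
for every prime number `ℓ`, the inertia group of SOME valuation subring over `ℓ`, is everything. -/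
theorem eq_top_of_exists_inertiaSubgroupIn_le (H : Subgroup GQ) [hn : H.Normal]
    (hopen : IsOpen (H : Set GQ))
    (hin : ∀ ℓ : ℕ, ℓ.Prime → ∃ A : ValuationSubring Qbar, A.LiesOverPrime ℓ ∧
      A.inertiaSubgroupIn ℚ ≤ H) : H = ⊤ := by
  have hclosed : IsClosed (H : Set GQ) := Subgroup.isClosed_of_isOpen _ hopen
  set M : IntermediateField ℚ Qbar := IntermediateField.fixedField H with hM
  have hfix : M.fixingSubgroup = H := InfiniteGalois.fixingSubgroup_fixedField ⟨H, hclosed⟩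
  haveI hfd : FiniteDimensional ℚ M :=
    (InfiniteGalois.isOpen_iff_finite M).mp (by rw [hfix]; exact hopen)
  haveI hgal : IsGalois ℚ M := by
    change @IsGalois ℚ _ M _ (IntermediateField.algebra' _)
    rw [← InfiniteGalois.normal_iff_isGalois, hfix]
    exact hn
  haveI hNF : NumberField M := ⟨⟩
  suffices h1 : Module.finrank ℚ M = 1 by
    have hbot : M = ⊥ := IntermediateField.finrank_eq_one_iff.mp h1
    rw [← hfix, hbot, IntermediateField.fixingSubgroup_bot]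
  by_contra hne
  have hlt : 1 < Module.finrank ℚ M := by
    have hpos : 0 < Module.finrank ℚ M := Module.finrank_pos
    omega
  obtain ⟨ℓ, hℓ, hram⟩ :=
    NumberField.exists_not_isUnramifiedAt_int_of_isGalois (K := M) (𝒪 := 𝓞 M) hlt
  obtain ⟨A, hA, hAH⟩ := hin ℓ hℓ
  set P : Ideal (𝓞 M) := (primeOfVal A).under (𝓞 M) with hP
  haveI : P.IsPrime := inferInstanceAs ((primeOfVal A).under (𝓞 M)).IsPrime
  have hℓP : (ℓ : 𝓞 M) ∈ P := by
    rw [hP, Ideal.under_def, Ideal.mem_comap, map_natCast]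
    exact natCast_mem_primeOfVal A hA
  obtain ⟨σ, hσ, hσ1⟩ := exists_mem_inertia_ne_one M P (hram P inferInstance hℓP)
  have hσin : ∀ x : 𝓞 M, σ • x - x ∈ P := fun x => (AddSubgroup.mem_inertia.mp hσ) x
  obtain ⟨τ, hτ, hτσ⟩ := exists_inertia_lift_at M A hℓ.ne_zero hA σ hσin
  have hτH : τ ∈ M.fixingSubgroup := by rw [hfix]; exact hAH hτ
  apply hσ1
  rw [← hτσ]
  ext x
  have h1 := AlgEquiv.restrictNormal_commutes τ M x
  have h2 : τ (x : Qbar) = x := (IntermediateField.mem_fixingSubgroup_iff M τ).mp hτH x x.2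
  show ((AlgEquiv.restrictNormalHom M τ) x : Qbar) = x
  exact h1.trans h2

end Fermat.Agent.S13lib
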