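/-
S13 long shot (helper7): two small global inputs of the assembly.
* `exists_liesOverPrime`: every prime number has a place in `ℚ̄` (a valuation subring over it).
* `isOpen_stabilizer_point`, `isOpen_stabilizer_torsion`: the stabilizer in `G_ℚ` of a `ℚ̄`-point of a
  Weierstrass curve over `ℚ` (resp. of a torsion point, in the prelude's action) is open.
-/
import Mathlib
import Fermat.Prelude.Def_FLTPrelim_GaloisRep
import Fermat.Agent.S13lib.UnramTopOne

set_option autoImplicit false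
set_option linter.style.haveILetI false
set_option linter.unusedSectionVars false

noncomputable section

namespace Fermat.Agent.S13lib

open NumberField Fermat.Agent.ExtVan.InertiaLift WeierstrassCurve WeierstrassCurve.Affine
  WeierstrassCurve.Affine.Point

/-- every prime number has a place in `ℚ̄`. -/
theorem exists_liesOverPrime {ℓ : ℕ} (hℓ : ℓ.Prime) :
    ∃ A : ValuationSubring Qbar, A.LiesOverPrime ℓ := by
  -- `ℓ` is not a unit in the ring of all algebraic integers
  have hnu : ¬ IsUnit (ℓ : 𝓞 Qbar) := by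
    rintro ⟨u, hu⟩
    have h1 : ((u⁻¹ : (𝓞 Qbar)ˣ) : 𝓞 Qbar) * (ℓ : 𝓞 Qbar) = 1 := by rw [← hu]; exact u.inv_mul
    have hint : IsIntegral ℤ (((u⁻¹ : (𝓞 Qbar)ˣ) : 𝓞 Qbar) : Qbar) := RingOfIntegers.isIntegral_coe _
    have h2 : (((u⁻¹ : (𝓞 Qbar)ˣ) : 𝓞 Qbar) : Qbar) * (ℓ : Qbar) = 1 := by
      have := congrArg (fun z : 𝓞 Qbar => (z : Qbar)) h1
      simpa using this
    have hℓ0 : (ℓ : Qbar) ≠ 0 := Nat.cast_ne_zero.mpr hℓ.ne_zero
    have h3 : (((u⁻¹ : (𝓞 Qbar)ˣ) : 𝓞 Qbar) : Qbar) = algebraMap ℚ Qbar ((ℓ : ℚ)⁻¹) := by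
      rw [map_inv₀, map_natCast]
      exact eq_inv_of_mul_eq_one_left h2
    rw [h3, isIntegral_algebraMap_iff (algebraMap ℚ Qbar).injective] at hint
    obtain ⟨n, hn⟩ := (IsIntegrallyClosed.isIntegral_iff (R := ℤ) (K := ℚ)).mp hint
    have h4 : (n : ℚ) * (ℓ : ℚ) = 1 := by
      have : (algebraMap ℤ ℚ n) = (n : ℚ) := rfl
      rw [← this, hn, inv_mul_cancel₀ (Nat.cast_ne_zero.mpr hℓ.ne_zero)]
    have h5 : n * (ℓ : ℤ) = 1 := by exact_mod_cast h4
    have h6 : (ℓ : ℤ) ∣ 1 := Dvd.intro_left n h5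
    have h7 : ℓ ∣ 1 := by exact_mod_cast h6
    exact hℓ.one_lt.ne' (Nat.dvd_one.mp h7)
  obtain ⟨𝔓, h𝔓max, h𝔓⟩ := exists_max_ideal_of_mem_nonunits hnu
  haveI : 𝔓.IsPrime := h𝔓max.isPrime
  exact ⟨locVal 𝔓 hℓ.ne_zero h𝔓, liesOverPrime_locVal 𝔓 hℓ.ne_zero h𝔓⟩

section Open

variable (W : Affine ℚ)

/-- the stabilizer in `G_ℚ` of a `ℚ̄`-point of `W` is open. -/
theorem isOpen_stabilizer_point (P : (W⁄Qbar).Point) :
    IsOpen (MulAction.stabilizer GQ P : Set GQ) := by
  rcases P with _ | ⟨x, y, h⟩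
  · have : MulAction.stabilizer GQ (Point.zero : (W⁄Qbar).Point) = ⊤ := by
      rw [eq_top_iff]
      intro σ _
      rw [MulAction.mem_stabilizer_iff]
      rfl
    rw [this]
    exact isOpen_univ
  · have hx := stabilizer_isOpen_of_isIntegral (K := ℚ) (L := Qbar) x
    have hy := stabilizer_isOpen_of_isIntegral (K := ℚ) (L := Qbar) y
    have hinf : IsOpen ((MulAction.stabilizer GQ x ⊓ MulAction.stabilizer GQ y : Subgroup GQ) :
        Set GQ) := by
      rw [Subgroup.coe_inf]; exact hx.inter hy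
    refine Subgroup.isOpen_mono ?_ hinf
    intro σ hσ
    rw [Subgroup.mem_inf, MulAction.mem_stabilizer_iff, MulAction.mem_stabilizer_iff] at hσ
    rw [MulAction.mem_stabilizer_iff]
    change Point.map σ.toAlgHom (Point.some x y h) = Point.some x y h
    rw [Point.map_some]
    have hx' : σ.toAlgHom x = x := hσ.1
    have hy' : σ.toAlgHom y = y := hσ.2
    simp only [hx', hy']

/-- set form of `isOpen_stabilizer_point`. -/
theorem isOpen_setOf_smul_eq (P : (W⁄Qbar).Point) : IsOpen {σ : GQ | σ • P = P} := by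
  have h := isOpen_stabilizer_point W P
  convert h using 1
  ext σ
  simp only [Set.mem_ofPred_eq, SetLike.mem_coe, MulAction.mem_stabilizer_iff]

/-- the stabilizer of a torsion point, for the prelude's action on `torsionBy`. -/
theorem isOpen_setOf_smul_eq_torsion (n : ℕ) (x : Submodule.torsionBy ℤ (W⁄Qbar).Point n) :
    IsOpen {σ : GQ | σ • x = x} := by
  have h := isOpen_setOf_smul_eq W (x : (W⁄Qbar).Point)
  convert h using 1
  ext σ
  simp only [Set.mem_ofPred_eq]
  constructor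
  · intro hσ
    exact congrArg Subtype.val hσ
  · intro hσ
    exact Subtype.ext hσ

/-- for finite torsion, the kernel of the action is open. -/
theorem isOpen_setOf_forall_smul_eq (n : ℕ) [Finite (Submodule.torsionBy ℤ (W⁄Qbar).Point n)] :
    IsOpen {σ : GQ | ∀ x : Submodule.torsionBy ℤ (W⁄Qbar).Point n, σ • x = x} := by
  have : {σ : GQ | ∀ x : Submodule.torsionBy ℤ (W⁄Qbar).Point n, σ • x = x} =
      ⋂ x : Submodule.torsionBy ℤ (W⁄Qbar).Point n, {σ : GQ | σ • x = x} := by
    ext σ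
    simp only [Set.mem_ofPred_eq, Set.mem_iInter]
  rw [this]
  exact isOpen_iInter_of_finite fun x => isOpen_setOf_smul_eq_torsion W n x

end Open

end Fermat.Agent.S13lib
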