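/-
S13 library, brick [C1] (helper8): a ring endomorphism `σ` of a valued field preserving the
valuation ring preserves the valuation of every element with finite `σ`-orbit.  In particular the
decomposition group of a valuation subring of `AlgebraicClosure ℚ` preserves the valuation.
-/
import Mathlib
import Fermat.Agent.S05lib.SigmaVal

set_option autoImplicit false

namespace Fermat.Agent.S13lib

open Fermat.Agent.S05lib

section abstract

variable {K : Type*} [Field K] {Γ₀ : Type*} [LinearOrderedCommGroupWithZero Γ₀]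
  {v : Valuation K Γ₀} {σ : K →+* K}

lemma iterate_ne_zero {x : K} (hx : x ≠ 0) (k : ℕ) : σ^[k] x ≠ 0 := by
  induction k with
  | zero => simpa using hx
  | succ k ih =>
    rw [Function.iterate_succ_apply']
    exact (map_ne_zero σ).mpr ih

lemma iterate_val_pos {x : K} (hx : x ≠ 0) (k : ℕ) : 0 < v (σ^[k] x) :=
  zero_lt_iff.mpr ((Valuation.ne_zero_iff v).mpr (iterate_ne_zero hx k))

lemma iterate_ratio_gt (hσA : ∀ x, v (σ x) ≤ 1 ↔ v x ≤ 1) {x : K}
    (h : v x < v (σ x)) (k : ℕ) : v (σ^[k] x) < v (σ^[k + 1] x) := by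
  have hx : x ≠ 0 := by
    rintro rfl
    simp at h
  induction k with
  | zero => simpa using h
  | succ k ih =>
    have h1 : 1 < v (σ^[k + 1] x / σ^[k] x) := by
      rw [map_div₀, one_lt_div₀ (iterate_val_pos hx k)]
      exact ih
    have h2 := one_lt_sigma hσA h1
    rw [map_div₀, ← Function.iterate_succ_apply' σ, ← Function.iterate_succ_apply' σ, map_div₀,
      one_lt_div₀ (iterate_val_pos hx (k + 1))] at h2
    exact h2

lemma iterate_gt (hσA : ∀ x, v (σ x) ≤ 1 ↔ v x ≤ 1) {x : K}
    (h : v x < v (σ x)) (k : ℕ) : v x < v (σ^[k + 1] x) := by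
  induction k with
  | zero => simpa using h
  | succ k ih => exact lt_trans ih (iterate_ratio_gt hσA h (k + 1))

lemma iterate_ratio_lt (hσA : ∀ x, v (σ x) ≤ 1 ↔ v x ≤ 1) {x : K}
    (h : v (σ x) < v x) (k : ℕ) : v (σ^[k + 1] x) < v (σ^[k] x) := by
  have hx : x ≠ 0 := by
    rintro rfl
    simp at h
  induction k with
  | zero => simpa using h
  | succ k ih =>
    have h1 : 1 < v (σ^[k] x / σ^[k + 1] x) := by
      rw [map_div₀, one_lt_div₀ (iterate_val_pos hx (k + 1))]
      exact ih
    have h2 := one_lt_sigma hσA h1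
    rw [map_div₀, ← Function.iterate_succ_apply' σ, ← Function.iterate_succ_apply' σ, map_div₀,
      one_lt_div₀ (iterate_val_pos hx (k + 1 + 1))] at h2
    exact h2

lemma iterate_lt (hσA : ∀ x, v (σ x) ≤ 1 ↔ v x ≤ 1) {x : K}
    (h : v (σ x) < v x) (k : ℕ) : v (σ^[k + 1] x) < v x := by
  induction k with
  | zero => simpa using h
  | succ k ih => exact lt_trans (iterate_ratio_lt hσA h (k + 1)) ih

/-- **Valuation invariance** for elements with finite orbit. -/
theorem val_sigma_eq_of_iterate_eq (hσA : ∀ x, v (σ x) ≤ 1 ↔ v x ≤ 1) {x : K} {n : ℕ}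
    (hn : σ^[n + 1] x = x) : v (σ x) = v x := by
  rcases lt_trichotomy (v (σ x)) (v x) with h | h | h
  · have := iterate_lt hσA h n
    rw [hn] at this
    exact absurd this (lt_irrefl _)
  · exact h
  · have := iterate_gt hσA h n
    rw [hn] at this
    exact absurd this (lt_irrefl _)

end abstract

section algebraic

variable {F L : Type*} [Field F] [Field L] [Algebra F L] [Algebra.IsAlgebraic F L]

/-- every element of an algebraic extension has finite orbit under an automorphism. -/
theorem exists_iterate_eq (σ : L ≃ₐ[F] L) (x : L) : ∃ n : ℕ, (⇑σ)^[n + 1] x = x := by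
  classical
  have hx : IsAlgebraic F x := Algebra.IsAlgebraic.isAlgebraic x
  have hint : IsIntegral F x := hx.isIntegral
  set S : Set L := (minpoly F x).rootSet L with hS
  have hfin : S.Finite := Polynomial.rootSet_finite _ _
  have hmem : ∀ k : ℕ, (⇑σ)^[k] x ∈ S := by
    intro k
    rw [hS, Polynomial.mem_rootSet]
    refine ⟨minpoly.ne_zero hint, ?_⟩
    have : (⇑σ)^[k] x = (σ ^ k) x := by
      induction k with
      | zero => simp
      | succ k ih => rw [Function.iterate_succ_apply', ih, pow_succ']; rfl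
    rw [this, Polynomial.aeval_algEquiv, AlgHom.comp_apply, minpoly.aeval, map_zero]
  obtain ⟨i, j, hij, heq⟩ : ∃ i j : ℕ, i ≠ j ∧ (⇑σ)^[i] x = (⇑σ)^[j] x := by
    by_contra hcon
    push Not at hcon
    have hinj : Function.Injective (fun k : ℕ => (⟨(⇑σ)^[k] x, hmem k⟩ : S)) := by
      intro i j h
      by_contra hne
      exact hcon i j hne (congrArg Subtype.val h)
    have := hfin.to_subtype
    exact not_injective_infinite_finite _ hinj
  wlog hlt : i < j generalizing i j
  · exact this j i hij.symm heq.symm (lt_of_le_of_ne (not_lt.mp hlt) hij.symm)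
  obtain ⟨d, rfl⟩ : ∃ d, j = i + (d + 1) := ⟨j - i - 1, by omega⟩
  refine ⟨d, ?_⟩
  have hinj : Function.Injective (⇑σ)^[i] := σ.injective.iterate i
  rw [Function.iterate_add_apply] at heq
  exact (hinj heq).symm

/-- **an automorphism of an algebraic extension preserving a valuation ring preserves the
valuation.** -/
theorem val_algEquiv_eq {Γ₀ : Type*} [LinearOrderedCommGroupWithZero Γ₀] {v : Valuation L Γ₀}
    (σ : L ≃ₐ[F] L) (hσA : ∀ x, v (σ x) ≤ 1 ↔ v x ≤ 1) (x : L) : v (σ x) = v x := by
  obtain ⟨n, hn⟩ := exists_iterate_eq σ x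
  exact val_sigma_eq_of_iterate_eq (σ := (σ : L →+* L)) (fun y => hσA y) (n := n) hn

end algebraic

end Fermat.Agent.S13lib
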