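/-
S13 library, ASSEMBLY (helper5): brick-independent glue.

For a Weierstrass curve `W` over `ℚ`, a prime `p` and `V = E[p](ℚ̄)` (with the Prelude's Galois
action), the theorem `hasCofixedLine_of_bricks` derives `HasGaloisStableCofixedLine` from
`¬ GaloisRepIsIrreducible` and the following inputs:
* `V` is nontrivial, finite, with at most `p ^ 2` elements;
* point stabilisers are open;
* inertia at every `ℓ ≠ p` acts unipotently on `V`;
* for every Galois-stable line `N` there is ONE valuation subring `A` over `p` whose inertia group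
  acts trivially on `N` or on `V / N`;
* no nonzero point of `V` is fixed by the whole Galois group;
* Minkowski in Galois form (an open normal subgroup containing one inertia group over every prime
  is everything).
-/
import Mathlib
import Fermat.Prelude.Def_FLTPrelim_GaloisRep
import Fermat.Prelude.Def_FLTPrelim_Ramification
import Fermat.Prelude.Def_FLTPrelim_CofixedLine
import Fermat.Agent.S13lib.UnramTop

set_option autoImplicit false

namespace Fermat.Agent.S13lib

open WeierstrassCurve WeierstrassCurve.Affine WeierstrassCurve.Affine.Point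

section LinAlg

variable {p : ℕ} [hp : Fact p.Prime] {V : Type*} [AddCommGroup V] [Module (ZMod p) V]
  {G : Type*} [Group G] [DistribMulAction G V]

/-- additive group actions commute with `ZMod p`-scalars (assembly copy). -/
theorem asm_smul_zmod_smul (σ : G) (c : ZMod p) (x : V) : σ • (c • x) = c • (σ • x) := by
  obtain ⟨n, rfl⟩ := ZMod.natCast_zmod_surjective c
  rw [Nat.cast_smul_eq_nsmul, Nat.cast_smul_eq_nsmul]
  exact smul_comm σ n x

/-- cardinalities of a proper nonzero submodule of a space with at most `p ^ 2` elements. -/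
theorem card_eq_of_ne_bot_ne_top [Finite V] (hV : Nat.card V ≤ p ^ 2)
    (N : Submodule (ZMod p) V) (hbot : N ≠ ⊥) (htop : N ≠ ⊤) :
    Nat.card V = p ^ 2 ∧ Nat.card N = p := by
  have hp1 : 1 < p := hp.out.one_lt
  have hcV : Nat.card V = p ^ Module.finrank (ZMod p) V := by
    rw [Module.natCard_eq_pow_finrank (K := ZMod p) (V := V), Nat.card_zmod]
  have hcN : Nat.card N = p ^ Module.finrank (ZMod p) N := by
    rw [Module.natCard_eq_pow_finrank (K := ZMod p) (V := N), Nat.card_zmod]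
  have h1 : 0 < Module.finrank (ZMod p) N := by
    rw [Module.finrank_pos_iff (R := ZMod p)]
    exact (Submodule.nontrivial_iff_ne_bot).mpr hbot
  have h2 : Module.finrank (ZMod p) N < Module.finrank (ZMod p) V :=
    Submodule.finrank_lt htop
  have h3 : Module.finrank (ZMod p) V ≤ 2 := by
    rw [hcV] at hV
    exact (Nat.pow_le_pow_iff_right hp1).mp hV
  have h4 : Module.finrank (ZMod p) V = 2 := by omega
  have h5 : Module.finrank (ZMod p) N = 1 := by omega
  exact ⟨by rw [hcV, h4], by rw [hcN, h5, pow_one]⟩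

/-- a line is spanned by any of its nonzero elements. -/
theorem asm_exists_smul_eq (N : Submodule (ZMod p) V) (hN : Nat.card N = p) {x : V}
    (hx : x ∈ N) (hx0 : x ≠ 0) {z : V} (hz : z ∈ N) : ∃ c : ZMod p, z = c • x := by
  have : Finite N := Nat.finite_of_card_ne_zero (by rw [hN]; exact hp.out.ne_zero)
  let f : ZMod p → N := fun c => ⟨c • x, N.smul_mem c hx⟩
  have hf : Function.Injective f := by
    intro c d hcd
    have h1 : c • x = d • x := congrArg Subtype.val hcd
    have h2 : (c - d) • x = 0 := by rw [sub_smul, h1, sub_self]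
    rcases smul_eq_zero.mp h2 with h3 | h3
    · exact sub_eq_zero.mp h3
    · exact absurd h3 hx0
  have hbij : Function.Bijective f := by
    rw [Nat.bijective_iff_injective_and_card]
    exact ⟨hf, by rw [Nat.card_zmod, hN]⟩
  obtain ⟨c, hc⟩ := hbij.2 ⟨z, hz⟩
  exact ⟨c, (congrArg Subtype.val hc).symm⟩

/-- a complement vector spans the quotient by a line in a `p ^ 2`-element space. -/
theorem asm_exists_decomp (hV : Nat.card V = p ^ 2) (N : Submodule (ZMod p) V)
    (hN : Nat.card N = p) {y : V} (hy : y ∉ N) (z : V) :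
    ∃ m ∈ N, ∃ d : ZMod p, z = m + d • y := by
  have : Finite V := Nat.finite_of_card_ne_zero (by rw [hV]; exact pow_ne_zero _ hp.out.ne_zero)
  let f : N × ZMod p → V := fun q => (q.1 : V) + q.2 • y
  have hf : Function.Injective f := by
    rintro ⟨m, d⟩ ⟨m', d'⟩ h
    have h1 : (m : V) + d • y = (m' : V) + d' • y := h
    have h2 : (d - d') • y = (m' : V) - (m : V) := by
      rw [sub_smul]
      have : d • y = (m' : V) + d' • y - (m : V) := by rw [← h1]; abel
      rw [this]; abel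
    have hd : d = d' := by
      by_contra hne
      apply hy
      have h3 : (d - d') • y ∈ N := by rw [h2]; exact N.sub_mem m'.2 m.2
      have := N.smul_mem (d - d')⁻¹ h3
      rwa [smul_smul, inv_mul_cancel₀ (sub_ne_zero.mpr hne), one_smul] at this
    have hm : (m : V) = (m' : V) := by
      rw [hd] at h1
      exact add_right_cancel h1
    exact Prod.ext (Subtype.ext hm) hd
  have hbij : Function.Bijective f := by
    rw [Nat.bijective_iff_injective_and_card]
    refine ⟨hf, ?_⟩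
    rw [Nat.card_prod, hN, Nat.card_zmod, hV, pow_two]
  obtain ⟨⟨m, d⟩, hmd⟩ := hbij.2 z
  exact ⟨m, m.2, d, hmd.symm⟩

/-- **Unipotent ⇒ trivial on a stable line and on the quotient.** -/
theorem unipotent_line (hV : Nat.card V = p ^ 2) (N : Submodule (ZMod p) V)
    (hN : Nat.card N = p) (σ : G) (hst : ∀ x ∈ N, σ • x ∈ N)
    (huni : ∀ x : V, σ • (σ • x - x) - (σ • x - x) = 0) :
    (∀ x ∈ N, σ • x = x) ∧ (∀ x : V, σ • x - x ∈ N) := by
  have : Finite V := Nat.finite_of_card_ne_zero (by rw [hV]; exact pow_ne_zero _ hp.out.ne_zero)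
  have hp1 : 1 < p := hp.out.one_lt
  -- a nonzero element of `N`
  have hNnt : ∃ x ∈ N, x ≠ 0 := by
    by_contra hcon
    push Not at hcon
    have : N = ⊥ := (Submodule.eq_bot_iff N).mpr hcon
    rw [this] at hN
    have h1 : Nat.card (⊥ : Submodule (ZMod p) V) = 1 := Nat.card_unique
    omega
  obtain ⟨x₀, hx₀, hx₀0⟩ := hNnt
  -- an element outside `N`
  have hVnt : ∃ y : V, y ∉ N := by
    by_contra hcon
    push Not at hcon
    have : N = ⊤ := (Submodule.eq_top_iff').mpr hcon
    have h1 : Nat.card N = Nat.card V := by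
      rw [this]; exact Nat.card_congr (Submodule.topEquiv (R := ZMod p) (M := V)).toEquiv
    rw [hN, hV] at h1
    have : p ^ 1 = p ^ 2 := by rw [pow_one]; exact h1
    have := Nat.pow_right_injective hp1 this
    omega
  obtain ⟨y, hy⟩ := hVnt
  -- first part
  have part1 : ∀ x ∈ N, σ • x = x := by
    obtain ⟨c, hc⟩ := asm_exists_smul_eq N hN hx₀ hx₀0 (hst x₀ hx₀)
    have h1 := huni x₀
    have h2 : σ • (σ • x₀ - x₀) - (σ • x₀ - x₀) = ((c - 1) * (c - 1)) • x₀ := by
      rw [hc]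
      have : c • x₀ - x₀ = (c - 1) • x₀ := by rw [sub_smul, one_smul]
      rw [this, asm_smul_zmod_smul, hc, smul_smul, ← sub_smul]
      congr 1
      ring
    rw [h2] at h1
    have hc1 : c = 1 := by
      rcases smul_eq_zero.mp h1 with h3 | h3
      · have := mul_self_eq_zero.mp h3
        exact sub_eq_zero.mp this
      · exact absurd h3 hx₀0
    intro x hx
    obtain ⟨d, hd⟩ := asm_exists_smul_eq N hN hx₀ hx₀0 hx
    rw [hd, asm_smul_zmod_smul, hc, hc1, one_smul]
  refine ⟨part1, ?_⟩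
  -- second part
  obtain ⟨m₀, hm₀, c, hc⟩ := asm_exists_decomp hV N hN hy (σ • y)
  have h1 : σ • y - y = m₀ + (c - 1) • y := by rw [hc, sub_smul, one_smul]; abel
  have h2 : σ • (σ • y - y) - (σ • y - y) = (c - 1) • m₀ + ((c - 1) * (c - 1)) • y := by
    rw [h1, smul_add, asm_smul_zmod_smul, hc, part1 m₀ hm₀]
    module
  have h3 : ((c - 1) * (c - 1)) • y ∈ N := by
    have h4 := huni y
    rw [h2] at h4
    have h5 : ((c - 1) * (c - 1)) • y = -((c - 1) • m₀) := eq_neg_of_add_eq_zero_right h4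
    rw [h5]
    exact N.neg_mem (N.smul_mem _ hm₀)
  have hc1 : c = 1 := by
    by_contra hne
    have h6 : (c - 1) * (c - 1) ≠ 0 := mul_ne_zero (sub_ne_zero.mpr hne) (sub_ne_zero.mpr hne)
    apply hy
    have := N.smul_mem ((c - 1) * (c - 1))⁻¹ h3
    rwa [smul_smul, inv_mul_cancel₀ h6, one_smul] at this
  have h7 : σ • y - y ∈ N := by rw [h1, hc1, sub_self, zero_smul, add_zero]; exact hm₀
  intro z
  obtain ⟨m, hm, d, hd⟩ := asm_exists_decomp hV N hN hy z
  have h8 : σ • z - z = (σ • m - m) + d • (σ • y - y) := by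
    rw [hd, smul_add, asm_smul_zmod_smul, smul_sub]; abel
  rw [h8, part1 m hm, sub_self, zero_add]
  exact N.smul_mem _ h7

end LinAlg

section Main

variable (W : Affine ℚ) (p : ℕ) [hp : Fact p.Prime]

/-- the pointwise stabiliser of all of `V = E[p]`. -/
def stabAll : Subgroup GQ where
  carrier := {σ | ∀ x : Submodule.torsionBy ℤ (W⁄Qbar).Point p, σ • x = x}
  one_mem' := fun x => one_smul _ x
  mul_mem' := by
    intro σ τ hσ hτ x
    show (σ * τ) • x = x
    rw [mul_smul, hτ x, hσ x]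
  inv_mem' := by
    intro σ hσ x
    show σ⁻¹ • x = x
    rw [inv_smul_eq_iff, hσ x]

/-- the pointwise stabiliser of a Galois-stable submodule `N`. -/
def stabSub (N : Submodule (ZMod p) (Submodule.torsionBy ℤ (W⁄Qbar).Point p)) : Subgroup GQ where
  carrier := {σ | ∀ x ∈ N, σ • x = x}
  one_mem' := fun x _ => one_smul _ x
  mul_mem' := by
    intro σ τ hσ hτ x hx
    show (σ * τ) • x = x
    rw [mul_smul, hτ x hx, hσ x hx]
  inv_mem' := by
    intro σ hσ x hx
    show σ⁻¹ • x = x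
    rw [inv_smul_eq_iff, hσ x hx]

/-- the subgroup acting trivially on `V / N`, for a Galois-stable `N`. -/
def stabQuot (N : Submodule (ZMod p) (Submodule.torsionBy ℤ (W⁄Qbar).Point p))
    (hN : IsGaloisStable ℚ N) : Subgroup GQ where
  carrier := {σ | ∀ x : Submodule.torsionBy ℤ (W⁄Qbar).Point p, σ • x - x ∈ N}
  one_mem' := fun x => by
    show (1 : GQ) • x - x ∈ N
    rw [one_smul, sub_self]; exact N.zero_mem
  mul_mem' := by
    intro σ τ hσ hτ x
    show (σ * τ) • x - x ∈ N
    have e : (σ * τ) • x - x = σ • (τ • x - x) + (σ • x - x) := by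
      rw [mul_smul, smul_sub]; abel
    rw [e]
    exact N.add_mem (hN σ _ (hτ x)) (hσ x)
  inv_mem' := by
    intro σ hσ x
    show σ⁻¹ • x - x ∈ N
    have e : σ⁻¹ • x - x = -(σ⁻¹ • (σ • x - x)) := by
      rw [smul_sub, inv_smul_smul]; abel
    rw [e]
    exact N.neg_mem (hN σ⁻¹ _ (hσ x))

variable {W p}

theorem stabSub_normal (N : Submodule (ZMod p) (Submodule.torsionBy ℤ (W⁄Qbar).Point p))
    (hN : IsGaloisStable ℚ N) : (stabSub W p N).Normal := by
  refine ⟨fun σ hσ g x hx => ?_⟩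
  show (g * σ * g⁻¹) • x = x
  rw [mul_smul, mul_smul, hσ _ (hN g⁻¹ x hx), smul_inv_smul]

theorem stabQuot_normal (N : Submodule (ZMod p) (Submodule.torsionBy ℤ (W⁄Qbar).Point p))
    (hN : IsGaloisStable ℚ N) : (stabQuot W p N hN).Normal := by
  refine ⟨fun σ hσ g x => ?_⟩
  show (g * σ * g⁻¹) • x - x ∈ N
  have e : (g * σ * g⁻¹) • x - x = g • (σ • (g⁻¹ • x) - g⁻¹ • x) := by
    rw [mul_smul, mul_smul, smul_sub, smul_inv_smul]
  rw [e]
  exact hN g _ (hσ _)

theorem stabAll_le_stabSub (N : Submodule (ZMod p) (Submodule.torsionBy ℤ (W⁄Qbar).Point p)) :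
    stabAll W p ≤ stabSub W p N := fun _ hσ x _ => hσ x

theorem stabAll_le_stabQuot (N : Submodule (ZMod p) (Submodule.torsionBy ℤ (W⁄Qbar).Point p))
    (hN : IsGaloisStable ℚ N) : stabAll W p ≤ stabQuot W p N hN := fun σ hσ x => by
  show σ • x - x ∈ N
  rw [hσ x, sub_self]; exact N.zero_mem

omit hp in
theorem isOpen_stabAll [Finite (Submodule.torsionBy ℤ (W⁄Qbar).Point p)]
    (hopen : ∀ x : Submodule.torsionBy ℤ (W⁄Qbar).Point p, IsOpen {σ : GQ | σ • x = x}) :
    IsOpen (stabAll W p : Set GQ) := by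
  have e : (stabAll W p : Set GQ) =
      ⋂ x : Submodule.torsionBy ℤ (W⁄Qbar).Point p, {σ : GQ | σ • x = x} := by
    ext σ
    simp only [Set.mem_iInter, Set.mem_ofPred_eq]
    rfl
  rw [e]
  exact isOpen_iInter_of_finite hopen

/-- **Abstract assembly of S13.** -/
theorem hasCofixedLine_of_bricks
    (hnt : Nontrivial (Submodule.torsionBy ℤ (W⁄Qbar).Point p))
    (hfin : Finite (Submodule.torsionBy ℤ (W⁄Qbar).Point p))
    (hcard : Nat.card (Submodule.torsionBy ℤ (W⁄Qbar).Point p) ≤ p ^ 2)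
    (hopen : ∀ x : Submodule.torsionBy ℤ (W⁄Qbar).Point p, IsOpen {σ : GQ | σ • x = x})
    (huni : ∀ ℓ : ℕ, ℓ.Prime → ℓ ≠ p → ∀ A : ValuationSubring Qbar, A.LiesOverPrime ℓ →
      ∀ σ ∈ A.inertiaSubgroupIn ℚ, ∀ x : Submodule.torsionBy ℤ (W⁄Qbar).Point p,
        σ • (σ • x - x) - (σ • x - x) = 0)
    (hp' : ∀ N : Submodule (ZMod p) (Submodule.torsionBy ℤ (W⁄Qbar).Point p),
      IsGaloisStable ℚ N → Nat.card N = p →
      ∃ A : ValuationSubring Qbar, A.LiesOverPrime p ∧
        ((∀ σ ∈ A.inertiaSubgroupIn ℚ, ∀ x ∈ N, σ • x = x) ∨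
          (∀ σ ∈ A.inertiaSubgroupIn ℚ, ∀ x : Submodule.torsionBy ℤ (W⁄Qbar).Point p,
            σ • x - x ∈ N)))
    (hfix : ∀ x : Submodule.torsionBy ℤ (W⁄Qbar).Point p, (∀ σ : GQ, σ • x = x) → x = 0)
    (hex : ∀ ℓ : ℕ, ℓ.Prime → ∃ A : ValuationSubring Qbar, A.LiesOverPrime ℓ)
    (hmink : ∀ H : Subgroup GQ, H.Normal → IsOpen (H : Set GQ) →
      (∀ ℓ : ℕ, ℓ.Prime → ∃ A : ValuationSubring Qbar, A.LiesOverPrime ℓ ∧
        A.inertiaSubgroupIn ℚ ≤ H) → H = ⊤)
    (hred : ¬ GaloisRepIsIrreducible (K := Qbar) ℚ W p) :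
    HasGaloisStableCofixedLine (K := Qbar) ℚ W p := by
  -- a stable proper nonzero submodule
  have hN : ∃ N : Submodule (ZMod p) (Submodule.torsionBy ℤ (W⁄Qbar).Point p),
      IsGaloisStable ℚ N ∧ N ≠ ⊥ ∧ N ≠ ⊤ := by
    by_contra hcon
    apply hred
    refine ⟨hnt, fun N hNst => ?_⟩
    by_contra h2
    push Not at h2
    exact hcon ⟨N, hNst, h2.1, h2.2⟩
  obtain ⟨N, hNst, hbot, htop⟩ := hN
  obtain ⟨hcV, hcN⟩ := card_eq_of_ne_bot_ne_top hcard N hbot htop
  have hH0 := isOpen_stabAll hopen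
  have hH1 : IsOpen (stabSub W p N : Set GQ) :=
    Subgroup.isOpen_mono (stabAll_le_stabSub N) hH0
  have hH2 : IsOpen (stabQuot W p N hNst : Set GQ) :=
    Subgroup.isOpen_mono (stabAll_le_stabQuot N hNst) hH0
  -- inertia away from `p`
  have haway : ∀ ℓ : ℕ, ℓ.Prime → ℓ ≠ p → ∀ A : ValuationSubring Qbar, A.LiesOverPrime ℓ →
      A.inertiaSubgroupIn ℚ ≤ stabSub W p N ⊓ stabQuot W p N hNst := by
    intro ℓ hℓ hℓp A hA σ hσ
    obtain ⟨h1, h2⟩ := unipotent_line hcV N hcN σ (hNst σ) (huni ℓ hℓ hℓp A hA σ hσ)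
    exact ⟨h1, h2⟩
  obtain ⟨A₀, hA₀, hdich⟩ := hp' N hNst hcN
  rcases hdich with h1 | h2
  · -- `N` is pointwise fixed: impossible
    exfalso
    have htop1 : stabSub W p N = ⊤ := by
      refine hmink _ (stabSub_normal N hNst) hH1 (fun ℓ hℓ => ?_)
      by_cases hℓp : ℓ = p
      · subst hℓp
        exact ⟨A₀, hA₀, fun σ hσ => h1 σ hσ⟩
      · obtain ⟨A, hA⟩ := hex ℓ hℓ
        exact ⟨A, hA, fun σ hσ => (haway ℓ hℓ hℓp A hA hσ).1⟩
    apply hbot
    rw [Submodule.eq_bot_iff]
    intro x hx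
    apply hfix x
    intro σ
    have : σ ∈ stabSub W p N := by rw [htop1]; exact Subgroup.mem_top σ
    exact this x hx
  · have htop2 : stabQuot W p N hNst = ⊤ := by
      refine hmink _ (stabQuot_normal N hNst) hH2 (fun ℓ hℓ => ?_)
      by_cases hℓp : ℓ = p
      · subst hℓp
        exact ⟨A₀, hA₀, fun σ hσ => h2 σ hσ⟩
      · obtain ⟨A, hA⟩ := hex ℓ hℓ
        exact ⟨A, hA, fun σ hσ => (haway ℓ hℓ hℓp A hA hσ).2⟩
    refine ⟨N, hNst, hbot, htop, fun σ x => ?_⟩
    have : σ ∈ stabQuot W p N hNst := by rw [htop2]; exact Subgroup.mem_top σ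
    exact this x

end Main

end Fermat.Agent.S13lib
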