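/-
S13 library (G5, helper6): the inputs `huni` and `hfix` of `hasCofixedLine_of_bricks` for the Frey
curve, in the literal binder shapes of `Fermat.Agent.S13lib.Assembly`.
-/
import Mathlib
import Fermat.Agent.S13lib.UnramTop
import Fermat.Agent.S13lib.Node2.FreyUni

set_option autoImplicit false

namespace Fermat.Agent.S13lib

open WeierstrassCurve WeierstrassCurve.Affine WeierstrassCurve.Affine.Point

/-- `huni` of the assembly for the Frey curve: inertia at every prime `ℓ ≠ p` acts unipotently
on `E[p]` (`ℓ = 2`: node analysis in residue characteristic `2`; `ℓ` odd: S05). -/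
theorem frey_huni (P : FreyPackage) :
    ∀ ℓ : ℕ, ℓ.Prime → ℓ ≠ P.p → ∀ A : ValuationSubring Qbar, A.LiesOverPrime ℓ →
      ∀ σ ∈ A.inertiaSubgroupIn ℚ,
        ∀ x : Submodule.torsionBy ℤ ((P.freyCurve : Affine ℚ)⁄Qbar).Point P.p,
          σ • (σ • x - x) - (σ • x - x) = 0 :=
  fun _ hℓ hℓp A hA σ hσ x => Node2.frey_huni P hℓ hℓp A hA σ hσ x

/-- `hfix` of the assembly for the Frey curve: no nonzero `p`-torsion point is fixed by the whole
Galois group. -/
theorem frey_hfix (P : FreyPackage) :
    ∀ x : Submodule.torsionBy ℤ ((P.freyCurve : Affine ℚ)⁄Qbar).Point P.p,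
      (∀ σ : GQ, σ • x = x) → x = 0 :=
  fun x h => Node2.frey_hfix P x h

end Fermat.Agent.S13lib
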