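/-
S13 library, glue (G6, helper7): the three "topological / global" inputs of
`hasCofixedLine_of_bricks` (Assembly.lean), in the LITERAL shape of its hypotheses
`hopen`, `hex`, `hmink`, for an arbitrary Weierstrass curve `W` over `ℚ` and any `p`.

* `asm_hopen W p`  : point stabilisers of `E[p](ℚ̄)` are open in `Gal(ℚ̄/ℚ)`;
* `asm_hex`        : over every prime `ℓ` there is a valuation subring of `ℚ̄`;
* `asm_hmink`      : Minkowski in Galois form: an open normal subgroup of `Gal(ℚ̄/ℚ)` containing
                     ONE inertia group over every prime is everything.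
-/
import Mathlib
import Fermat.Prelude.Def_FLTPrelim_GaloisRep
import Fermat.Prelude.Def_FLTPrelim_Ramification
import Fermat.Agent.S13lib.UnramTopOne
import Fermat.Agent.S13lib.PlaceOpen

set_option autoImplicit false

namespace Fermat.Agent.S13lib

open WeierstrassCurve WeierstrassCurve.Affine WeierstrassCurve.Affine.Point

/-- `hopen` of `hasCofixedLine_of_bricks`: point stabilisers of the `p`-torsion are open. -/
theorem asm_hopen (W : Affine ℚ) (p : ℕ) :
    ∀ x : Submodule.torsionBy ℤ (W⁄Qbar).Point p, IsOpen {σ : GQ | σ • x = x} :=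
  fun x => isOpen_setOf_smul_eq_torsion W p x

/-- `hex` of `hasCofixedLine_of_bricks`: valuation subrings of `ℚ̄` over every prime. -/
theorem asm_hex :
    ∀ ℓ : ℕ, ℓ.Prime → ∃ A : ValuationSubring Qbar, A.LiesOverPrime ℓ :=
  fun _ hℓ => exists_liesOverPrime hℓ

/-- `hmink` of `hasCofixedLine_of_bricks`: Minkowski's theorem in Galois form. -/
theorem asm_hmink :
    ∀ H : Subgroup GQ, H.Normal → IsOpen (H : Set GQ) →
      (∀ ℓ : ℕ, ℓ.Prime → ∃ A : ValuationSubring Qbar, A.LiesOverPrime ℓ ∧
        A.inertiaSubgroupIn ℚ ≤ H) → H = ⊤ :=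
  fun H hn hopen hin => @eq_top_of_exists_inertiaSubgroupIn_le H hn hopen hin

end Fermat.Agent.S13lib
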