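import Mathlib
import Fermat.Agent.S13lib.DivPoly.XOnly

/-!
# Counting torsion points from a polynomial cutting out their `x`-coordinates

Abstract interface: if the `x`-coordinates of the nonzero `n`-torsion points are roots of a nonzero
polynomial `f`, then there are at most `2 deg f + 1` torsion points; if conversely every point whose
`x`-coordinate is a root of `f` is `n`-torsion, and `f` is non-constant over an algebraically
closed field, there is a nonzero `n`-torsion point.
-/

namespace Fermat.Agent.S13lib

open WeierstrassCurve WeierstrassCurve.Affine Polynomial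
open Fermat.Agent.S13lib.DivPoly

variable {K : Type*} [Field K] [DecidableEq K]

omit [DecidableEq K] in
/-- Two nonzero points with the same `x`-coordinate are equal or opposite. -/
lemma eq_or_eq_neg_of_xc_eq {W : Affine K} {P Q : W.Point} (hP : P ≠ 0) (hQ : Q ≠ 0)
    (h : xc P = xc Q) : P = Q ∨ P = -Q := by
  rcases P with _ | ⟨x₁, y₁, h₁⟩
  · exact absurd rfl hP
  rcases Q with _ | ⟨x₂, y₂, h₂⟩
  · exact absurd rfl hQ
  exact Point.X_eq_iff.mp h

/-- A choice of nonzero point with a given `x`-coordinate inside a set of points. -/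
noncomputable def chosenPt {W : Affine K} (S : Set W.Point) (x : K) : W.Point :=
  open Classical in
  if h : ∃ P : W.Point, P ∈ S ∧ P ≠ 0 ∧ xc P = x then h.choose else 0

omit [DecidableEq K] in
lemma chosenPt_spec {W : Affine K} (S : Set W.Point) {P : W.Point} (hS : P ∈ S) (hP : P ≠ 0) :
    chosenPt S (xc P) ≠ 0 ∧ xc (chosenPt S (xc P)) = xc P := by
  have h : ∃ Q : W.Point, Q ∈ S ∧ Q ≠ 0 ∧ xc Q = xc P := ⟨P, hS, hP, rfl⟩
  unfold chosenPt
  rw [dif_pos h]
  exact ⟨h.choose_spec.2.1, h.choose_spec.2.2⟩

/-- If the nonzero points of a set `S` of points, closed under nothing in particular, have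
`x`-coordinates among the roots of `f ≠ 0`, then `S` is finite of cardinality at most
`2 deg f + 1`. -/
theorem finite_card_le_of_xc_roots {W : Affine K} (S : Set W.Point) (f : K[X]) (hf : f ≠ 0)
    (hroot : ∀ P ∈ S, P ≠ 0 → f.eval (xc P) = 0) :
    S.Finite ∧ Nat.card S ≤ 2 * f.natDegree + 1 := by
  classical
  let R := {x : K // x ∈ f.roots.toFinset}
  let ι : S → Option (R × Bool) := fun P =>
    if hP : (P : W.Point) = 0 then none
    else some (⟨xc (P : W.Point), by
      rw [Multiset.mem_toFinset, mem_roots hf]
      exact hroot P P.2 hP⟩, decide ((P : W.Point) = chosenPt S (xc (P : W.Point))))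
  have hinj : Function.Injective ι := by
    intro P Q hPQ
    by_cases hP : (P : W.Point) = 0
    · by_cases hQ : (Q : W.Point) = 0
      · exact Subtype.ext (hP.trans hQ.symm)
      · simp only [ι, dif_pos hP, dif_neg hQ] at hPQ
        exact absurd hPQ (by simp)
    · by_cases hQ : (Q : W.Point) = 0
      · simp only [ι, dif_pos hQ, dif_neg hP] at hPQ
        exact absurd hPQ (by simp)
      · simp only [ι, dif_neg hP, dif_neg hQ, Option.some.injEq, Prod.mk.injEq] at hPQ
        obtain ⟨hx0, hb⟩ := hPQ
        have hx : xc (P : W.Point) = xc (Q : W.Point) := congrArg Subtype.val hx0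
        have hb' : ((P : W.Point) = chosenPt S (xc (P : W.Point))) ↔
            ((Q : W.Point) = chosenPt S (xc (Q : W.Point))) := by
          simpa using hb
        apply Subtype.ext
        rcases eq_or_eq_neg_of_xc_eq hP hQ hx with h | h
        · exact h
        · obtain ⟨hc0, hcx⟩ := chosenPt_spec S P.2 hP
          rcases eq_or_eq_neg_of_xc_eq hc0 hP hcx with hc | hc
          · have := hb'.mp hc.symm
            rw [← hx, hc] at this
            exact this.symm
          · have hQc : (Q : W.Point) = chosenPt S (xc (Q : W.Point)) := by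
              rw [← hx, hc, h, neg_neg]
            have := hb'.mpr hQc
            rw [this, hx]
            exact hQc.symm
  have hfin : Finite S := Finite.of_injective ι hinj
  refine ⟨Set.toFinite S |>.subset (le_refl _) |> fun h => h, ?_⟩
  calc Nat.card S ≤ Nat.card (Option (R × Bool)) := Nat.card_le_card_of_injective ι hinj
    _ = 2 * f.roots.toFinset.card + 1 := by
      rw [Nat.card_eq_fintype_card, Fintype.card_option, Fintype.card_prod, Fintype.card_bool,
        Fintype.card_coe, mul_comm]
    _ ≤ 2 * f.natDegree + 1 := by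
      have h1 : f.roots.toFinset.card ≤ Multiset.card f.roots := Multiset.toFinset_card_le _
      have h2 : Multiset.card f.roots ≤ f.natDegree := card_roots' f
      omega

/-- Torsion count: if the `x`-coordinates of the nonzero `n`-torsion points are roots of `f ≠ 0`,
the `n`-torsion is finite of cardinality at most `2 deg f + 1`. -/
theorem torsion_finite_card_le (W : Affine K) (n : ℕ) (f : K[X]) (hf : f ≠ 0)
    (hroot : ∀ (x y : K) (h : W.Nonsingular x y),
      n • (Point.some x y h : W.Point) = 0 → f.eval x = 0) :
    Finite (Submodule.torsionBy ℤ W.Point n) ∧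
      Nat.card (Submodule.torsionBy ℤ W.Point n) ≤ 2 * f.natDegree + 1 := by
  have key := finite_card_le_of_xc_roots
    (S := ((Submodule.torsionBy ℤ W.Point n : Submodule ℤ W.Point) : Set W.Point)) f hf (by
      intro P hP hP0
      rcases P with _ | ⟨x, y, h⟩
      · exact absurd rfl hP0
      · have hP' : ((n : ℤ) • (Point.some x y h : W.Point)) = 0 := by
          simpa [Submodule.mem_torsionBy_iff] using hP
        rw [Nat.cast_smul_eq_nsmul] at hP'
        exact hroot x y h hP')
  exact ⟨key.1.to_subtype, key.2⟩

omit [DecidableEq K] in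
/-- For an elliptic curve over an algebraically closed field, every `x` is the `x`-coordinate of a
point. -/
lemma exists_point_of_x [IsAlgClosed K] (W : Affine K) [W.IsElliptic] (x : K) :
    ∃ y : K, W.Nonsingular x y := by
  obtain ⟨y, hy⟩ := IsAlgClosed.exists_root
    (X ^ 2 + C (W.a₁ * x + W.a₃) * X - C (x ^ 3 + W.a₂ * x ^ 2 + W.a₄ * x + W.a₆) : K[X])
    (by
      have : (X ^ 2 + C (W.a₁ * x + W.a₃) * X - C (x ^ 3 + W.a₂ * x ^ 2 + W.a₄ * x + W.a₆) :
          K[X]).degree = 2 := by
        compute_degree!
      rw [this]; norm_num)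
  have heq : W.Equation x y := by
    rw [equation_iff]
    simp only [IsRoot.def, eval_sub, eval_add, eval_pow, eval_X, eval_mul, eval_C] at hy
    linear_combination hy
  exact ⟨y, equation_iff_nonsingular.mp heq⟩

/-- Existence of torsion: if every point whose `x`-coordinate is a root of the non-constant `f` is
`n`-torsion, then the `n`-torsion is nontrivial. -/
theorem torsion_nontrivial [IsAlgClosed K] (W : Affine K) [W.IsElliptic] (n : ℕ) (f : K[X])
    (hdeg : 0 < f.natDegree)
    (hroot : ∀ (x y : K) (h : W.Nonsingular x y),
      f.eval x = 0 → n • (Point.some x y h : W.Point) = 0) :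
    Nontrivial (Submodule.torsionBy ℤ W.Point n) := by
  obtain ⟨x, hx⟩ := IsAlgClosed.exists_root f (by
    intro h
    rw [Polynomial.degree_eq_natDegree (by rintro rfl; simp at hdeg)] at h
    exact hdeg.ne' (by exact_mod_cast h))
  obtain ⟨y, h⟩ := exists_point_of_x W x
  have hmem : (Point.some x y h : W.Point) ∈ Submodule.torsionBy ℤ W.Point n := by
    rw [Submodule.mem_torsionBy_iff, Nat.cast_smul_eq_nsmul]
    exact hroot x y h hx
  refine ⟨⟨⟨_, hmem⟩, 0, ?_⟩⟩
  intro h0
  have := congrArg Subtype.val h0
  exact Point.some_ne_zero h this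

end Fermat.Agent.S13lib
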