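import Mathlib
import Fermat.Prelude.Def_FLTPrelim_GaloisRep
import Fermat.Agent.S13lib.TorsionCount

/-!
# Torsion facts in the shape needed by the S13 assembly

From a polynomial `f` with `deg f = 2m² + 2m` whose roots are exactly the `x`-coordinates of the
nonzero `(2m+1)`-torsion points we get: the `(2m+1)`-torsion is nontrivial, finite and has at most
`(2m+1)²` elements.  Versions over an algebraically closed field and for the base change to
`AlgebraicClosure ℚ` of a curve over `ℚ`.
-/

namespace Fermat.Agent.S13lib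

open WeierstrassCurve WeierstrassCurve.Affine Polynomial

section General

variable {K : Type*} [Field K] [DecidableEq K]

/-- nontrivial + finite + card bound from a "division polynomial". -/
theorem torsion_facts_of_poly [IsAlgClosed K] (W : Affine K) [W.IsElliptic] (m : ℕ) (hm : 0 < m)
    (f : K[X]) (hle : f.natDegree ≤ 2 * m ^ 2 + 2 * m) (hcoeff : f.coeff (2 * m ^ 2 + 2 * m) ≠ 0)
    (hiff : ∀ (x y : K) (h : W.Nonsingular x y),
      (2 * m + 1) • (Point.some x y h : W.Point) = 0 ↔ f.eval x = 0) :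
    Nontrivial (Submodule.torsionBy ℤ W.Point (2 * m + 1 : ℕ)) ∧
      Finite (Submodule.torsionBy ℤ W.Point (2 * m + 1 : ℕ)) ∧
      Nat.card (Submodule.torsionBy ℤ W.Point (2 * m + 1 : ℕ)) ≤ (2 * m + 1) ^ 2 := by
  have hdeg : f.natDegree = 2 * m ^ 2 + 2 * m :=
    le_antisymm hle (le_natDegree_of_ne_zero hcoeff)
  have hf0 : f ≠ 0 := by
    rintro rfl
    simp at hcoeff
  have hpos : 0 < f.natDegree := by
    rw [hdeg]; positivity
  have h1 := torsion_finite_card_le W (2 * m + 1) f hf0 (fun x y h hx => (hiff x y h).mp hx)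
  have h2 := torsion_nontrivial W (2 * m + 1) f hpos (fun x y h hx => (hiff x y h).mpr hx)
  refine ⟨h2, h1.1, h1.2.trans ?_⟩
  rw [hdeg]
  nlinarith

end General

section Rat

/-- The base change of an elliptic curve is elliptic (instance search does not unfold
`baseChange`). -/
theorem isElliptic_baseChange {R : Type*} [CommRing R] (W : Affine R) [W.IsElliptic]
    (S : Type*) [CommRing S] [Algebra R S] : (W⁄S).IsElliptic := by
  show (WeierstrassCurve.map W (algebraMap R S)).IsElliptic
  infer_instance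

/-- The S13 shape: for an elliptic curve `W` over `ℚ`, `V = E[2m+1](ℚ̄)` is nontrivial, finite and
has at most `(2m+1)²` elements, as soon as some polynomial over `ℚ̄` of degree `2m² + 2m` cuts out
the `x`-coordinates of the nonzero `(2m+1)`-torsion points. -/
theorem torsion_facts_rat (W : Affine ℚ) [W.IsElliptic] (m : ℕ) (hm : 0 < m)
    (f : (AlgebraicClosure ℚ)[X]) (hle : f.natDegree ≤ 2 * m ^ 2 + 2 * m)
    (hcoeff : f.coeff (2 * m ^ 2 + 2 * m) ≠ 0)
    (hiff : ∀ (x y : AlgebraicClosure ℚ) (h : (W⁄(AlgebraicClosure ℚ)).Nonsingular x y),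
      (2 * m + 1) • (Point.some x y h : (W⁄(AlgebraicClosure ℚ)).Point) = 0 ↔ f.eval x = 0) :
    Nontrivial (Submodule.torsionBy ℤ (W⁄(AlgebraicClosure ℚ)).Point (2 * m + 1 : ℕ)) ∧
      Finite (Submodule.torsionBy ℤ (W⁄(AlgebraicClosure ℚ)).Point (2 * m + 1 : ℕ)) ∧
      Nat.card (Submodule.torsionBy ℤ (W⁄(AlgebraicClosure ℚ)).Point (2 * m + 1 : ℕ)) ≤
        (2 * m + 1) ^ 2 := by
  have : (W⁄(AlgebraicClosure ℚ)).IsElliptic := isElliptic_baseChange W _
  exact torsion_facts_of_poly (W⁄(AlgebraicClosure ℚ)) m hm f hle hcoeff hiff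

end Rat

end Fermat.Agent.S13lib
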