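import Mathlib
import Fermat.Prelude.Def_FLTPrelim_GaloisRep
import Fermat.Prelude.Def_FLTPrelim_FreyPackage
import Fermat.Agent.S13lib.TorsionCountV
import Fermat.Agent.S13lib.LadderMain
import Fermat.Agent.S13lib.LadderDegree

/-!
# `E[p](ℚ̄)` is nontrivial, finite, of cardinality at most `p²` (odd prime `p`)

Instantiation of `torsion_facts_rat` with helper4's ladder polynomial `ladF`; these are exactly the
inputs `hnt`, `hfin`, `hcard` of `hasCofixedLine_of_bricks`.
-/

namespace Fermat.Agent.S13lib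

open WeierstrassCurve WeierstrassCurve.Affine Polynomial

/-- For an elliptic curve over `ℚ` and an odd `n = 2m+1 ≥ 3`: the `n`-torsion of `E(ℚ̄)` is
nontrivial, finite and has at most `n²` elements. -/
theorem torsion_facts_odd (W : Affine ℚ) [W.IsElliptic] (m : ℕ) (hm : 0 < m) :
    Nontrivial (Submodule.torsionBy ℤ (W⁄(AlgebraicClosure ℚ)).Point (2 * m + 1 : ℕ)) ∧
      Finite (Submodule.torsionBy ℤ (W⁄(AlgebraicClosure ℚ)).Point (2 * m + 1 : ℕ)) ∧
      Nat.card (Submodule.torsionBy ℤ (W⁄(AlgebraicClosure ℚ)).Point (2 * m + 1 : ℕ)) ≤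
        (2 * m + 1) ^ 2 := by
  refine torsion_facts_rat W m hm (ladF (W⁄(AlgebraicClosure ℚ)) m)
    (ladF_natDegree_le _ m) ?_ ?_
  · rw [ladF_coeff_top]
    have : (2 * (m : AlgebraicClosure ℚ) + 1) = ((2 * m + 1 : ℕ) : AlgebraicClosure ℚ) := by
      push_cast; ring
    rw [this]
    exact Nat.cast_ne_zero.mpr (by omega)
  · intro x y h
    exact odd_nsmul_eq_zero_iff_ladF (W⁄(AlgebraicClosure ℚ)) h m

/-- The S13 assembly shape (`hnt`, `hfin`, `hcard`) for an odd prime `p`. -/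
theorem torsion_facts_prime (W : Affine ℚ) [W.IsElliptic] (p : ℕ) (hp : p.Prime) (hodd : p ≠ 2) :
    Nontrivial (Submodule.torsionBy ℤ (W⁄(AlgebraicClosure ℚ)).Point p) ∧
      Finite (Submodule.torsionBy ℤ (W⁄(AlgebraicClosure ℚ)).Point p) ∧
      Nat.card (Submodule.torsionBy ℤ (W⁄(AlgebraicClosure ℚ)).Point p) ≤ p ^ 2 := by
  obtain ⟨m, rfl⟩ : ∃ m, p = 2 * m + 1 := by
    rcases hp.eq_two_or_odd' with h | h
    · exact absurd h hodd
    · exact h
  have hm : 0 < m := by
    rcases Nat.eq_zero_or_pos m with h | h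
    · subst h; exact absurd hp (by norm_num)
    · exact h
  exact torsion_facts_odd W m hm

end Fermat.Agent.S13lib

namespace Fermat.Agent.S13lib

open WeierstrassCurve WeierstrassCurve.Affine

/-- The discriminant of the Frey curve is `(abc)^(2p) / 2⁸`. -/
theorem freyCurve_Δ (P : FreyPackage) :
    P.freyCurve.Δ = ((P.a : ℚ) * P.b * P.c) ^ (2 * P.p) / 256 := by
  have h : ((P.c : ℚ)) ^ P.p = (P.a : ℚ) ^ P.p + (P.b : ℚ) ^ P.p := by
    have := P.hFLT
    exact_mod_cast this.symm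
  simp only [WeierstrassCurve.Δ, WeierstrassCurve.b₂, WeierstrassCurve.b₄, WeierstrassCurve.b₆,
    WeierstrassCurve.b₈, FreyPackage.freyCurve]
  rw [mul_pow, mul_pow, pow_mul', pow_mul', pow_mul', h]
  ring

theorem freyCurve_Δ_ne_zero (P : FreyPackage) : P.freyCurve.Δ ≠ 0 := by
  rw [freyCurve_Δ]
  have : ((P.a : ℚ) * P.b * P.c) ≠ 0 := by
    exact_mod_cast P.habc0
  exact div_ne_zero (pow_ne_zero _ this) (by norm_num)

/-- The Frey curve is an elliptic curve. -/
theorem freyCurve_isElliptic (P : FreyPackage) : P.freyCurve.IsElliptic :=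
  ⟨(isUnit_iff_ne_zero).mpr (freyCurve_Δ_ne_zero P)⟩

/-- `hnt`, `hfin`, `hcard` of the S13 assembly for the Frey curve. -/
theorem frey_torsion_facts (P : FreyPackage) :
    Nontrivial (Submodule.torsionBy ℤ
        ((P.freyCurve : Affine ℚ)⁄(AlgebraicClosure ℚ)).Point P.p) ∧
      Finite (Submodule.torsionBy ℤ ((P.freyCurve : Affine ℚ)⁄(AlgebraicClosure ℚ)).Point P.p) ∧
      Nat.card (Submodule.torsionBy ℤ
        ((P.freyCurve : Affine ℚ)⁄(AlgebraicClosure ℚ)).Point P.p) ≤ P.p ^ 2 := by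
  have : (P.freyCurve : Affine ℚ).IsElliptic := freyCurve_isElliptic P
  exact torsion_facts_prime (P.freyCurve : Affine ℚ) P.p P.pp (by have := P.hp5; omega)

end Fermat.Agent.S13lib
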