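/-
S13 long shot, brick WP2 (helper9): the **Eisenstein / transitivity step**.

Let `F ∈ ℤ[X]` have leading coefficient a prime `p`, and let `A` be a valuation subring of an
algebraically closed field `L ⊇ ℚ` lying over `p`.  If every root `r` of `F` in `L` is non-integral
at `A` (`1 < A.valuation r`), then the reversed polynomial of `F` is an Eisenstein polynomial at
`p` (`reverse_isEisensteinAt`), hence irreducible over `ℚ` (`irreducible_reverse_map`), hence
`Gal(L/ℚ)` permutes the roots of `F` transitively (`exists_algEquiv_of_roots_large`,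
`exists_galois_conj_of_roots_large` for `L = AlgebraicClosure ℚ`).

Intended use (helper4's plan for S13): `F = F_p`, the polynomial whose roots are the
`x`-coordinates of the nonzero `p`-torsion points; if `E[p]` lay entirely in the kernel of
reduction at `A`, then `G_ℚ` would be transitive on `(E[p] ∖ 0)/±`, contradicting the existence of
a Galois-stable line.
-/
import Mathlib
import Fermat.Prelude.Def_FLTPrelim_Ramification
import Fermat.Agent.S05lib.Inertia

set_option autoImplicit false

namespace Fermat.Agent.S13lib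

open Polynomial

section Coeffs

variable {L : Type*} [Field L] {Γ₀ : Type*} [LinearOrderedCommGroupWithZero Γ₀]
  (v : Valuation L Γ₀)

/-- If all `s ∈ m` have valuation `< 1`, then `∏ (X - s)` is congruent to `X ^ card m` modulo the
maximal ideal: all coefficients are integral and those below the top one have valuation `< 1`. -/
theorem val_coeff_prod_X_sub_C (m : Multiset L) (hm : ∀ s ∈ m, v s < 1) (k : ℕ) :
    v ((m.map (fun s => X - C s)).prod.coeff k) ≤ 1 ∧
      (k < Multiset.card m → v ((m.map (fun s => X - C s)).prod.coeff k) < 1) := by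
  induction m using Multiset.induction_on generalizing k with
  | empty =>
    simp only [Multiset.map_zero, Multiset.prod_zero, Multiset.card_zero, not_lt_zero,
      IsEmpty.forall_iff, and_true]
    rw [coeff_one]
    split_ifs <;> simp
  | cons a m ih =>
    have ha : v a < 1 := hm a (Multiset.mem_cons_self a m)
    have hm' : ∀ s ∈ m, v s < 1 := fun s hs => hm s (Multiset.mem_cons_of_mem hs)
    rw [Multiset.map_cons, Multiset.prod_cons, Multiset.card_cons, sub_mul, coeff_sub,
      coeff_C_mul]
    rcases k with _ | k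
    · rw [coeff_X_mul_zero, zero_sub, Valuation.map_neg, map_mul]
      have h0 := (ih hm' 0).1
      have : v a * v ((m.map (fun s => X - C s)).prod.coeff 0) < 1 :=
        mul_lt_one_of_nonneg_of_lt_one_left zero_le ha h0
      exact ⟨this.le, fun _ => this⟩
    · rw [coeff_X_mul]
      have h1 := ih hm' k
      have h2 := (ih hm' (k + 1)).1
      have h3 : v (a * (m.map (fun s => X - C s)).prod.coeff (k + 1)) < 1 := by
        rw [map_mul]
        exact mul_lt_one_of_nonneg_of_lt_one_left zero_le ha h2
      refine ⟨le_trans (Valuation.map_sub _ _ _) (max_le h1.1 h3.le), fun hk => ?_⟩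
      exact lt_of_le_of_lt (Valuation.map_sub _ _ _) (max_lt (h1.2 (by omega)) h3)

end Coeffs


section Main

variable {L : Type*} [Field L] [CharZero L] [IsAlgClosed L]

open Fermat.Agent.S05lib in
/-- **Eisenstein step.**  Let `F ∈ ℤ[X]` have leading coefficient a prime `p` and suppose that all
its roots in an algebraically closed field `L` of characteristic zero are non-integral
(`1 < v r`) at a valuation subring `A` over `p`.  Then the reversed polynomial is an Eisenstein
polynomial at `p`, of the same degree, and primitive. -/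
theorem reverse_isEisensteinAt {p : ℕ} (hp : p.Prime) (F : ℤ[X]) (hdeg : 0 < F.natDegree)
    (hlead : F.leadingCoeff = (p : ℤ)) (A : ValuationSubring L) (hA : A.LiesOverPrime p)
    (hroots : ∀ r : L, aeval r F = 0 → 1 < A.valuation r) :
    F.reverse.natDegree = F.natDegree ∧ F.reverse.IsPrimitive ∧
      F.reverse.IsEisensteinAt (Ideal.span {(p : ℤ)}) := by
  classical
  set v := A.valuation with hv
  have hpL : v (p : L) < 1 := hA
  -- the constant coefficient of `F` is nonzero
  have hF0 : F.coeff 0 ≠ 0 := by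
    intro h0
    have h1 : aeval (0 : L) F = 0 := by
      rw [← coeff_zero_eq_aeval_zero', h0, map_zero]
    have := hroots 0 h1
    rw [map_zero] at this
    exact not_lt_zero this
  have hFne : F ≠ 0 := fun h => by simp [h] at hdeg
  have htr : F.natTrailingDegree = 0 := natTrailingDegree_eq_zero.mpr (Or.inr hF0)
  set g := F.reverse with hg
  have hgdeg : g.natDegree = F.natDegree := by rw [hg, reverse_natDegree, htr, Nat.sub_zero]
  have hglead : g.leadingCoeff = F.coeff 0 := by
    rw [hg, reverse_leadingCoeff, trailingCoeff, htr]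
  have hg0 : g.coeff 0 = (p : ℤ) := by rw [hg, coeff_zero_reverse, hlead]
  set c₀ := F.coeff 0 with hc₀
  -- the polynomial over `L`
  set gL : L[X] := g.map (Int.castRingHom L) with hgL
  have hinj : Function.Injective (Int.castRingHom L) := Int.cast_injective
  have hgLdeg : gL.natDegree = g.natDegree := natDegree_map_eq_of_injective hinj g
  have hgLlead : gL.leadingCoeff = (c₀ : L) := by
    rw [hgL, leadingCoeff_map_of_injective hinj, hglead]; rfl
  have hsplit : gL.Splits := IsAlgClosed.splits gL
  have hprod : gL = C (c₀ : L) * (gL.roots.map (fun s => X - C s)).prod := by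
    conv_lhs => rw [hsplit.eq_prod_roots, hgLlead]
  have hcard : Multiset.card gL.roots = F.natDegree := by
    rw [← hsplit.natDegree_eq_card_roots, hgLdeg, hgdeg]
  -- the roots of `gL` have valuation `< 1`
  have hgLne : gL ≠ 0 := by
    intro h
    have : gL.leadingCoeff = 0 := by rw [h, leadingCoeff_zero]
    rw [hgLlead] at this
    exact hF0 (by exact_mod_cast this)
  have hsmall : ∀ s ∈ gL.roots, v s < 1 := by
    intro s hs
    have hs0 : gL.eval s = 0 := (mem_roots hgLne).mp hs
    have hsne : s ≠ 0 := by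
      rintro rfl
      rw [hgL, eval_map, eval₂_at_zero, hg0] at hs0
      rw [eq_intCast] at hs0
      exact hp.ne_zero (by exact_mod_cast hs0)
    have hroot : aeval s⁻¹ F = 0 := by
      let _ : Invertible s⁻¹ := invertibleOfNonzero (inv_ne_zero hsne)
      have h1 : eval₂ (Int.castRingHom L) (⅟(s⁻¹)) F.reverse = 0 := by
        have : ⅟(s⁻¹) = s := by rw [invOf_eq_inv, inv_inv]
        rw [this, ← eval_map]; exact hs0
      have h2 := (eval₂_reverse_eq_zero_iff (Int.castRingHom L) s⁻¹ F).mp h1
      rw [aeval_def]; exact h2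
    have h3 := hroots _ hroot
    rw [map_inv₀] at h3
    have hvs : v s ≠ 0 := (Valuation.ne_zero_iff _).mpr hsne
    by_contra hcon
    rw [not_lt] at hcon
    have : (v s)⁻¹ ≤ 1 := inv_le_one_of_one_le₀ hcon
    exact absurd h3 (not_lt.mpr this)
  -- coefficients of `g`
  have hcoef : ∀ k, k < F.natDegree → v ((g.coeff k : ℤ) : L) < v (c₀ : L) := by
    intro k hk
    have h1 : ((g.coeff k : ℤ) : L) = gL.coeff k := by
      rw [hgL, coeff_map]; rfl
    rw [h1]
    conv_lhs => rw [hprod]
    rw [coeff_C_mul, map_mul]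
    have h2 := (val_coeff_prod_X_sub_C v gL.roots hsmall k).2 (by rw [hcard]; exact hk)
    have hc0 : v (c₀ : L) ≠ 0 := (Valuation.ne_zero_iff _).mpr (by exact_mod_cast hF0)
    calc v (c₀ : L) * v ((gL.roots.map (fun s => X - C s)).prod.coeff k)
        < v (c₀ : L) * 1 := by
          exact mul_lt_mul_of_pos_left h2 (zero_lt_iff.mpr hc0)
      _ = v (c₀ : L) := mul_one _
  -- `c₀` is prime to `p`
  have hpc₀ : ¬ (p : ℤ) ∣ c₀ := by
    rintro ⟨m, hm⟩
    have h1 := hcoef 0 hdeg
    rw [hg0] at h1
    have h2 : v (c₀ : L) ≤ v (((p : ℕ) : ℤ) : L) := by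
      rw [hm]; push_cast
      rw [map_mul]
      calc v (p : L) * v (m : L) ≤ v (p : L) * 1 :=
            mul_le_mul' le_rfl (val_intCast_le_one m)
        _ = v (p : L) := mul_one _
    exact absurd h1 (not_lt.mpr h2)
  have hvc₀ : v (c₀ : L) = 1 := (val_intCast_eq_one_iff hp hA c₀).mpr hpc₀
  have hdvd : ∀ k, k < F.natDegree → (p : ℤ) ∣ g.coeff k := by
    intro k hk
    by_contra hnd
    have h1 := hcoef k hk
    rw [hvc₀, (val_intCast_eq_one_iff hp hA _).mpr hnd] at h1
    exact lt_irrefl _ h1
  have hpZ : Prime (p : ℤ) := Nat.prime_iff_prime_int.mp hp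
  refine ⟨hgdeg, ?_, ?_⟩
  · -- primitive
    rw [isPrimitive_iff_isUnit_of_C_dvd]
    intro r hr
    have h1 : r ∣ g.coeff 0 := by
      obtain ⟨q, hq⟩ := hr
      rw [hq, coeff_C_mul]; exact dvd_mul_right _ _
    have h2 : r ∣ g.leadingCoeff := by
      obtain ⟨q, hq⟩ := hr
      rw [leadingCoeff, hq, coeff_C_mul]; exact dvd_mul_right _ _
    rw [hg0] at h1
    rw [hglead] at h2
    have hcop : IsCoprime (p : ℤ) c₀ := (hpZ.coprime_iff_not_dvd).mpr hpc₀
    exact hcop.isUnit_of_dvd' h1 h2
  · refine ⟨?_, ?_, ?_⟩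
    · rw [hglead, Ideal.mem_span_singleton]; exact hpc₀
    · intro n hn
      rw [Ideal.mem_span_singleton]
      exact hdvd n (by rw [← hgdeg]; exact hn)
    · rw [hg0, Ideal.span_singleton_pow, Ideal.mem_span_singleton]
      intro h
      have h1 : (p : ℤ) * p ∣ p * 1 := by rw [mul_one, ← sq]; exact h
      have h2 : (p : ℤ) ∣ 1 := (mul_dvd_mul_iff_left hpZ.ne_zero).mp h1
      exact hpZ.not_dvd_one h2


/-- Under the hypotheses of `reverse_isEisensteinAt`, the reversed polynomial is irreducible
over `ℚ`. -/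
theorem irreducible_reverse_map {p : ℕ} (hp : p.Prime) (F : ℤ[X]) (hdeg : 0 < F.natDegree)
    (hlead : F.leadingCoeff = (p : ℤ)) (A : ValuationSubring L) (hA : A.LiesOverPrime p)
    (hroots : ∀ r : L, aeval r F = 0 → 1 < A.valuation r) :
    Irreducible (F.reverse.map (Int.castRingHom ℚ)) := by
  obtain ⟨hd, hprim, heis⟩ := reverse_isEisensteinAt hp F hdeg hlead A hA hroots
  have hpZ : Prime (p : ℤ) := Nat.prime_iff_prime_int.mp hp
  have hprime : (Ideal.span {(p : ℤ)}).IsPrime :=
    (Ideal.span_singleton_prime hpZ.ne_zero).mpr hpZ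
  have hirr : Irreducible F.reverse := heis.irreducible hprime hprim (by rw [hd]; exact hdeg)
  exact (IsPrimitive.Int.irreducible_iff_irreducible_map_cast hprim).mp hirr

/-- **Transitivity on the roots.**  Let `F ∈ ℤ[X]` have leading coefficient a prime `p` and suppose
that all its roots in `L` (algebraically closed, normal over `ℚ`) are non-integral (`1 < v r`) at
a valuation subring `A` over `p`.  Then `Gal(L/ℚ)` permutes the roots of `F` transitively. -/
theorem exists_algEquiv_of_roots_large [Algebra ℚ L] [Normal ℚ L] {p : ℕ} (hp : p.Prime)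
    (F : ℤ[X]) (hdeg : 0 < F.natDegree)
    (hlead : F.leadingCoeff = (p : ℤ)) (A : ValuationSubring L) (hA : A.LiesOverPrime p)
    (hroots : ∀ r : L, aeval r F = 0 → 1 < A.valuation r) (r r' : L)
    (hr : aeval r F = 0) (hr' : aeval r' F = 0) : ∃ σ : L ≃ₐ[ℚ] L, σ r = r' := by
  have hirr := irreducible_reverse_map hp F hdeg hlead A hA hroots
  set gQ := F.reverse.map (Int.castRingHom ℚ) with hgQ
  -- inverses of roots of `F` are roots of `gQ`
  have key : ∀ t : L, aeval t F = 0 → t ≠ 0 ∧ aeval t⁻¹ gQ = 0 := by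
    intro t ht
    have htne : t ≠ 0 := by
      rintro rfl
      have := hroots 0 ht
      rw [map_zero] at this
      exact not_lt_zero this
    refine ⟨htne, ?_⟩
    let _ : Invertible t := invertibleOfNonzero htne
    have h1 : eval₂ (Int.castRingHom L) (⅟t) F.reverse = 0 := by
      rw [eval₂_reverse_eq_zero_iff]
      rw [aeval_def] at ht; exact ht
    rw [invOf_eq_inv] at h1
    rw [hgQ, aeval_def, eval₂_map]
    have : (algebraMap ℚ L).comp (Int.castRingHom ℚ) = Int.castRingHom L :=
      RingHom.ext_int _ _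
    rw [this]; exact h1
  obtain ⟨hrne, hs⟩ := key r hr
  obtain ⟨hrne', hs'⟩ := key r' hr'
  have halg : IsAlgebraic ℚ r⁻¹ := (Normal.isIntegral (inferInstance : Normal ℚ L) r⁻¹).isAlgebraic
  have hmin : gQ * C gQ.leadingCoeff⁻¹ = minpoly ℚ r⁻¹ := minpoly.eq_of_irreducible hirr hs
  have hev : aeval r'⁻¹ (minpoly ℚ r⁻¹) = 0 := by
    rw [← hmin, map_mul, hs', zero_mul]
  obtain ⟨σ, hσ⟩ := minpoly.exists_algEquiv_of_root' halg hev
  refine ⟨σ, ?_⟩
  have h1 : σ r = (σ r⁻¹)⁻¹ := by rw [map_inv₀, inv_inv]
  rw [h1, hσ, inv_inv]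

end Main


/-- The announced shape over `ℚ̄ = AlgebraicClosure ℚ`: if `F ∈ ℤ[X]` has leading coefficient `p`
and all its roots in `ℚ̄` have valuation `> 1` at some `A` over `p`, then `G_ℚ` is transitive on
the roots of `F`. -/
theorem exists_galois_conj_of_roots_large (p : ℕ) (hp : p.Prime) (F : Polynomial ℤ)
    (hdeg : 0 < F.natDegree) (hlead : F.leadingCoeff = (p : ℤ))
    (A : ValuationSubring (AlgebraicClosure ℚ)) (hA : A.LiesOverPrime p)
    (hroots : ∀ r : AlgebraicClosure ℚ, Polynomial.aeval r F = 0 → 1 < A.valuation r) :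
    ∀ r r' : AlgebraicClosure ℚ, Polynomial.aeval r F = 0 → Polynomial.aeval r' F = 0 →
      ∃ σ : AlgebraicClosure ℚ ≃ₐ[ℚ] AlgebraicClosure ℚ, σ r = r' :=
  by
  have : Algebra.IsAlgebraic ℚ (AlgebraicClosure ℚ) := AlgebraicClosure.isAlgebraic ℚ
  have : IsAlgClosure ℚ (AlgebraicClosure ℚ) := ⟨inferInstance, inferInstance⟩
  exact fun r r' hr hr' =>
    exists_algEquiv_of_roots_large hp F hdeg hlead A hA hroots r r' hr hr'

end Fermat.Agent.S13lib
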