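/-
S13 brick (glue between the torsion polynomial [T], `EisensteinRoots` and the local analysis at `p`):
a Galois-stable proper nonzero subspace of `E[p]` forces a `p`-torsion point outside the kernel of
reduction `E₁` at any valuation subring over `p`.

Input: a polynomial `F ∈ ℤ[X]` of positive degree with leading coefficient `p` whose roots in `Qbar`
are exactly the `x`-coordinates of the nonzero `p`-torsion points.
-/
import Mathlib
import Fermat.Prelude.Def_FLTPrelim_GaloisRep
import Fermat.Prelude.Def_FLTPrelim_Ramification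
import Fermat.Agent.S05lib.KerRed.Main
import Fermat.Agent.S13lib.EisensteinRoots

set_option autoImplicit false

namespace Fermat.Agent.S13lib

open WeierstrassCurve WeierstrassCurve.Affine WeierstrassCurve.Affine.Point Polynomial

/-- Over an algebraically closed field every `x` is the `x`-coordinate of a point of the curve. -/
theorem exists_equation_of_isAlgClosed {K : Type*} [Field K] [IsAlgClosed K]
    (W : WeierstrassCurve.Affine K) (x : K) : ∃ y : K, W.Equation x y := by
  -- the polynomial `Y² + (a₁ x + a₃) Y - (x³ + a₂ x² + a₄ x + a₆)` has a root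
  set q : K[X] := X ^ 2 + C (W.a₁ * x + W.a₃) * X - C (x ^ 3 + W.a₂ * x ^ 2 + W.a₄ * x + W.a₆)
    with hq
  have hdeg : q.degree = 2 := by
    rw [hq]
    compute_degree!
  obtain ⟨y, hy⟩ := IsAlgClosed.exists_root q (by rw [hdeg]; norm_num)
  refine ⟨y, ?_⟩
  rw [WeierstrassCurve.Affine.equation_iff]
  have : y ^ 2 + (W.a₁ * x + W.a₃) * y - (x ^ 3 + W.a₂ * x ^ 2 + W.a₄ * x + W.a₆) = 0 := by
    simpa [hq, IsRoot.def] using hy
  linear_combination this


section Main

variable {p : ℕ} (W' : WeierstrassCurve.Affine ℚ)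

/-- Every root of `F` is the `x`-coordinate of a nonzero `p`-torsion point. -/
theorem exists_torsion_point_of_root (hΔ : W'.Δ ≠ 0) (F : ℤ[X])
    (hF : ∀ (x y : AlgebraicClosure ℚ) (h : (W'⁄(AlgebraicClosure ℚ)).Nonsingular x y),
      p • (Point.some x y h) = 0 ↔ aeval x F = 0)
    (r : AlgebraicClosure ℚ) (hr : aeval r F = 0) :
    ∃ (y : AlgebraicClosure ℚ) (h : (W'⁄(AlgebraicClosure ℚ)).Nonsingular r y),
      p • (Point.some r y h) = 0 := by
  obtain ⟨y, hy⟩ := exists_equation_of_isAlgClosed (W'⁄(AlgebraicClosure ℚ)) r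
  have hΔ' : (W'⁄(AlgebraicClosure ℚ)).Δ ≠ 0 := by
    change (W'.map (algebraMap ℚ (AlgebraicClosure ℚ))).Δ ≠ 0
    rw [WeierstrassCurve.map_Δ]
    exact fun h => hΔ ((algebraMap ℚ (AlgebraicClosure ℚ)).injective (by simpa using h))
  have hns : (W'⁄(AlgebraicClosure ℚ)).Nonsingular r y :=
    (WeierstrassCurve.Affine.equation_iff_nonsingular_of_Δ_ne_zero hΔ').mp hy
  exact ⟨y, hns, (hF r y hns).mpr hr⟩

/-- **Glue brick**: if `F ∈ ℤ[X]` (positive degree, leading coefficient `p`) cuts out exactly the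
`x`-coordinates of the nonzero `p`-torsion points, then a Galois-stable subspace `N ≠ ⊥, ⊤` of
`E[p]` forces a `p`-torsion point outside the kernel of reduction at any `A` over `p`. -/
theorem exists_not_inE1_of_stable_line (hp : p.Prime) (hΔ : W'.Δ ≠ 0) (F : ℤ[X])
    (hdeg : 0 < F.natDegree) (hlead : F.leadingCoeff = (p : ℤ))
    (hF : ∀ (x y : AlgebraicClosure ℚ) (h : (W'⁄(AlgebraicClosure ℚ)).Nonsingular x y),
      p • (Point.some x y h) = 0 ↔ aeval x F = 0)
    (A : ValuationSubring (AlgebraicClosure ℚ)) (hA : A.LiesOverPrime p)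
    (N : Submodule (ZMod p) (Submodule.torsionBy ℤ (W'⁄(AlgebraicClosure ℚ)).Point p))
    (hNst : IsGaloisStable ℚ N) (hN0 : N ≠ ⊥) (hNtop : N ≠ ⊤) :
    ∃ x : Submodule.torsionBy ℤ (W'⁄(AlgebraicClosure ℚ)).Point p,
      ¬ S05lib.InE1 A.valuation (W'⁄(AlgebraicClosure ℚ)) x.1 := by
  by_contra hcon
  push Not at hcon
  -- all roots of `F` are large
  have hroots : ∀ r : AlgebraicClosure ℚ, aeval r F = 0 → 1 < A.valuation r := by
    intro r hr
    obtain ⟨y, hns, hP⟩ := exists_torsion_point_of_root W' hΔ F hF r hr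
    have hmem : Point.some r y hns ∈ Submodule.torsionBy ℤ (W'⁄(AlgebraicClosure ℚ)).Point p := by
      rw [Submodule.mem_torsionBy_iff, natCast_zsmul]
      exact hP
    exact hcon ⟨_, hmem⟩
  have htrans := exists_galois_conj_of_roots_large p hp F hdeg hlead A hA hroots
  -- a nonzero element of `N`
  obtain ⟨Q, hQN, hQ0⟩ := (Submodule.ne_bot_iff N).mp hN0
  apply hNtop
  rw [eq_top_iff]
  rintro ⟨P, hP⟩ -
  -- reduce to affine points
  rcases P with _ | ⟨xP, yP, hnsP⟩
  · have : (⟨Point.zero, hP⟩ : Submodule.torsionBy ℤ (W'⁄(AlgebraicClosure ℚ)).Point p) = 0 := rfl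
    rw [this]
    exact N.zero_mem
  obtain ⟨Qpt, hQmem⟩ := Q
  rcases Qpt with _ | ⟨xQ, yQ, hnsQ⟩
  · exact absurd rfl hQ0
  have hPtor : p • Point.some xP yP hnsP = 0 := by
    have := (Submodule.mem_torsionBy_iff _ _).mp hP
    rwa [natCast_zsmul] at this
  have hQtor : p • Point.some xQ yQ hnsQ = 0 := by
    have := (Submodule.mem_torsionBy_iff _ _).mp hQmem
    rwa [natCast_zsmul] at this
  obtain ⟨σ, hσ⟩ := htrans xQ xP ((hF _ _ _).mp hQtor) ((hF _ _ _).mp hPtor)
  -- `σ • Q` has the same `x`-coordinate as `P`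
  have hσQN := hNst σ _ hQN
  have hσQ : ((σ • (⟨Point.some xQ yQ hnsQ, hQmem⟩ :
      Submodule.torsionBy ℤ (W'⁄(AlgebraicClosure ℚ)).Point p) :
      Submodule.torsionBy ℤ (W'⁄(AlgebraicClosure ℚ)).Point p) : (W'⁄(AlgebraicClosure ℚ)).Point) =
      Point.some (σ xQ) (σ yQ)
        ((W'.baseChange_nonsingular σ.toAlgHom.injective ..).mpr hnsQ) := rfl
  have hx : (Point.some xP yP hnsP).xRep =
      (Point.some (σ xQ) (σ yQ)
        ((W'.baseChange_nonsingular σ.toAlgHom.injective ..).mpr hnsQ)).xRep := by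
    simp [hσ]
  rcases Point.eq_or_eq_neg_of_xRep_eq_xRep hx with h | h
  · have : (⟨Point.some xP yP hnsP, hP⟩ :
        Submodule.torsionBy ℤ (W'⁄(AlgebraicClosure ℚ)).Point p) =
        σ • (⟨Point.some xQ yQ hnsQ, hQmem⟩ :
          Submodule.torsionBy ℤ (W'⁄(AlgebraicClosure ℚ)).Point p) :=
      Subtype.ext (h.trans hσQ.symm)
    rw [this]
    exact hσQN
  · have : (⟨Point.some xP yP hnsP, hP⟩ :
        Submodule.torsionBy ℤ (W'⁄(AlgebraicClosure ℚ)).Point p) =
        - (σ • (⟨Point.some xQ yQ hnsQ, hQmem⟩ :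
          Submodule.torsionBy ℤ (W'⁄(AlgebraicClosure ℚ)).Point p)) := by
      apply Subtype.ext
      rw [Submodule.coe_neg, hσQ]
      exact h
    rw [this]
    exact N.neg_mem hσQN

end Main

end Fermat.Agent.S13lib
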