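/-
S13 glue brick `hns`, instantiated: the ladder polynomial `ladF W m ∈ ℤ[X]` of an integral
Weierstrass model `W` (helper4) is fed into `exists_not_inE1_of_stable_line`.  Output in the exact
shape required by `LocalP.legW_inertia_dichotomy` (hypothesis `hns`).
-/
import Fermat.Agent.S13lib.NotInE1
import Fermat.Agent.S13lib.LadderDegree
import Fermat.Agent.S05lib.LegCurve

set_option autoImplicit false

namespace Fermat.Agent.S13lib

open WeierstrassCurve WeierstrassCurve.Affine WeierstrassCurve.Affine.Point Polynomial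
open Fermat.Agent.S05lib

/-- Evaluating the ladder polynomial of an integral model at a point of `Qbar`. -/
theorem aeval_ladF_Qbar_eq_eval (W : WeierstrassCurve ℤ) (m : ℕ) (x : AlgebraicClosure ℚ) :
    aeval x (ladF W m) = (ladF (W.map (Int.castRingHom (AlgebraicClosure ℚ))) m).eval x := by
  rw [← ladF_map, eval_map, aeval_def]
  congr 1

/-- **`hns` for an arbitrary integral Weierstrass model** `W` over `ℤ` (any curve `W'` over `ℚ`
equal to the base change of `W`). -/
theorem exists_not_inE1_of_int_model (W : WeierstrassCurve ℤ) (W' : WeierstrassCurve ℚ)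
    (hWW' : W.map (Int.castRingHom ℚ) = W') (hΔ : W.Δ ≠ 0) {p : ℕ} (hp : p.Prime) (hodd : p ≠ 2)
    (A : ValuationSubring (AlgebraicClosure ℚ)) (hA : A.LiesOverPrime p)
    (N : Submodule (ZMod p) (Submodule.torsionBy ℤ (W'.toAffine⁄(AlgebraicClosure ℚ)).Point p))
    (hNst : IsGaloisStable ℚ N) (hN0 : N ≠ ⊥) (hNtop : N ≠ ⊤) :
    ∃ x : Submodule.torsionBy ℤ (W'.toAffine⁄(AlgebraicClosure ℚ)).Point p,
      ¬ InE1 A.valuation (W'.toAffine⁄(AlgebraicClosure ℚ)) x.1 := by
  subst hWW'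
  -- `p = 2 m + 1`
  obtain ⟨m, hm⟩ : ∃ m, p = 2 * m + 1 := by
    rcases hp.eq_two_or_odd' with h | h
    · exact absurd h hodd
    · exact h
  have hpZ : (2 * (m : ℤ) + 1) ≠ 0 := by omega
  have hm0 : 0 < m := by
    rcases Nat.eq_zero_or_pos m with rfl | h
    · exact absurd (by simpa using hm) hp.one_lt.ne'
    · exact h
  have hΔ' : (W.map (Int.castRingHom ℚ)).toAffine.Δ ≠ 0 := by
    change (W.map (Int.castRingHom ℚ)).Δ ≠ 0
    rw [WeierstrassCurve.map_Δ]
    simpa using hΔ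
  refine exists_not_inE1_of_stable_line (W.map (Int.castRingHom ℚ)).toAffine hp hΔ' (ladF W m)
    ?_ ?_ ?_ A hA N hNst hN0 hNtop
  · rw [ladF_natDegree W m hpZ]
    positivity
  · rw [ladF_leadingCoeff W m hpZ, hm]
    push_cast
    ring
  · intro x y h
    rw [aeval_ladF_Qbar_eq_eval, hm]
    have key := odd_nsmul_eq_zero_iff_ladF
      ((W.map (Int.castRingHom ℚ)).toAffine⁄(AlgebraicClosure ℚ)) h m
    rw [key]
    have : ladF ((W.map (Int.castRingHom ℚ)).toAffine⁄(AlgebraicClosure ℚ)) m =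
        ladF (W.map (Int.castRingHom (AlgebraicClosure ℚ))) m := by
      change ladF ((W.map (Int.castRingHom ℚ)).map (algebraMap ℚ (AlgebraicClosure ℚ))) m = _
      rw [WeierstrassCurve.map_map]
      congr 2
    rw [this]

/-- The discriminant of `y² = x³ + a x² + b x`. -/
theorem legW_Δ {R : Type*} [CommRing R] (a b : R) :
    (legW a b).Δ = 16 * b ^ 2 * (a ^ 2 - 4 * b) := by
  simp only [WeierstrassCurve.Δ, WeierstrassCurve.b₂, WeierstrassCurve.b₄, WeierstrassCurve.b₆,
    WeierstrassCurve.b₈, legW]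
  ring

/-- **`hns` for the Legendre-type model**, in the literal shape of
`LocalP.legW_inertia_dichotomy`. -/
theorem legW_exists_not_inE1 (a b : ℤ) (hb : b ≠ 0) (hd : a ^ 2 - 4 * b ≠ 0) {p : ℕ}
    (hp : p.Prime) (hodd : p ≠ 2)
    (A : ValuationSubring (AlgebraicClosure ℚ)) (hA : A.LiesOverPrime p)
    (N : Submodule (ZMod p) (Submodule.torsionBy ℤ
      ((legW (a : ℚ) (b : ℚ) : Affine ℚ)⁄(AlgebraicClosure ℚ)).Point p))
    (hNst : IsGaloisStable ℚ N) (hN0 : N ≠ ⊥) (hNtop : N ≠ ⊤) :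
    ∃ x : Submodule.torsionBy ℤ ((legW (a : ℚ) (b : ℚ) : Affine ℚ)⁄(AlgebraicClosure ℚ)).Point p,
      ¬ InE1 A.valuation ((legW (a : ℚ) (b : ℚ) : Affine ℚ)⁄(AlgebraicClosure ℚ)) x.1 := by
  refine exists_not_inE1_of_int_model (legW a b) (legW (a : ℚ) (b : ℚ)) ?_ ?_ hp hodd A hA N hNst
    hN0 hNtop
  · rw [legW_map]
    simp
  · rw [legW_Δ]
    exact mul_ne_zero (mul_ne_zero (by norm_num) (pow_ne_zero 2 hb)) hd

end Fermat.Agent.S13lib
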