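/-
S13 library, brick [C0] (helper8): abstract linear algebra over `ZMod p`.
A group `I` acts additively on a `ZMod p`-space `V` with `p ^ 2` elements, unipotently modulo an
`I`-stable proper subspace `M`; then on every `I`-stable line `N`, either `I` acts trivially on
`N` or `I` acts trivially on `V / N`.
-/
import Mathlib

set_option autoImplicit false

namespace Fermat.Agent.S13lib

section

variable {p : ℕ} [hp : Fact p.Prime] {V : Type*} [AddCommGroup V] [Module (ZMod p) V]
  {G : Type*} [Group G] [DistribMulAction G V]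

/-- additive group actions commute with `ZMod p`-scalars. -/
theorem smul_zmod_smul (σ : G) (c : ZMod p) (x : V) : σ • (c • x) = c • (σ • x) := by
  obtain ⟨n, rfl⟩ := ZMod.natCast_zmod_surjective c
  rw [Nat.cast_smul_eq_nsmul, Nat.cast_smul_eq_nsmul]
  exact smul_comm σ n x

/-- a submodule with `p` elements is spanned by any of its nonzero elements. -/
theorem exists_smul_eq_of_card_eq (N : Submodule (ZMod p) V) (hN : Nat.card N = p) {x : V}
    (hx : x ∈ N) (hx0 : x ≠ 0) {z : V} (hz : z ∈ N) : ∃ c : ZMod p, z = c • x := by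
  have : Finite N := Nat.finite_of_card_ne_zero (by rw [hN]; exact hp.out.ne_zero)
  let f : ZMod p → N := fun c => ⟨c • x, N.smul_mem c hx⟩
  have hf : Function.Injective f := by
    intro c d hcd
    have h1 : c • x = d • x := congrArg Subtype.val hcd
    have h2 : (c - d) • x = 0 := by rw [sub_smul, h1, sub_self]
    rcases smul_eq_zero.mp h2 with h3 | h3
    · exact sub_eq_zero.mp h3
    · exact absurd h3 hx0
  have hbij : Function.Bijective f := by
    rw [Nat.bijective_iff_injective_and_card]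
    exact ⟨hf, by rw [Nat.card_zmod, hN]⟩
  obtain ⟨c, hc⟩ := hbij.2 ⟨z, hz⟩
  exact ⟨c, (congrArg Subtype.val hc).symm⟩

/-- unipotent on a quotient line implies trivial on the quotient. -/
theorem sub_mem_of_unipotent (M : Submodule (ZMod p) V) {y : V} (hy : y ∉ M)
    (hspan : ∀ z : V, ∃ m ∈ M, ∃ d : ZMod p, z = m + d • y) (σ : G)
    (hM : ∀ x ∈ M, σ • x ∈ M) (huni : ∀ x : V, σ • (σ • x - x) - (σ • x - x) ∈ M) (z : V) :
    σ • z - z ∈ M := by
  obtain ⟨m₀, hm₀, c, hc⟩ := hspan (σ • y)
  have h1 : σ • y - y = m₀ + (c - 1) • y := by rw [hc, sub_smul, one_smul]; abel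
  have h2 : σ • (σ • y - y) - (σ • y - y) = (σ • m₀ - m₀) + (c - 1) • m₀ + ((c - 1) * (c - 1)) • y := by
    rw [h1, smul_add, smul_zmod_smul, hc]
    generalize σ • m₀ = s
    module
  have h3 : ((c - 1) * (c - 1)) • y ∈ M := by
    have h4 := huni y
    rw [h2] at h4
    have h5 : (σ • m₀ - m₀) + (c - 1) • m₀ ∈ M :=
      M.add_mem (M.sub_mem (hM m₀ hm₀) hm₀) (M.smul_mem _ hm₀)
    exact (M.add_mem_iff_right h5).mp h4
  have hc1 : c = 1 := by
    by_contra hne
    have h6 : (c - 1) * (c - 1) ≠ 0 := mul_ne_zero (sub_ne_zero.mpr hne) (sub_ne_zero.mpr hne)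
    apply hy
    have := M.smul_mem ((c - 1) * (c - 1))⁻¹ h3
    rwa [smul_smul, inv_mul_cancel₀ h6, one_smul] at this
  have h7 : σ • y - y ∈ M := by rw [h1, hc1, sub_self, zero_smul, add_zero]; exact hm₀
  obtain ⟨m, hm, d, hd⟩ := hspan z
  have h8 : σ • z - z = (σ • m - m) + d • (σ • y - y) := by
    rw [hd, smul_add, smul_zmod_smul, smul_sub]; abel
  rw [h8]
  exact M.add_mem (M.sub_mem (hM m hm) hm) (M.smul_mem _ h7)

/-- **Line dichotomy.** -/
theorem line_dichotomy (hV : Nat.card V = p ^ 2) (I : Subgroup G) (N M : Submodule (ZMod p) V)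
    (hNcard : Nat.card N = p) (hNst : ∀ σ ∈ I, ∀ x ∈ N, σ • x ∈ N)
    (hMst : ∀ σ ∈ I, ∀ x ∈ M, σ • x ∈ M) (hM : M ≠ ⊤)
    (huni : ∀ σ ∈ I, ∀ x : V, σ • (σ • x - x) - (σ • x - x) ∈ M) :
    (∀ σ ∈ I, ∀ x ∈ N, σ • x = x) ∨ (∀ σ ∈ I, ∀ x : V, σ • x - x ∈ N) := by
  have : Finite V := Nat.finite_of_card_ne_zero (by rw [hV]; exact pow_ne_zero _ hp.out.ne_zero)
  by_cases hMbot : M = ⊥
  · -- `I` acts unipotently on `V`
    left
    intro σ hσ x hx
    by_cases hx0 : x = 0
    · rw [hx0, smul_zero]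
    obtain ⟨c, hc⟩ := exists_smul_eq_of_card_eq N hNcard hx hx0 (hNst σ hσ x hx)
    have h1 := huni σ hσ x
    rw [hMbot, Submodule.mem_bot, hc] at h1
    have h2 : σ • (c • x - x) - (c • x - x) = ((c - 1) * (c - 1)) • x := by
      rw [smul_sub, smul_zmod_smul, hc]
      module
    rw [h2] at h1
    rcases smul_eq_zero.mp h1 with h3 | h3
    · have : c = 1 := by
        rcases mul_self_eq_zero.mp h3 with h4
        exact sub_eq_zero.mp h4
      rw [hc, this, one_smul]
    · exact absurd h3 hx0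
  · -- `M` is a line
    obtain ⟨m₁, hm₁, hm₁0⟩ := (Submodule.ne_bot_iff M).mp hMbot
    obtain ⟨y, hy⟩ : ∃ y : V, y ∉ M := by
      by_contra hcon
      push Not at hcon
      exact hM (eq_top_iff.mpr fun z _ => hcon z)
    -- every vector is `c m₁ + d y`
    let f : ZMod p × ZMod p → V := fun cd => cd.1 • m₁ + cd.2 • y
    have hf : Function.Injective f := by
      rintro ⟨c, d⟩ ⟨c', d'⟩ hcd
      have h1 : (c - c') • m₁ + (d - d') • y = 0 := by
        have : c • m₁ + d • y = c' • m₁ + d' • y := hcd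
        rw [sub_smul, sub_smul]
        rw [← sub_eq_zero] at this
        rw [← this]; abel
      have hd : d - d' = 0 := by
        by_contra hne
        apply hy
        have h2 : (d - d') • y = -((c - c') • m₁) := eq_neg_of_add_eq_zero_right h1
        have h3 : (d - d') • y ∈ M := by rw [h2]; exact M.neg_mem (M.smul_mem _ hm₁)
        have := M.smul_mem (d - d')⁻¹ h3
        rwa [smul_smul, inv_mul_cancel₀ hne, one_smul] at this
      rw [hd, zero_smul, add_zero] at h1
      rcases smul_eq_zero.mp h1 with h4 | h4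
      · rw [Prod.mk.injEq]; exact ⟨sub_eq_zero.mp h4, sub_eq_zero.mp hd⟩
      · exact absurd h4 hm₁0
    have hbij : Function.Bijective f := by
      rw [Nat.bijective_iff_injective_and_card]
      refine ⟨hf, ?_⟩
      rw [Nat.card_prod, Nat.card_zmod, hV, pow_two]
    have hspan : ∀ z : V, ∃ m ∈ M, ∃ d : ZMod p, z = m + d • y := by
      intro z
      obtain ⟨⟨c, d⟩, hcd⟩ := hbij.2 z
      exact ⟨c • m₁, M.smul_mem c hm₁, d, hcd.symm⟩
    have hMline : ∀ m ∈ M, ∃ c : ZMod p, m = c • m₁ := by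
      intro m hm
      obtain ⟨⟨c, d⟩, hcd⟩ := hbij.2 m
      have hcd' : c • m₁ + d • y = m := hcd
      have hd : d = 0 := by
        by_contra hne
        apply hy
        have h3 : d • y ∈ M := by
          have : d • y = m - c • m₁ := by rw [← hcd']; abel
          rw [this]; exact M.sub_mem hm (M.smul_mem _ hm₁)
        have := M.smul_mem d⁻¹ h3
        rwa [smul_smul, inv_mul_cancel₀ hne, one_smul] at this
      refine ⟨c, ?_⟩
      rw [← hcd', hd, zero_smul, add_zero]
    have hstar : ∀ σ ∈ I, ∀ z : V, σ • z - z ∈ M := fun σ hσ z =>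
      sub_mem_of_unipotent M hy hspan σ (hMst σ hσ) (huni σ hσ) z
    by_cases hmN : m₁ ∈ N
    · -- `N = M`
      right
      intro σ hσ z
      obtain ⟨c, hc⟩ := hMline _ (hstar σ hσ z)
      rw [hc]
      exact N.smul_mem c hmN
    · left
      intro σ hσ x hx
      have h1 : σ • x - x ∈ N := N.sub_mem (hNst σ hσ x hx) hx
      obtain ⟨c, hc⟩ := hMline _ (hstar σ hσ x)
      have hc0 : c = 0 := by
        by_contra hne
        apply hmN
        have h2 : c • m₁ ∈ N := hc ▸ h1
        have := N.smul_mem c⁻¹ h2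
        rwa [smul_smul, inv_mul_cancel₀ hne, one_smul] at this
      rw [hc0, zero_smul] at hc
      exact sub_eq_zero.mp hc

end

end Fermat.Agent.S13lib
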