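/-
S13 library, brick [C2] (helper8): coordinate-level "inertia acts unipotently modulo the kernel of
reduction" on `y² = x³ + a x² + b x`, in the style of S05lib: `σ` is a ring endomorphism preserving
the valuation ring and acting trivially on the residue field, `τ` the induced map on points.
* good reduction: `τ P - P ∈ E₁` for EVERY point `P`;
* node (`NodeData`): `τ P - P ∈ E₀` for every `P`, and `τ P - P ∈ E₁` for `P ∈ E₀`.
No hypothesis that the residue characteristic is prime to the torsion order.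
-/
import Mathlib
import Fermat.Agent.S05lib.Good
import Fermat.Agent.S05lib.NodeTorsion
import Fermat.Agent.S05lib.SigmaVal

set_option autoImplicit false
set_option linter.unusedSectionVars false

namespace Fermat.Agent.S13lib

open WeierstrassCurve WeierstrassCurve.Affine Fermat.Agent.S05lib

section

variable {K : Type*} [Field K] [DecidableEq K] {Γ₀ : Type*} [LinearOrderedCommGroupWithZero Γ₀]
  {v : Valuation K Γ₀} {a b β : K}

/-- **Good reduction**: `τ P - P` lies in the kernel of reduction, for every point `P`. -/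
theorem good_sub_inE1 (ha : v a ≤ 1) (hb : v b = 1) (hd : v (a ^ 2 - 4 * b) = 1) (h2 : v 2 = 1)
    (σ : K →+* K) (hσA : ∀ x, v (σ x) ≤ 1 ↔ v x ≤ 1)
    (hσ1 : ∀ x, v x ≤ 1 → v (σ x - x) < 1)
    (τ : (legW a b).toAffine.Point →+ (legW a b).toAffine.Point)
    (hτ : ∀ (x y : K) (hP : (legW a b).toAffine.Nonsingular x y),
      ∃ hP' : (legW a b).toAffine.Nonsingular (σ x) (σ y), τ (.some x y hP) = .some (σ x) (σ y) hP')
    (P : (legW a b).toAffine.Point) : InE1 v (legW a b) (τ P - P) := by
  have hW := integralModel_legW (v := v) ha hb.le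
  rcases hPeq : P with _ | ⟨x, y, hP'⟩
  · have : (Point.zero : (legW a b).toAffine.Point) = 0 := rfl
    rw [this, map_zero, sub_zero]
    exact inE1_zero
  · obtain ⟨hP'', eP⟩ := hτ x y hP'
    rw [eP]
    rcases lt_or_ge 1 (v x) with hlt | hle
    · rw [sub_eq_add_neg]
      apply InE1.add hW
      · rw [inE1_some]; exact one_lt_sigma hσA hlt
      · exact InE1.neg ((inE1_some hP').mpr hlt)
    · have hσx : v (σ x) ≤ 1 := (hσA x).mpr hle
      have e1 := (leg_equation_iff a b x y).mp hP'.1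
      have e2 := (leg_equation_iff a b (σ x) (σ y)).mp hP''.1
      have hy1 := v_y_le_one ha hb.le e1 hle
      have hy1' := v_y_le_one ha hb.le e2 hσx
      exact inE1_sub_of_congr hW hP'' hP' hσx hy1' hle hy1 (hσ1 x hle) (hσ1 y hy1)
        (nonsingular_reduction_good ha hb hd h2 e2 hσx)

/-- `τ` preserves the kernel of reduction. -/
theorem inE1_tau (σ : K →+* K) (hσA : ∀ x, v (σ x) ≤ 1 ↔ v x ≤ 1)
    (τ : (legW a b).toAffine.Point →+ (legW a b).toAffine.Point)
    (hτ : ∀ (x y : K) (hP : (legW a b).toAffine.Nonsingular x y),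
      ∃ hP' : (legW a b).toAffine.Nonsingular (σ x) (σ y), τ (.some x y hP) = .some (σ x) (σ y) hP')
    {P : (legW a b).toAffine.Point} (hP : InE1 v (legW a b) P) : InE1 v (legW a b) (τ P) := by
  rcases hPeq : P with _ | ⟨x, y, hP'⟩
  · have : (Point.zero : (legW a b).toAffine.Point) = 0 := rfl
    rw [this, map_zero]
    exact inE1_zero
  · obtain ⟨hP'', eP⟩ := hτ x y hP'
    rw [eP, inE1_some]
    rw [hPeq, inE1_some] at hP
    exact one_lt_sigma hσA hP

namespace NodeDataAux

variable (h : NodeData v a b β)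
include h

/-- `σ` fixes the square root `β` of `a` as soon as it fixes `a`. -/
theorem sigma_beta (σ : K →+* K) (hσ1 : ∀ x, v x ≤ 1 → v (σ x - x) < 1) (hσa : σ a = a) :
    σ β = β := by
  have h1 : σ β ^ 2 = β ^ 2 := by rw [← map_pow, h.hβ, hσa]
  rcases sq_eq_sq_iff_eq_or_eq_neg.mp h1 with h2 | h2
  · exact h2
  · exfalso
    have h3 := hσ1 β h.hβ1.le
    rw [h2] at h3
    have e : -β - β = -(2 * β) := by ring
    rw [e, Valuation.map_neg, map_mul, h.h2, h.hβ1, one_mul] at h3
    exact lt_irrefl _ h3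

/-- the component function is invariant under a valuation-preserving `σ` fixing `β`. -/
theorem comp_tau (σ : K →+* K) (hσv : ∀ x, v (σ x) = v x) (hσβ : σ β = β)
    (τ : (legW a b).toAffine.Point →+ (legW a b).toAffine.Point)
    (hτ : ∀ (x y : K) (hP : (legW a b).toAffine.Nonsingular x y),
      ∃ hP' : (legW a b).toAffine.Nonsingular (σ x) (σ y), τ (.some x y hP) = .some (σ x) (σ y) hP')
    (P : (legW a b).toAffine.Point) : comp v a b β (τ P) = comp v a b β P := by
  rcases hPeq : P with _ | ⟨x, y, hP'⟩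
  · have : (Point.zero : (legW a b).toAffine.Point) = 0 := rfl
    rw [this, map_zero]
  · obtain ⟨hP'', eP⟩ := hτ x y hP'
    rw [eP]
    have e : σ y - β * σ x = σ (y - β * x) := by rw [map_sub, map_mul, hσβ]
    simp only [comp, e, hσv]

/-- `τ P - P` has nonsingular reduction. -/
theorem isE0_tau_sub (σ : K →+* K) (hσv : ∀ x, v (σ x) = v x) (hσβ : σ β = β)
    (τ : (legW a b).toAffine.Point →+ (legW a b).toAffine.Point)
    (hτ : ∀ (x y : K) (hP : (legW a b).toAffine.Nonsingular x y),
      ∃ hP' : (legW a b).toAffine.Nonsingular (σ x) (σ y), τ (.some x y hP) = .some (σ x) (σ y) hP')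
    (P : (legW a b).toAffine.Point) : IsE0 v a b (τ P - P) := by
  have hb0 := h.hb0
  apply h.isE0_of_cong_one
  have c1 := h.comp_add (τ P) (-P)
  rw [comp_tau h σ hσv hσβ τ hτ P] at c1
  have c2 := h.comp_add P (-P)
  rw [add_neg_cancel, h.comp_zero] at c2
  rw [sub_eq_add_neg]
  exact c1.trans hb0 (c2.symm hb0)

/-- for `P` with nonsingular reduction, `τ P - P` lies in the kernel of reduction. -/
theorem inE1_tau_sub_of_isE0 (σ : K →+* K) (hσA : ∀ x, v (σ x) ≤ 1 ↔ v x ≤ 1)
    (hσ1 : ∀ x, v x ≤ 1 → v (σ x - x) < 1)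
    (τ : (legW a b).toAffine.Point →+ (legW a b).toAffine.Point)
    (hτ : ∀ (x y : K) (hP : (legW a b).toAffine.Nonsingular x y),
      ∃ hP' : (legW a b).toAffine.Nonsingular (σ x) (σ y), τ (.some x y hP) = .some (σ x) (σ y) hP')
    {S : (legW a b).toAffine.Point} (hSE0 : IsE0 v a b S) : InE1 v (legW a b) (τ S - S) := by
  have hW := h.integralModel
  rcases hSeq : S with _ | ⟨x, y, hS'⟩
  · have : (Point.zero : (legW a b).toAffine.Point) = 0 := rfl
    rw [this, map_zero, sub_zero]
    exact inE1_zero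
  · rw [hSeq] at hSE0
    have hx1 : 1 ≤ v x := hSE0
    obtain ⟨hS'', eS⟩ := hτ x y hS'
    rw [eS]
    rcases lt_or_eq_of_le hx1 with hlt | heq
    · rw [sub_eq_add_neg]
      apply InE1.add hW
      · rw [inE1_some]; exact one_lt_sigma hσA hlt
      · exact InE1.neg ((inE1_some hS').mpr hlt)
    · have hxσ : v (σ x) = 1 := sigma_eq_one hσA heq.symm
      obtain ⟨hy1, -⟩ := h.nonsingular_reduction ((leg_equation_iff a b x y).mp hS'.1) heq.symm
      obtain ⟨hy1', hns⟩ :=
        h.nonsingular_reduction ((leg_equation_iff a b (σ x) (σ y)).mp hS''.1) hxσ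
      exact inE1_sub_of_congr hW hS'' hS' hxσ.le hy1' heq.symm.le hy1
        (hσ1 x heq.symm.le) (hσ1 y hy1) hns

/-- **Node**: `σ` acts unipotently modulo the kernel of reduction. -/
theorem unipotent (σ : K →+* K) (hσA : ∀ x, v (σ x) ≤ 1 ↔ v x ≤ 1)
    (hσ1 : ∀ x, v x ≤ 1 → v (σ x - x) < 1) (hσv : ∀ x, v (σ x) = v x) (hσa : σ a = a)
    (τ : (legW a b).toAffine.Point →+ (legW a b).toAffine.Point)
    (hτ : ∀ (x y : K) (hP : (legW a b).toAffine.Nonsingular x y),
      ∃ hP' : (legW a b).toAffine.Nonsingular (σ x) (σ y), τ (.some x y hP) = .some (σ x) (σ y) hP')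
    (P : (legW a b).toAffine.Point) : InE1 v (legW a b) (τ (τ P - P) - (τ P - P)) :=
  inE1_tau_sub_of_isE0 h σ hσA hσ1 τ hτ
    (isE0_tau_sub h σ hσv (sigma_beta h σ hσ1 hσa) τ hτ P)

end NodeDataAux

end

end Fermat.Agent.S13lib
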