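/-
S13 library, brick [C3] (helper8): the inertia dichotomy at `p` for `y² = x³ + a x² + b x`,
`a b : ℤ`, over `AlgebraicClosure ℚ`, with good or nodal reduction at `p`:
for an inertia-stable line `N` in the `p`-torsion `V` (`#V = p²`), if `V` is not contained in the
kernel of reduction, then inertia acts trivially on `N` or on `V / N`.
-/
import Mathlib
import Fermat.Prelude.Def_FLTPrelim_Ramification
import Fermat.Agent.S05lib.Glue
import Fermat.Agent.S05lib.Inertia
import Fermat.Agent.S05lib.InertiaFacts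
import Fermat.Agent.S05lib.Frey
import Fermat.Agent.S13lib.LineDichotomy
import Fermat.Agent.S13lib.ValAut
import Fermat.Agent.S13lib.UnipotentP

set_option autoImplicit false
set_option linter.unusedSectionVars false

namespace Fermat.Agent.S13lib

open WeierstrassCurve WeierstrassCurve.Affine WeierstrassCurve.Affine.Point Fermat.Agent.S05lib

local notation "Qbar" => AlgebraicClosure ℚ

section transport

variable (a b : ℚ)

/-- the identification of the base change of `legW a b` with `legW` over `Qbar`. -/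
noncomputable def eLeg : ((legW a b : Affine ℚ)⁄Qbar).Point ≃+
    (legW (algebraMap ℚ Qbar a) (algebraMap ℚ Qbar b)).toAffine.Point :=
  ptCast (legW_baseChange (K := Qbar) a b)

/-- the map induced by `σ` on the points of `legW` over `Qbar`. -/
noncomputable def tauLeg (σ : Qbar ≃ₐ[ℚ] Qbar) :
    (legW (algebraMap ℚ Qbar a) (algebraMap ℚ Qbar b)).toAffine.Point →+
      (legW (algebraMap ℚ Qbar a) (algebraMap ℚ Qbar b)).toAffine.Point :=
  (eLeg a b).toAddMonoidHom.comp ((Point.map (W' := (legW a b : Affine ℚ)) σ.toAlgHom).comp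
    (eLeg a b).symm.toAddMonoidHom)

theorem tauLeg_some (σ : Qbar ≃ₐ[ℚ] Qbar) (x y : Qbar)
    (hxy : (legW (algebraMap ℚ Qbar a) (algebraMap ℚ Qbar b)).toAffine.Nonsingular x y) :
    ∃ hP' : (legW (algebraMap ℚ Qbar a) (algebraMap ℚ Qbar b)).toAffine.Nonsingular (σ x) (σ y),
      tauLeg a b σ (.some x y hxy) = .some (σ x) (σ y) hP' := by
  obtain ⟨h1, e1⟩ := ptCast_symm_some (legW_baseChange (K := Qbar) a b) hxy
  have h2 : ((legW a b : Affine ℚ)⁄Qbar).Nonsingular (σ.toAlgHom x) (σ.toAlgHom y) :=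
    (baseChange_nonsingular (legW a b : Affine ℚ) σ.toAlgHom.injective x y).mpr h1
  obtain ⟨h3, e3⟩ := ptCast_some (legW_baseChange (K := Qbar) a b) h2
  refine ⟨h3, ?_⟩
  change eLeg a b (Point.map σ.toAlgHom ((eLeg a b).symm (.some x y hxy))) = _
  rw [eLeg, e1, Point.map_some]
  exact e3

theorem eLeg_smul (σ : Qbar ≃ₐ[ℚ] Qbar) (P : ((legW a b : Affine ℚ)⁄Qbar).Point) :
    eLeg a b (σ • P) = tauLeg a b σ (eLeg a b P) := by
  change _ = eLeg a b (Point.map σ.toAlgHom ((eLeg a b).symm (eLeg a b P)))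
  rw [AddEquiv.symm_apply_apply]
  rfl

theorem inE1_eLeg_iff {Γ₀ : Type*} [LinearOrderedCommGroupWithZero Γ₀] (v : Valuation Qbar Γ₀)
    (P : ((legW a b : Affine ℚ)⁄Qbar).Point) :
    InE1 v (legW (algebraMap ℚ Qbar a) (algebraMap ℚ Qbar b)).toAffine (eLeg a b P) ↔
      InE1 v ((legW a b : Affine ℚ)⁄Qbar) P := by
  rcases P with _ | ⟨x, y, h⟩
  · have h0 : (Point.zero : ((legW a b : Affine ℚ)⁄Qbar).Point) = 0 := rfl
    rw [h0, _root_.map_zero]
    exact ⟨fun _ => trivial, fun _ => trivial⟩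
  · obtain ⟨h', e'⟩ := ptCast_some (legW_baseChange (K := Qbar) a b) h
    rw [eLeg, e']
    exact Iff.rfl

end transport

section main

variable {p : ℕ} [hp : Fact p.Prime]

/-- the kernel of reduction inside `V = E[p]`, as a `ZMod p`-submodule. -/
noncomputable def kerRedV (a b : ℚ) {Γ₀ : Type*} [LinearOrderedCommGroupWithZero Γ₀]
    {v : Valuation Qbar Γ₀}
    (hW : IntegralModel v (legW (algebraMap ℚ Qbar a) (algebraMap ℚ Qbar b)).toAffine) :
    Submodule (ZMod p) (Submodule.torsionBy ℤ ((legW a b : Affine ℚ)⁄Qbar).Point p) :=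
  AddSubgroup.toZModSubmodule p
    ((kerRed hW).comap ((eLeg a b).toAddMonoidHom.comp
      (Submodule.torsionBy ℤ ((legW a b : Affine ℚ)⁄Qbar).Point p).subtype.toAddMonoidHom))

theorem mem_kerRedV (a b : ℚ) {Γ₀ : Type*} [LinearOrderedCommGroupWithZero Γ₀]
    {v : Valuation Qbar Γ₀}
    (hW : IntegralModel v (legW (algebraMap ℚ Qbar a) (algebraMap ℚ Qbar b)).toAffine)
    (x : Submodule.torsionBy ℤ ((legW a b : Affine ℚ)⁄Qbar).Point p) :
    x ∈ kerRedV (p := p) a b hW ↔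
      InE1 v (legW (algebraMap ℚ Qbar a) (algebraMap ℚ Qbar b)).toAffine (eLeg a b x.1) :=
  Iff.rfl

/-- **The inertia dichotomy at `p`** for `y² = x³ + a x² + b x` with good or nodal reduction at the
odd prime `p`: if `V = E[p]` has `p²` elements and is not contained in the kernel of reduction, then
the inertia group of any valuation ring over `p` acts trivially on an inertia-stable line `N` or on
`V / N`. -/
theorem legW_inertia_dichotomy (hp2 : p ≠ 2) (a b : ℤ) (hb0 : b ≠ 0)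
    (hred : (¬(p : ℤ) ∣ b ∧ ¬(p : ℤ) ∣ a ^ 2 - 4 * b) ∨ (¬(p : ℤ) ∣ a ∧ (p : ℤ) ∣ b))
    (A : ValuationSubring Qbar) (hA : A.LiesOverPrime p)
    (hV : Nat.card (Submodule.torsionBy ℤ ((legW (a : ℚ) (b : ℚ) : Affine ℚ)⁄Qbar).Point p) = p ^ 2)
    (N : Submodule (ZMod p)
      (Submodule.torsionBy ℤ ((legW (a : ℚ) (b : ℚ) : Affine ℚ)⁄Qbar).Point p))
    (hNcard : Nat.card N = p)
    (hNst : ∀ σ ∈ A.inertiaSubgroupIn ℚ, ∀ x ∈ N, σ • x ∈ N)
    (hns : ∃ x : Submodule.torsionBy ℤ ((legW (a : ℚ) (b : ℚ) : Affine ℚ)⁄Qbar).Point p,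
      ¬ InE1 A.valuation ((legW (a : ℚ) (b : ℚ) : Affine ℚ)⁄Qbar) x.1) :
    (∀ σ ∈ A.inertiaSubgroupIn ℚ, ∀ x ∈ N, σ • x = x) ∨
      (∀ σ ∈ A.inertiaSubgroupIn ℚ,
        ∀ x : Submodule.torsionBy ℤ ((legW (a : ℚ) (b : ℚ) : Affine ℚ)⁄Qbar).Point p,
          σ • x - x ∈ N) := by
  have hpA : A.valuation ((p : ℕ) : Qbar) < 1 := hA
  have hp2' : ¬(p : ℤ) ∣ 2 := by
    intro h
    have h' : p ∣ 2 := by exact_mod_cast h
    exact hp2 ((Nat.prime_dvd_prime_iff_eq hp.out Nat.prime_two).mp h')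
  have h2 : A.valuation (2 : Qbar) = 1 := by
    have := vint_eq_one_of_not_dvd A hp.out hpA hp2'
    simpa using this
  have eA : algebraMap ℚ Qbar ((a : ℤ) : ℚ) = (a : Qbar) := algebraMap_intCast a
  have eB : algebraMap ℚ Qbar ((b : ℤ) : ℚ) = (b : Qbar) := algebraMap_intCast b
  have hva : A.valuation (algebraMap ℚ Qbar ((a : ℤ) : ℚ)) ≤ 1 := by
    rw [eA]; exact vint_le_one A a
  have hvb : A.valuation (algebraMap ℚ Qbar ((b : ℤ) : ℚ)) ≤ 1 := by
    rw [eB]; exact vint_le_one A b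
  have hW := integralModel_legW (v := A.valuation) hva hvb
  apply line_dichotomy hV (A.inertiaSubgroupIn ℚ) N (kerRedV (p := p) (a : ℚ) (b : ℚ) hW)
    hNcard hNst
  · -- the kernel of reduction is inertia-stable
    intro σ hσ x hx
    obtain ⟨hσA, hσ1⟩ := inertia_facts A σ hσ
    rw [mem_kerRedV] at hx ⊢
    have e1 : ((σ • x : Submodule.torsionBy ℤ ((legW (a : ℚ) (b : ℚ) : Affine ℚ)⁄Qbar).Point p) :
        ((legW (a : ℚ) (b : ℚ) : Affine ℚ)⁄Qbar).Point) = σ • (x : _) := rfl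
    rw [e1, eLeg_smul]
    exact inE1_tau (σ : Qbar →+* Qbar) (fun y => hσA y) (tauLeg _ _ σ) (tauLeg_some _ _ σ) hx
  · -- it is not everything
    obtain ⟨x, hx⟩ := hns
    intro htop
    apply hx
    have hxM : x ∈ kerRedV (p := p) (a : ℚ) (b : ℚ) hW := by rw [htop]; trivial
    rw [mem_kerRedV] at hxM
    exact (inE1_eLeg_iff _ _ _ _).mp hxM
  · -- unipotence modulo the kernel of reduction
    intro σ hσ x
    obtain ⟨hσA, hσ1⟩ := inertia_facts A σ hσ
    have : Algebra.IsAlgebraic ℚ Qbar := AlgebraicClosure.isAlgebraic ℚ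
    have hσv : ∀ y, A.valuation (σ y) = A.valuation y := val_algEquiv_eq σ hσA
    rw [mem_kerRedV]
    have e1 : ((σ • (σ • x - x) - (σ • x - x) :
        Submodule.torsionBy ℤ ((legW (a : ℚ) (b : ℚ) : Affine ℚ)⁄Qbar).Point p) :
        ((legW (a : ℚ) (b : ℚ) : Affine ℚ)⁄Qbar).Point) =
        σ • (σ • (x : ((legW (a : ℚ) (b : ℚ) : Affine ℚ)⁄Qbar).Point) - x) -
          (σ • (x : ((legW (a : ℚ) (b : ℚ) : Affine ℚ)⁄Qbar).Point) - x) := rfl
    rw [e1, map_sub, eLeg_smul, map_sub, eLeg_smul]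
    rcases hred with ⟨hb, hd⟩ | ⟨ha, hb⟩
    · have hvb1 : A.valuation (algebraMap ℚ Qbar ((b : ℤ) : ℚ)) = 1 := by
        rw [eB]; exact vint_eq_one_of_not_dvd A hp.out hpA hb
      have hvd : A.valuation ((algebraMap ℚ Qbar ((a : ℤ) : ℚ)) ^ 2 -
          4 * algebraMap ℚ Qbar ((b : ℤ) : ℚ)) = 1 := by
        rw [eA, eB]
        have := vint_eq_one_of_not_dvd A hp.out hpA hd
        push_cast at this
        exact this
      exact good_sub_inE1 hva hvb1 hvd h2 (σ : Qbar →+* Qbar) (fun y => hσA y)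
        (fun y hy => hσ1 y hy) (tauLeg _ _ σ) (tauLeg_some _ _ σ) _
    · obtain ⟨β, hβ⟩ := exists_sq_Kbar (algebraMap ℚ Qbar ((a : ℤ) : ℚ))
      have hva1 : A.valuation (algebraMap ℚ Qbar ((a : ℤ) : ℚ)) = 1 := by
        rw [eA]; exact vint_eq_one_of_not_dvd A hp.out hpA ha
      have hβ1 : A.valuation β = 1 := by
        have : A.valuation β ^ 2 = 1 ^ 2 := by rw [← map_pow, hβ, hva1, one_pow]
        exact (pow_left_inj₀ zero_le zero_le (by norm_num)).mp this
      have hnode : NodeData A.valuation (algebraMap ℚ Qbar ((a : ℤ) : ℚ))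
          (algebraMap ℚ Qbar ((b : ℤ) : ℚ)) β :=
        { hb := by rw [eB]; exact vint_lt_one_of_dvd A hpA hb
          hb0 := by rw [eB]; exact_mod_cast hb0
          hβ := hβ
          hβ1 := hβ1
          h2 := h2 }
      exact NodeDataAux.unipotent hnode (σ : Qbar →+* Qbar) (fun y => hσA y)
        (fun y hy => hσ1 y hy) (fun y => hσv y) (σ.commutes _) (tauLeg _ _ σ)
        (tauLeg_some _ _ σ) _

end main

end Fermat.Agent.S13lib
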