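/-
S13 library, brick (G3) (helper8): the "local alternative at `p`" for the curve
`y² = x³ + a x² + b x`, `a b : ℤ`, with good or nodal reduction at the odd prime `p`, in exactly the
hypothesis shape of `local_alternative_of_equiv` (`TorsionEquiv.lean`) / `hp'` of the assembly.

It combines: the ladder polynomial (torsion count and the polynomial cutting out the
`x`-coordinates of `E[p] ∖ 0`), `exists_not_inE1_of_stable_line` (Eisenstein argument),
`exists_liesOverPrime` and `legW_inertia_dichotomy`.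
-/
import Mathlib
import Fermat.Prelude.Def_FLTPrelim_GaloisRep
import Fermat.Prelude.Def_FLTPrelim_Ramification
import Fermat.Agent.S13lib.LocalP
import Fermat.Agent.S13lib.NotInE1
import Fermat.Agent.S13lib.LadderDegree
import Fermat.Agent.S13lib.TorsionCountV
import Fermat.Agent.S13lib.PlaceOpen
import Fermat.Agent.S13lib.Assembly

set_option autoImplicit false
set_option linter.unusedSectionVars false

namespace Fermat.Agent.S13lib

open WeierstrassCurve WeierstrassCurve.Affine WeierstrassCurve.Affine.Point Fermat.Agent.S05lib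
  Polynomial

section

variable (a b : ℤ)

theorem legW_Δ_eq : (legW (a : ℚ) (b : ℚ)).Δ = 16 * (b : ℚ) ^ 2 * ((a : ℚ) ^ 2 - 4 * (b : ℚ)) := by
  simp only [WeierstrassCurve.Δ, WeierstrassCurve.b₂, WeierstrassCurve.b₄, WeierstrassCurve.b₆,
    WeierstrassCurve.b₈, legW]
  ring

theorem legW_Δ_ne_zero (hb0 : b ≠ 0) (hd : a ^ 2 - 4 * b ≠ 0) :
    (legW (a : ℚ) (b : ℚ)).Δ ≠ 0 := by
  rw [legW_Δ_eq]
  have h1 : (b : ℚ) ≠ 0 := by exact_mod_cast hb0
  have h2 : (a : ℚ) ^ 2 - 4 * (b : ℚ) ≠ 0 := by exact_mod_cast hd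
  exact mul_ne_zero (mul_ne_zero (by norm_num) (pow_ne_zero _ h1)) h2

theorem legW_isElliptic (hb0 : b ≠ 0) (hd : a ^ 2 - 4 * b ≠ 0) :
    (legW (a : ℚ) (b : ℚ)).IsElliptic :=
  ⟨isUnit_iff_ne_zero.mpr (legW_Δ_ne_zero a b hb0 hd)⟩

/-- the integral model of `legW a b`, base changed to `Qbar`. -/
theorem legW_int_map :
    (legW a b).map (algebraMap ℤ Qbar) = ((legW (a : ℚ) (b : ℚ) : Affine ℚ)⁄Qbar) := by
  change (legW a b).map (algebraMap ℤ Qbar) = (legW (a : ℚ) (b : ℚ)).map (algebraMap ℚ Qbar)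
  rw [legW_map, legW_map]
  simp

/-- the ladder polynomial of the integral model computes the one over `Qbar`. -/
theorem aeval_ladF_legW (m : ℕ) (r : Qbar) :
    aeval r (ladF (legW a b) m) =
      (ladF ((legW (a : ℚ) (b : ℚ) : Affine ℚ)⁄Qbar) m).eval r := by
  rw [aeval_def, eval₂_eq_eval_map, ladF_map, legW_int_map]

/-- the ladder polynomial over `ℤ` cuts out the `x`-coordinates of the `(2m+1)`-torsion. -/
theorem legW_nsmul_iff (m : ℕ) (x y : Qbar)
    (h : ((legW (a : ℚ) (b : ℚ) : Affine ℚ)⁄Qbar).Nonsingular x y) :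
    (2 * m + 1) • (Point.some x y h : ((legW (a : ℚ) (b : ℚ) : Affine ℚ)⁄Qbar).Point) = 0 ↔
      aeval x (ladF (legW a b) m) = 0 := by
  rw [aeval_ladF_legW]
  exact odd_nsmul_eq_zero_iff_ladF _ h m

/-- torsion facts for `legW a b`. -/
theorem legW_torsion_facts (hb0 : b ≠ 0) (hd : a ^ 2 - 4 * b ≠ 0) (m : ℕ) (hm : 0 < m) :
    Nontrivial (Submodule.torsionBy ℤ ((legW (a : ℚ) (b : ℚ) : Affine ℚ)⁄Qbar).Point
        (2 * m + 1 : ℕ)) ∧
      Finite (Submodule.torsionBy ℤ ((legW (a : ℚ) (b : ℚ) : Affine ℚ)⁄Qbar).Point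
        (2 * m + 1 : ℕ)) ∧
      Nat.card (Submodule.torsionBy ℤ ((legW (a : ℚ) (b : ℚ) : Affine ℚ)⁄Qbar).Point
        (2 * m + 1 : ℕ)) ≤ (2 * m + 1) ^ 2 := by
  have : (legW (a : ℚ) (b : ℚ) : Affine ℚ).IsElliptic := legW_isElliptic a b hb0 hd
  refine torsion_facts_rat (legW (a : ℚ) (b : ℚ) : Affine ℚ) m hm
    (ladF ((legW (a : ℚ) (b : ℚ) : Affine ℚ)⁄Qbar) m) (ladF_natDegree_le _ m) ?_
    (fun x y h => odd_nsmul_eq_zero_iff_ladF _ h m)
  rw [ladF_coeff_top]
  have : (2 * (m : Qbar) + 1) = ((2 * m + 1 : ℕ) : Qbar) := by push_cast; ring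
  rw [this]
  exact Nat.cast_ne_zero.mpr (by omega)

end

section main

variable {p : ℕ} [hp : Fact p.Prime]

/-- **(G3)** the local alternative at `p` for `legW a b`. -/
theorem legW_local_alternative (hp2 : p ≠ 2) (a b : ℤ) (hb0 : b ≠ 0) (hd : a ^ 2 - 4 * b ≠ 0)
    (hred : (¬(p : ℤ) ∣ b ∧ ¬(p : ℤ) ∣ a ^ 2 - 4 * b) ∨ (¬(p : ℤ) ∣ a ∧ (p : ℤ) ∣ b)) :
    ∀ N : Submodule (ZMod p)
        (Submodule.torsionBy ℤ ((legW (a : ℚ) (b : ℚ) : Affine ℚ)⁄Qbar).Point p),
      IsGaloisStable ℚ N → Nat.card N = p →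
      ∃ A : ValuationSubring Qbar, A.LiesOverPrime p ∧
        ((∀ σ ∈ A.inertiaSubgroupIn ℚ, ∀ x ∈ N, σ • x = x) ∨
          (∀ σ ∈ A.inertiaSubgroupIn ℚ,
            ∀ x : Submodule.torsionBy ℤ ((legW (a : ℚ) (b : ℚ) : Affine ℚ)⁄Qbar).Point p,
              σ • x - x ∈ N)) := by
  intro N hNst hNcard
  obtain ⟨A, hA⟩ := exists_liesOverPrime hp.out
  refine ⟨A, hA, ?_⟩
  by_cases htop : N = ⊤
  · right
    intro σ _ x
    rw [htop]
    trivial
  have hbot : N ≠ ⊥ := by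
    intro h
    rw [h] at hNcard
    have h1 : Nat.card (⊥ : Submodule (ZMod p)
        (Submodule.torsionBy ℤ ((legW (a : ℚ) (b : ℚ) : Affine ℚ)⁄Qbar).Point p)) = 1 :=
      Nat.card_unique
    have := hp.out.one_lt
    omega
  -- `p = 2 m + 1`
  obtain ⟨m, hm⟩ : ∃ m : ℕ, p = 2 * m + 1 := by
    rcases hp.out.eq_two_or_odd' with h | h
    · exact absurd h hp2
    · exact h
  have hm0 : 0 < m := by
    have := hp.out.one_lt
    omega
  subst hm
  obtain ⟨-, hfin, hcard⟩ := legW_torsion_facts a b hb0 hd m hm0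
  obtain ⟨hcV, -⟩ := card_eq_of_ne_bot_ne_top hcard N hbot htop
  -- a torsion point outside the kernel of reduction
  have hlead0 : (2 * (m : ℤ) + 1) ≠ 0 := by positivity
  have hns := exists_not_inE1_of_stable_line (legW (a : ℚ) (b : ℚ) : Affine ℚ) hp.out
    (legW_Δ_ne_zero a b hb0 hd) (ladF (legW a b) m)
    (by rw [ladF_natDegree _ m hlead0]; positivity)
    (by rw [ladF_leadingCoeff _ m hlead0]; push_cast; ring)
    (fun x y h => legW_nsmul_iff a b m x y h) A hA N hNst hbot htop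
  exact legW_inertia_dichotomy hp2 a b hb0 hred A hA hcV N hNcard (fun σ _ => hNst σ) hns

end main

end Fermat.Agent.S13lib
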