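/-
S13 long shot, transfer brick (helper9): everything the S13 assembly needs to move between two
models of a curve (e.g. `P.freyCurve` and the Legendre models `legW a b` used at `p`) along a
Galois-equivariant isomorphism `e` of the groups of `K`-points
(`S51lib.vcEquivBaseChange` + `S51lib.vcEquivBaseChange_smul` for a change of variables over the
base field).

* `torsionEquiv e n` : the `ZMod n`-linear equivalence on `n`-torsion, `torsionEquiv_smul`;
* `card_tors_eq`, `finite_tors_iff`, `nontrivial_tors_iff`, `card_map_eq`, `card_comap_eq`;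
* `isGaloisStable_map`, `isGaloisStable_comap`, `comap_eq_bot_iff`, `comap_eq_top_iff`;
* `alternatives_of_comap` (the two alternatives "trivial on `N`" / "trivial on `V/N`"),
  `unipotent_of_equiv`, `trivial_of_equiv`, `fixed_eq_zero_of_equiv`,
  `local_alternative_of_equiv` (the `hp` hypothesis of `hasCofixedLine_of_bricks`);
* `hasGaloisStableCofixedLine_of_equiv`, `not_galoisRepIsIrreducible_of_equiv`,
  and the variable-change corollaries.
-/
import Mathlib
import Fermat.Prelude.Def_FLTPrelim_GaloisRep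
import Fermat.Prelude.Def_FLTPrelim_CofixedLine
import Fermat.Prelude.Def_FLTPrelim_Ramification
import Fermat.Agent.S51lib.Transfer

set_option autoImplicit false

noncomputable section

namespace Fermat.Agent.S13lib

open WeierstrassCurve WeierstrassCurve.Affine WeierstrassCurve.Affine.Point

section General

variable {F₀ : Type*} {K : Type*} [Field F₀] [Field K] [DecidableEq K] [Algebra F₀ K]
variable {W₁ W₂ : Affine F₀}

/-- The `n`-torsion of the `K`-points, with the prelude's `ZMod n`-module structure and Galois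
action. -/
abbrev TorsPt (W : Affine F₀) (K : Type*) [Field K] [DecidableEq K] [Algebra F₀ K] (n : ℕ) :=
  Submodule.torsionBy ℤ (W⁄K).Point n

/-- The restriction of a group isomorphism of point groups to the `n`-torsion, as a
`ZMod n`-linear equivalence. -/
def torsionEquiv (e : (W₁⁄K).Point ≃+ (W₂⁄K).Point) (n : ℕ) :
    TorsPt W₁ K n ≃ₗ[ZMod n] TorsPt W₂ K n :=
  let f : TorsPt W₁ K n →+ TorsPt W₂ K n :=
    { toFun := fun x => ⟨e x.1, by
        have hx := x.2
        rw [Submodule.mem_torsionBy_iff] at hx ⊢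
        rw [← map_zsmul, hx, _root_.map_zero]⟩
      map_zero' := Subtype.ext (_root_.map_zero e)
      map_add' := fun x y => Subtype.ext (_root_.map_add e x.1 y.1) }
  { (f.toZModLinearMap n) with
    invFun := fun y => ⟨e.symm y.1, by
        have hy := y.2
        rw [Submodule.mem_torsionBy_iff] at hy ⊢
        rw [← map_zsmul, hy, _root_.map_zero]⟩
    left_inv := fun x => Subtype.ext (e.symm_apply_apply x.1)
    right_inv := fun y => Subtype.ext (e.apply_symm_apply y.1) }

@[simp] lemma torsionEquiv_coe (e : (W₁⁄K).Point ≃+ (W₂⁄K).Point) (n : ℕ) (x : TorsPt W₁ K n) :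
    ((torsionEquiv e n x : TorsPt W₂ K n) : (W₂⁄K).Point) = e x.1 := rfl

@[simp] lemma torsionEquiv_symm_coe (e : (W₁⁄K).Point ≃+ (W₂⁄K).Point) (n : ℕ)
    (y : TorsPt W₂ K n) :
    (((torsionEquiv e n).symm y : TorsPt W₁ K n) : (W₁⁄K).Point) = e.symm y.1 := rfl

variable (e : (W₁⁄K).Point ≃+ (W₂⁄K).Point)
  (he : ∀ (σ : K ≃ₐ[F₀] K) (P : (W₁⁄K).Point), e (σ • P) = σ • e P)

include he in
lemma torsionEquiv_smul (n : ℕ) (σ : K ≃ₐ[F₀] K) (x : TorsPt W₁ K n) :
    torsionEquiv e n (σ • x) = σ • torsionEquiv e n x :=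
  Subtype.ext (he σ x.1)

include he in
lemma torsionEquiv_symm_smul (n : ℕ) (σ : K ≃ₐ[F₀] K) (y : TorsPt W₂ K n) :
    (torsionEquiv e n).symm (σ • y) = σ • (torsionEquiv e n).symm y := by
  apply (torsionEquiv e n).injective
  rw [LinearEquiv.apply_symm_apply, torsionEquiv_smul e he, LinearEquiv.apply_symm_apply]


include he in
lemma equiv_symm_smul (σ : K ≃ₐ[F₀] K) (Q : (W₂⁄K).Point) :
    e.symm (σ • Q) = σ • e.symm Q := by
  apply e.injective
  rw [AddEquiv.apply_symm_apply, he, AddEquiv.apply_symm_apply]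

/-! ### cardinalities -/

include e in
lemma card_tors_eq (n : ℕ) : Nat.card (TorsPt W₁ K n) = Nat.card (TorsPt W₂ K n) :=
  Nat.card_congr (torsionEquiv e n).toEquiv

include e in
lemma finite_tors_iff (n : ℕ) : Finite (TorsPt W₁ K n) ↔ Finite (TorsPt W₂ K n) :=
  (torsionEquiv e n).toEquiv.finite_iff

include e in
lemma nontrivial_tors_iff (n : ℕ) : Nontrivial (TorsPt W₁ K n) ↔ Nontrivial (TorsPt W₂ K n) :=
  (torsionEquiv e n).toEquiv.nontrivial_congr

lemma card_map_eq (n : ℕ) (N : Submodule (ZMod n) (TorsPt W₁ K n)) :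
    Nat.card (N.map (torsionEquiv e n : TorsPt W₁ K n →ₗ[ZMod n] TorsPt W₂ K n)) = Nat.card N :=
  (Nat.card_congr ((torsionEquiv e n).submoduleMap N).toEquiv).symm

lemma card_comap_eq (n : ℕ) (N : Submodule (ZMod n) (TorsPt W₂ K n)) :
    Nat.card (N.comap (torsionEquiv e n : TorsPt W₁ K n →ₗ[ZMod n] TorsPt W₂ K n)) = Nat.card N := by
  have h := card_map_eq e n (N.comap (torsionEquiv e n : TorsPt W₁ K n →ₗ[ZMod n] TorsPt W₂ K n))
  rw [Submodule.map_comap_eq_of_surjective (torsionEquiv e n).surjective] at h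
  exact h.symm

/-! ### stability -/

include he in
lemma isGaloisStable_map {n : ℕ} {N : Submodule (ZMod n) (TorsPt W₁ K n)}
    (hN : IsGaloisStable F₀ N) :
    IsGaloisStable F₀ (N.map (torsionEquiv e n : TorsPt W₁ K n →ₗ[ZMod n] TorsPt W₂ K n)) := by
  intro σ y hy
  obtain ⟨x, hx, rfl⟩ := Submodule.mem_map.mp hy
  refine Submodule.mem_map.mpr ⟨σ • x, hN σ x hx, ?_⟩
  exact torsionEquiv_smul e he n σ x

include he in
lemma isGaloisStable_comap {n : ℕ} {N : Submodule (ZMod n) (TorsPt W₂ K n)}
    (hN : IsGaloisStable F₀ N) :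
    IsGaloisStable F₀ (N.comap (torsionEquiv e n : TorsPt W₁ K n →ₗ[ZMod n] TorsPt W₂ K n)) := by
  intro σ x hx
  rw [Submodule.mem_comap] at hx ⊢
  rw [LinearEquiv.coe_coe, torsionEquiv_smul e he]
  exact hN σ _ hx

lemma comap_eq_bot_iff {n : ℕ} {N : Submodule (ZMod n) (TorsPt W₂ K n)} :
    N.comap (torsionEquiv e n : TorsPt W₁ K n →ₗ[ZMod n] TorsPt W₂ K n) = ⊥ ↔ N = ⊥ := by
  constructor
  · intro h
    rw [← Submodule.map_comap_eq_of_surjective (torsionEquiv e n).surjective N, h,
      Submodule.map_bot]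
  · rintro rfl
    rw [Submodule.comap_bot]
    exact LinearMap.ker_eq_bot.mpr (torsionEquiv e n).injective

lemma comap_eq_top_iff {n : ℕ} {N : Submodule (ZMod n) (TorsPt W₂ K n)} :
    N.comap (torsionEquiv e n : TorsPt W₁ K n →ₗ[ZMod n] TorsPt W₂ K n) = ⊤ ↔ N = ⊤ := by
  constructor
  · intro h
    rw [← Submodule.map_comap_eq_of_surjective (torsionEquiv e n).surjective N, h,
      Submodule.map_top, LinearMap.range_eq_top.mpr (torsionEquiv e n).surjective]
  · rintro rfl
    rw [Submodule.comap_top]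

/-! ### the two alternatives for a set of automorphisms (e.g. an inertia group) -/

include he in
/-- The two alternatives "trivial on `N`" / "trivial on `V/N`" for a set `T` of automorphisms
transfer from the pulled back submodule to `N`. -/
theorem alternatives_of_comap {n : ℕ} (T : Set (K ≃ₐ[F₀] K))
    (N : Submodule (ZMod n) (TorsPt W₂ K n))
    (h : (∀ σ ∈ T, ∀ x ∈ N.comap (torsionEquiv e n : TorsPt W₁ K n →ₗ[ZMod n] TorsPt W₂ K n),
          σ • x = x) ∨
        (∀ σ ∈ T, ∀ x : TorsPt W₁ K n,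
          σ • x - x ∈ N.comap (torsionEquiv e n : TorsPt W₁ K n →ₗ[ZMod n] TorsPt W₂ K n))) :
    (∀ σ ∈ T, ∀ y ∈ N, σ • y = y) ∨ (∀ σ ∈ T, ∀ y : TorsPt W₂ K n, σ • y - y ∈ N) := by
  rcases h with h | h
  · left
    intro σ hσ y hy
    have hx : (torsionEquiv e n).symm y ∈
        N.comap (torsionEquiv e n : TorsPt W₁ K n →ₗ[ZMod n] TorsPt W₂ K n) := by
      rw [Submodule.mem_comap, LinearEquiv.coe_coe, LinearEquiv.apply_symm_apply]; exact hy
    have := h σ hσ _ hx
    have h2 := congrArg (torsionEquiv e n) this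
    rw [torsionEquiv_smul e he, LinearEquiv.apply_symm_apply] at h2
    exact h2
  · right
    intro σ hσ y
    have := h σ hσ ((torsionEquiv e n).symm y)
    rw [Submodule.mem_comap, LinearEquiv.coe_coe, map_sub, torsionEquiv_smul e he,
      LinearEquiv.apply_symm_apply] at this
    exact this

include he in
/-- Unipotency `(σ - 1)² = 0` on the torsion transfers along `e`. -/
theorem unipotent_of_equiv {n : ℕ} (T : Set (K ≃ₐ[F₀] K))
    (h : ∀ σ ∈ T, ∀ x : TorsPt W₁ K n, σ • (σ • x - x) - (σ • x - x) = 0) :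
    ∀ σ ∈ T, ∀ y : TorsPt W₂ K n, σ • (σ • y - y) - (σ • y - y) = 0 := by
  intro σ hσ y
  have := h σ hσ ((torsionEquiv e n).symm y)
  have h2 := congrArg (torsionEquiv e n) this
  rw [map_sub, torsionEquiv_smul e he, map_sub, torsionEquiv_smul e he,
    LinearEquiv.apply_symm_apply, _root_.map_zero] at h2
  exact h2

include he in
/-- Triviality of the action of a set of automorphisms on the torsion transfers along `e`. -/
theorem trivial_of_equiv {n : ℕ} (T : Set (K ≃ₐ[F₀] K))
    (h : ∀ σ ∈ T, ∀ x : TorsPt W₁ K n, σ • x = x) :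
    ∀ σ ∈ T, ∀ y : TorsPt W₂ K n, σ • y = y := by
  intro σ hσ y
  have := h σ hσ ((torsionEquiv e n).symm y)
  have h2 := congrArg (torsionEquiv e n) this
  rw [torsionEquiv_smul e he, LinearEquiv.apply_symm_apply] at h2
  exact h2

include he in
/-- "No nonzero Galois-fixed torsion point" transfers along `e`. -/
theorem fixed_eq_zero_of_equiv {n : ℕ}
    (h : ∀ x : TorsPt W₁ K n, (∀ σ : K ≃ₐ[F₀] K, σ • x = x) → x = 0) :
    ∀ y : TorsPt W₂ K n, (∀ σ : K ≃ₐ[F₀] K, σ • y = y) → y = 0 := by
  intro y hy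
  have h1 : (torsionEquiv e n).symm y = 0 := by
    apply h
    intro σ
    rw [← torsionEquiv_symm_smul e he, hy σ]
  have h2 := congrArg (torsionEquiv e n) h1
  rw [LinearEquiv.apply_symm_apply, _root_.map_zero] at h2
  exact h2

/-! ### cofixed lines and irreducibility -/

include he in
/-- A Galois-stable cofixed line transfers along a Galois-equivariant isomorphism of the groups
of points. -/
theorem hasGaloisStableCofixedLine_of_equiv (n : ℕ)
    (h : HasGaloisStableCofixedLine (K := K) F₀ W₁ n) :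
    HasGaloisStableCofixedLine (K := K) F₀ W₂ n := by
  obtain ⟨N, hst, hbot, htop, hcof⟩ := h
  set f := torsionEquiv e n with hf
  refine ⟨N.map (f : TorsPt W₁ K n →ₗ[ZMod n] TorsPt W₂ K n), isGaloisStable_map e he hst, ?_, ?_, ?_⟩
  · intro h0
    apply hbot
    rw [Submodule.map_eq_bot_iff] at h0
    exact h0
  · intro h1
    apply htop
    rw [eq_top_iff] at h1 ⊢
    intro x _
    obtain ⟨x', hx', hxx⟩ := Submodule.mem_map.mp (h1 (Submodule.mem_top (x := f x)))
    have : x' = x := f.injective hxx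
    rw [← this]; exact hx'
  · intro σ y
    have := hcof σ (f.symm y)
    refine Submodule.mem_map.mpr ⟨_, this, ?_⟩
    rw [LinearEquiv.coe_coe, map_sub, hf, torsionEquiv_smul e he, LinearEquiv.apply_symm_apply]


include he in
/-- Reducibility transfers along a Galois-equivariant isomorphism of the groups of points. -/
theorem not_galoisRepIsIrreducible_of_equiv (n : ℕ)
    (h : ¬ GaloisRepIsIrreducible (K := K) F₀ W₁ n) :
    ¬ GaloisRepIsIrreducible (K := K) F₀ W₂ n := fun h2 =>
  h (S51lib.galoisRepIsIrreducible_of_equiv n e.symm (equiv_symm_smul e he) h2)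

include he in
/-- The "local alternative at `q`" hypothesis of the S13 assembly (`hp` in
`hasCofixedLine_of_bricks`) transfers along `e`. -/
theorem local_alternative_of_equiv {n q : ℕ}
    (h : ∀ N : Submodule (ZMod n) (TorsPt W₁ K n), IsGaloisStable F₀ N → Nat.card N = n →
      ∃ A : ValuationSubring K, A.LiesOverPrime q ∧
        ((∀ σ ∈ A.inertiaSubgroupIn F₀, ∀ x ∈ N, σ • x = x) ∨
          (∀ σ ∈ A.inertiaSubgroupIn F₀, ∀ x : TorsPt W₁ K n, σ • x - x ∈ N))) :
    ∀ N : Submodule (ZMod n) (TorsPt W₂ K n), IsGaloisStable F₀ N → Nat.card N = n →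
      ∃ A : ValuationSubring K, A.LiesOverPrime q ∧
        ((∀ σ ∈ A.inertiaSubgroupIn F₀, ∀ y ∈ N, σ • y = y) ∨
          (∀ σ ∈ A.inertiaSubgroupIn F₀, ∀ y : TorsPt W₂ K n, σ • y - y ∈ N)) := by
  intro N hN hcard
  obtain ⟨A, hA, halt⟩ := h _ (isGaloisStable_comap e he hN)
    (by rw [card_comap_eq e n N]; exact hcard)
  exact ⟨A, hA, alternatives_of_comap e he (A.inertiaSubgroupIn F₀ : Set (K ≃ₐ[F₀] K)) N halt⟩

end General

/-! ### Changes of variables over the base field -/

section VarChange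

variable {F₀ : Type*} {K : Type*} [Field F₀] [Field K] [DecidableEq K] [Algebra F₀ K]

/-- `S51lib.vcEquivBaseChange` in the other direction is Galois-equivariant as well. -/
lemma vcEquivBaseChange_symm_smul (E : Affine F₀) (C : VariableChange F₀) (σ : K ≃ₐ[F₀] K)
    (Q : (E⁄K).Point) :
    (S51lib.vcEquivBaseChange (K := K) E C).symm (σ • Q) =
      σ • (S51lib.vcEquivBaseChange (K := K) E C).symm Q :=
  equiv_symm_smul _ (S51lib.vcEquivBaseChange_smul E C) σ Q

/-- A cofixed line for `C • E` gives one for `E`. -/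
theorem hasGaloisStableCofixedLine_of_variableChange (E : Affine F₀) (C : VariableChange F₀)
    (n : ℕ) (h : HasGaloisStableCofixedLine (K := K) F₀ (C • E) n) :
    HasGaloisStableCofixedLine (K := K) F₀ E n :=
  hasGaloisStableCofixedLine_of_equiv _ (S51lib.vcEquivBaseChange_smul E C) n h

/-- A cofixed line for `E` gives one for `C • E`. -/
theorem hasGaloisStableCofixedLine_variableChange (E : Affine F₀) (C : VariableChange F₀)
    (n : ℕ) (h : HasGaloisStableCofixedLine (K := K) F₀ E n) :
    HasGaloisStableCofixedLine (K := K) F₀ (C • E) n :=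
  hasGaloisStableCofixedLine_of_equiv _ (vcEquivBaseChange_symm_smul E C) n h

end VarChange

end Fermat.Agent.S13lib
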