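/-
S13 library, brick (G4) (helper8): the "local alternative at `p`" for the Frey curve, i.e. the
hypothesis `hp'` of `hasCofixedLine_of_bricks` for `W = P.freyCurve`, `p = P.p`.

It is transported from `legW_local_alternative` (`LegWP.lean`) along the changes of variables
`S05lib.freyVC` (when `p ∤ c`) and `S05lib.freyVCShift` (when `p ∣ c`).
-/
import Mathlib
import Fermat.Prelude.Def_FLTPrelim_FreyPackage
import Fermat.Prelude.Def_FLTPrelim_GaloisRep
import Fermat.Prelude.Def_FLTPrelim_Ramification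
import Fermat.Agent.S05lib.FreyTransfer
import Fermat.Agent.S13lib.LegWP
import Fermat.Agent.S13lib.TorsionEquiv

set_option autoImplicit false
set_option linter.unusedSectionVars false

namespace Fermat.Agent.S13lib

open WeierstrassCurve WeierstrassCurve.Affine WeierstrassCurve.Affine.Point Fermat.Agent.S05lib

/-- the local alternative transfers along a change of variables, with a propositional equality
for the changed curve. -/
theorem local_alternative_of_variableChange_eq (E E' : Affine ℚ) (C : VariableChange ℚ)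
    (hE : C • E = E') {n q : ℕ}
    (h : ∀ N : Submodule (ZMod n) (Submodule.torsionBy ℤ (E'⁄Qbar).Point n),
      IsGaloisStable ℚ N → Nat.card N = n →
      ∃ A : ValuationSubring Qbar, A.LiesOverPrime q ∧
        ((∀ σ ∈ A.inertiaSubgroupIn ℚ, ∀ x ∈ N, σ • x = x) ∨
          (∀ σ ∈ A.inertiaSubgroupIn ℚ,
            ∀ x : Submodule.torsionBy ℤ (E'⁄Qbar).Point n, σ • x - x ∈ N))) :
    ∀ N : Submodule (ZMod n) (Submodule.torsionBy ℤ (E⁄Qbar).Point n),
      IsGaloisStable ℚ N → Nat.card N = n →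
      ∃ A : ValuationSubring Qbar, A.LiesOverPrime q ∧
        ((∀ σ ∈ A.inertiaSubgroupIn ℚ, ∀ x ∈ N, σ • x = x) ∨
          (∀ σ ∈ A.inertiaSubgroupIn ℚ,
            ∀ x : Submodule.torsionBy ℤ (E⁄Qbar).Point n, σ • x - x ∈ N)) := by
  subst hE
  exact local_alternative_of_equiv (S51lib.vcEquivBaseChange (K := Qbar) E C)
    (S51lib.vcEquivBaseChange_smul E C) h

/-- **(G4)** the local alternative at `p` for the Frey curve. -/
theorem frey_hp_local (P : FreyPackage) :
    ∀ N : Submodule (ZMod P.p)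
        (Submodule.torsionBy ℤ ((P.freyCurve : Affine ℚ)⁄Qbar).Point P.p),
      IsGaloisStable ℚ N → Nat.card N = P.p →
      ∃ A : ValuationSubring Qbar, A.LiesOverPrime P.p ∧
        ((∀ σ ∈ A.inertiaSubgroupIn ℚ, ∀ x ∈ N, σ • x = x) ∨
          (∀ σ ∈ A.inertiaSubgroupIn ℚ,
            ∀ x : Submodule.torsionBy ℤ ((P.freyCurve : Affine ℚ)⁄Qbar).Point P.p,
              σ • x - x ∈ N)) := by
  have : Fact P.p.Prime := ⟨P.pp⟩
  have hp2 : P.p ≠ 2 := by have := P.hp5; omega
  have hp0 : P.p ≠ 0 := P.hp0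
  have hFLT : P.a ^ P.p + P.b ^ P.p = P.c ^ P.p := P.hFLT
  have hqprime : Prime (P.p : ℤ) := Nat.prime_iff_prime_int.mp P.pp
  have hnot_ab : ¬((P.p : ℤ) ∣ P.a ∧ (P.p : ℤ) ∣ P.b) := by
    rintro ⟨h1, h2⟩
    have := dvd_gcd h1 h2
    rw [P.hgcdab] at this
    exact hqprime.not_isUnit (isUnit_of_dvd_one this)
  have hnot_ac : ¬((P.p : ℤ) ∣ P.a ∧ (P.p : ℤ) ∣ P.c) := by
    rintro ⟨h1, h2⟩
    have := dvd_gcd h1 h2
    rw [P.hgcdac] at this
    exact hqprime.not_isUnit (isUnit_of_dvd_one this)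
  have hpow : ∀ z : ℤ, (P.p : ℤ) ∣ z ^ P.p ↔ (P.p : ℤ) ∣ z := fun z =>
    ⟨fun h => hqprime.dvd_of_dvd_pow h, fun h => dvd_pow h hp0⟩
  by_cases hc : (P.p : ℤ) ∣ P.c
  · -- `p ∣ c`: the shifted model, nodal reduction
    have ha : ¬(P.p : ℤ) ∣ P.a := fun h => hnot_ac ⟨h, hc⟩
    refine local_alternative_of_variableChange_eq (P.freyCurve : Affine ℚ)
      (legW (((P.a ^ P.p + P.c ^ P.p : ℤ)) : ℚ) (((P.a ^ P.p * P.c ^ P.p : ℤ)) : ℚ) : Affine ℚ)
      (freyVCShift P) ?_
      (legW_local_alternative (p := P.p) hp2 (P.a ^ P.p + P.c ^ P.p) (P.a ^ P.p * P.c ^ P.p)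
        ?_ ?_ (Or.inr ⟨?_, ?_⟩))
    · rw [freyVCShift_smul]
      simp only [legW]
      push_cast
      rfl
    · exact mul_ne_zero (pow_ne_zero _ P.ha0) (pow_ne_zero _ P.hc0)
    · have e : (P.a ^ P.p + P.c ^ P.p) ^ 2 - 4 * (P.a ^ P.p * P.c ^ P.p) =
          (P.b ^ P.p) ^ 2 := by rw [← hFLT]; ring
      rw [e]
      exact pow_ne_zero _ (pow_ne_zero _ P.hb0)
    · intro h
      have : (P.p : ℤ) ∣ P.a ^ P.p := (dvd_add_left ((hpow _).mpr hc)).mp h
      exact ha ((hpow _).mp this)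
    · exact dvd_mul_of_dvd_right ((hpow _).mpr hc) _
  · -- `p ∤ c`: the Legendre model
    have hd0 : (P.b ^ P.p - P.a ^ P.p) ^ 2 - 4 * -(P.a ^ P.p * P.b ^ P.p) =
        (P.c ^ P.p) ^ 2 := by rw [← hFLT]; ring
    refine local_alternative_of_variableChange_eq (P.freyCurve : Affine ℚ)
      (legW (((P.b ^ P.p - P.a ^ P.p : ℤ)) : ℚ) (((-(P.a ^ P.p * P.b ^ P.p) : ℤ)) : ℚ) : Affine ℚ)
      freyVC ?_
      (legW_local_alternative (p := P.p) hp2 (P.b ^ P.p - P.a ^ P.p) (-(P.a ^ P.p * P.b ^ P.p))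
        ?_ ?_ ?_)
    · rw [freyVC_smul]
      simp only [legW]
      push_cast
      rfl
    · exact neg_ne_zero.mpr (mul_ne_zero (pow_ne_zero _ P.ha0) (pow_ne_zero _ P.hb0))
    · rw [hd0]
      exact pow_ne_zero _ (pow_ne_zero _ P.hc0)
    · by_cases hab : (P.p : ℤ) ∣ P.a * P.b
      · -- node
        right
        constructor
        · intro h
          rcases hqprime.dvd_or_dvd hab with h1 | h1
          · have h2 : (P.p : ℤ) ∣ P.b ^ P.p := (dvd_sub_left ((hpow _).mpr h1)).mp h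
            exact hnot_ab ⟨h1, (hpow _).mp h2⟩
          · have h2 : (P.p : ℤ) ∣ P.a ^ P.p := (dvd_sub_right ((hpow _).mpr h1)).mp h
            exact hnot_ab ⟨(hpow _).mp h2, h1⟩
        · rw [dvd_neg, ← mul_pow]
          exact (hpow _).mpr hab
      · -- good reduction
        left
        have ha : ¬(P.p : ℤ) ∣ P.a := fun h => hab (dvd_mul_of_dvd_left h _)
        have hb : ¬(P.p : ℤ) ∣ P.b := fun h => hab (dvd_mul_of_dvd_right h _)
        constructor
        · rw [dvd_neg]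
          intro h
          rcases hqprime.dvd_or_dvd h with h1 | h1
          · exact ha ((hpow _).mp h1)
          · exact hb ((hpow _).mp h1)
        · intro h
          rw [hd0] at h
          exact hc ((hpow _).mp (hqprime.dvd_of_dvd_pow h))

end Fermat.Agent.S13lib
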