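/-
S13 long shot, glue (G4) (helper9): the "local alternative at `p`" input `hp'` of
`hasCofixedLine_of_bricks` for the Frey curve itself.

`LocalAlt W p` is the literal `hp'` shape.  `frey_local_alternative P : LocalAlt P.freyCurve P.p`
is obtained from helper8's `legW_local_alternative` (Legendre models `y² = x³ + a x² + b x` with
good or nodal reduction at `p`) by transport along the changes of variables `S05lib.vc1`
(Frey curve → `legW (b^p - a^p) (-(a^p b^p))`, used when `p ∤ c`) and `S05lib.vc2 (a^p) ∘ vc1`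
(→ `legW (a^p + c^p) (a^p c^p)`, used when `p ∣ c`), using `local_alternative_of_equiv`.
Everything lives in the sub-namespace `Fermat.Agent.S13lib.H9` (no clash with FreyGlue).
-/
import Fermat.Agent.S13lib.TorsionEquiv
import Fermat.Agent.S13lib.UnramTop
import Fermat.Agent.S05lib.Frey
import Fermat.Agent.S13lib.LegWP

set_option autoImplicit false
open WeierstrassCurve WeierstrassCurve.Affine WeierstrassCurve.Affine.Point

namespace Fermat.Agent.S13lib.H9

open Fermat.Agent.S13lib Fermat.Agent.S05lib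

/-- the `hp'` shape of `hasCofixedLine_of_bricks` for a curve `W` over `ℚ`. -/
def LocalAlt (W : Affine ℚ) (p : ℕ) : Prop :=
  ∀ N : Submodule (ZMod p) (Submodule.torsionBy ℤ (W⁄Qbar).Point p),
    IsGaloisStable ℚ N → Nat.card N = p →
    ∃ A : ValuationSubring Qbar, A.LiesOverPrime p ∧
      ((∀ σ ∈ A.inertiaSubgroupIn ℚ, ∀ x ∈ N, σ • x = x) ∨
        (∀ σ ∈ A.inertiaSubgroupIn ℚ, ∀ x : Submodule.torsionBy ℤ (W⁄Qbar).Point p,
          σ • x - x ∈ N))

theorem localAlt_of_variableChange (E : Affine ℚ) (C : VariableChange ℚ) (p : ℕ)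
    (h : LocalAlt (C • E) p) : LocalAlt E p :=
  local_alternative_of_equiv (S51lib.vcEquivBaseChange (K := Qbar) E C)
    (S51lib.vcEquivBaseChange_smul E C) h

theorem frey_local_alternative (P : FreyPackage) :
    LocalAlt (P.freyCurve : Affine ℚ) P.p := by
  have G3 : ∀ (p : ℕ) [Fact p.Prime] (_hp2 : p ≠ 2) (a b : ℤ) (_hb0 : b ≠ 0)
      (_hd : a ^ 2 - 4 * b ≠ 0)
      (_hred : (¬(p : ℤ) ∣ b ∧ ¬(p : ℤ) ∣ a ^ 2 - 4 * b) ∨ (¬(p : ℤ) ∣ a ∧ (p : ℤ) ∣ b)),
      LocalAlt (legW (a : ℚ) (b : ℚ) : Affine ℚ) p :=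
    fun p _ hp2 a b hb0 hd hred => legW_local_alternative hp2 a b hb0 hd hred
  have : Fact P.p.Prime := ⟨P.pp⟩
  have hp2 : P.p ≠ 2 := by have := P.hp5; omega
  have hp0 : P.p ≠ 0 := P.hp0
  have hqprime : Prime (P.p : ℤ) := Nat.prime_iff_prime_int.mp P.pp
  have hFLT : P.a ^ P.p + P.b ^ P.p = P.c ^ P.p := P.hFLT
  have hnot_ab : ¬((P.p : ℤ) ∣ P.a ∧ (P.p : ℤ) ∣ P.b) := by
    rintro ⟨h1, h2⟩
    have := dvd_gcd h1 h2
    rw [P.hgcdab] at this
    exact hqprime.not_isUnit (isUnit_of_dvd_one this)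
  have hnot_ac : ¬((P.p : ℤ) ∣ P.a ∧ (P.p : ℤ) ∣ P.c) := by
    rintro ⟨h1, h2⟩
    have := dvd_gcd h1 h2
    rw [P.hgcdac] at this
    exact hqprime.not_isUnit (isUnit_of_dvd_one this)
  have hpow : ∀ z : ℤ, (P.p : ℤ) ∣ z ^ P.p ↔ (P.p : ℤ) ∣ z := fun z =>
    ⟨fun h => hqprime.dvd_of_dvd_pow h, fun h => dvd_pow h hp0⟩
  apply localAlt_of_variableChange _ vc1
  rw [frey_vc1]
  by_cases hc : (P.p : ℤ) ∣ P.c
  · -- `p ∣ c`: translate the node to the origin
    have ha : ¬(P.p : ℤ) ∣ P.a := fun h => hnot_ac ⟨h, hc⟩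
    apply localAlt_of_variableChange _ (vc2 ((P.a ^ P.p : ℤ) : ℚ))
    rw [legW_vc2]
    refine G3 P.p hp2 _ _ ?_ ?_ ?_
    · rw [hFLT]
      exact mul_ne_zero (pow_ne_zero _ P.ha0) (pow_ne_zero _ P.hc0)
    · have e : (P.a ^ P.p + (P.a ^ P.p + P.b ^ P.p)) ^ 2 -
          4 * (P.a ^ P.p * (P.a ^ P.p + P.b ^ P.p)) = (P.b ^ P.p) ^ 2 := by ring
      rw [e]
      exact pow_ne_zero _ (pow_ne_zero _ P.hb0)
    · right
      refine ⟨?_, ?_⟩
      · intro h
        rw [hFLT] at h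
        have : (P.p : ℤ) ∣ P.a ^ P.p := (dvd_add_left ((hpow _).mpr hc)).mp h
        exact ha ((hpow _).mp this)
      · rw [hFLT]
        exact dvd_mul_of_dvd_right ((hpow _).mpr hc) _
  · have e : (P.b ^ P.p - P.a ^ P.p) ^ 2 - 4 * -(P.a ^ P.p * P.b ^ P.p) =
        (P.c ^ P.p) ^ 2 := by rw [← hFLT]; ring
    refine G3 P.p hp2 _ _ ?_ ?_ ?_
    · exact neg_ne_zero.mpr (mul_ne_zero (pow_ne_zero _ P.ha0) (pow_ne_zero _ P.hb0))
    · rw [e]
      exact pow_ne_zero _ (pow_ne_zero _ P.hc0)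
    · by_cases hab : (P.p : ℤ) ∣ P.a * P.b
      · right
        refine ⟨?_, ?_⟩
        · intro h
          rcases hqprime.dvd_or_dvd hab with h1 | h1
          · have h2 : (P.p : ℤ) ∣ P.b ^ P.p := (dvd_sub_left ((hpow _).mpr h1)).mp h
            exact hnot_ab ⟨h1, (hpow _).mp h2⟩
          · have h2 : (P.p : ℤ) ∣ P.a ^ P.p := (dvd_sub_right ((hpow _).mpr h1)).mp h
            exact hnot_ab ⟨(hpow _).mp h2, h1⟩
        · rw [dvd_neg, ← mul_pow]
          exact (hpow _).mpr hab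
      · left
        have ha : ¬(P.p : ℤ) ∣ P.a := fun h => hab (dvd_mul_of_dvd_left h _)
        have hb : ¬(P.p : ℤ) ∣ P.b := fun h => hab (dvd_mul_of_dvd_right h _)
        refine ⟨?_, ?_⟩
        · rw [dvd_neg]
          intro h
          rcases hqprime.dvd_or_dvd h with h1 | h1
          · exact ha ((hpow _).mp h1)
          · exact hb ((hpow _).mp h1)
        · intro h
          rw [e] at h
          exact hc ((hpow _).mp (hqprime.dvd_of_dvd_pow h))

end Fermat.Agent.S13lib.H9
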