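/-
S13 long shot, glue brick [X] (helper3): **not all of `E[p]` lies in the kernel of reduction**
once there is a Galois-stable line.

Input: a polynomial `F ∈ ℤ[X]` with leading coefficient `p` whose roots in `ℚ̄` are exactly the
`x`-coordinates of the nonzero `p`-torsion points (helper4's ladder polynomial `ladF`), and
helper9's Eisenstein/transitivity brick.  If all of `V = E[p](ℚ̄)` were in the kernel of reduction
`E₁` at a valuation subring `A` over `p`, then all roots of `F` would be non-integral at `A`, hence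
`G_ℚ` would permute them transitively, hence `V ∖ 0 = ± G_ℚ • (N ∖ 0) ⊆ N` for every nonzero
Galois-stable `N`, i.e. `N = ⊤`.
-/
import Mathlib
import Fermat.Prelude.Def_FLTPrelim_GaloisRep
import Fermat.Prelude.Def_FLTPrelim_Ramification
import Fermat.Agent.S05lib.KerRed.Main
import Fermat.Agent.S13lib.EisensteinRoots

set_option autoImplicit false
set_option linter.unusedSectionVars false

namespace Fermat.Agent.S13lib.NotAllE1

open WeierstrassCurve WeierstrassCurve.Affine WeierstrassCurve.Affine.Point Polynomial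
open Fermat.Agent.S05lib

/-- Over an algebraically closed field every `x` is the `x`-coordinate of a point on the curve. -/
theorem exists_equation_of_isAlgClosed {K : Type*} [Field K] [IsAlgClosed K] (W : Affine K)
    (x : K) : ∃ y, W.Equation x y := by
  let q : K[X] := X ^ 2 + C (W.a₁ * x + W.a₃) * X - C (x ^ 3 + W.a₂ * x ^ 2 + W.a₄ * x + W.a₆)
  have hq : q.degree ≠ 0 := by
    have h2 : q.degree = 2 := by simp only [q]; compute_degree!
    rw [h2]; norm_num
  obtain ⟨y, hy⟩ := IsAlgClosed.exists_root q hq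
  refine ⟨y, ?_⟩
  rw [Affine.equation_iff]
  simp only [q, IsRoot.def, eval_sub, eval_add, eval_pow, eval_X, eval_mul, eval_C] at hy
  linear_combination hy

local notation "Qb" => AlgebraicClosure ℚ

/-- **Glue brick [X]**, abstract form.  `F` is any integer polynomial of positive degree with
leading coefficient `p` whose roots are exactly the `x`-coordinates of the nonzero `p`-torsion
points of `W` over `ℚ̄`. -/
theorem exists_not_inE1_of_poly (W : Affine ℚ) (hΔ : (W⁄Qb).Δ ≠ 0) {p : ℕ} (hp : p.Prime)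
    (F : ℤ[X]) (hdeg : 0 < F.natDegree) (hlead : F.leadingCoeff = (p : ℤ))
    (hiff : ∀ (x y : Qb) (h : (W⁄Qb).Nonsingular x y),
      p • (Point.some x y h : (W⁄Qb).Point) = 0 ↔ aeval x F = 0)
    (A : ValuationSubring Qb) (hA : A.LiesOverPrime p)
    (N : Submodule (ZMod p) (Submodule.torsionBy ℤ (W⁄Qb).Point p))
    (hNst : IsGaloisStable ℚ N) (hNbot : N ≠ ⊥) (hNtop : N ≠ ⊤) :
    ∃ x : Submodule.torsionBy ℤ (W⁄Qb).Point p, ¬ InE1 A.valuation (W⁄Qb) x.1 := by
  by_contra hcon
  push Not at hcon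
  -- torsion membership in terms of `p • _ = 0`
  have hmem : ∀ P : (W⁄Qb).Point, P ∈ Submodule.torsionBy ℤ (W⁄Qb).Point p ↔ p • P = 0 := by
    intro P
    rw [Submodule.mem_torsionBy_iff, natCast_zsmul]
  -- all roots of `F` are non-integral at `A`
  have hroots : ∀ r : Qb, aeval r F = 0 → 1 < A.valuation r := by
    intro r hr
    obtain ⟨y, hy⟩ := exists_equation_of_isAlgClosed (W⁄Qb) r
    have hns : (W⁄Qb).Nonsingular r y := (equation_iff_nonsingular_of_Δ_ne_zero hΔ).mp hy
    have h0 : p • (Point.some r y hns : (W⁄Qb).Point) = 0 := (hiff r y hns).mpr hr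
    exact hcon ⟨Point.some r y hns, (hmem _).mpr h0⟩
  have htrans := exists_galois_conj_of_roots_large p hp F hdeg hlead A hA hroots
  -- a nonzero element of `N`
  obtain ⟨x₀, hx₀N, hx₀ne⟩ := Submodule.exists_mem_ne_zero_of_ne_bot hNbot
  have hx₀pt : (x₀ : (W⁄Qb).Point) ≠ 0 := fun h => hx₀ne (Subtype.ext h)
  have hx₀tor : p • (x₀ : (W⁄Qb).Point) = 0 := (hmem _).mp x₀.2
  -- `N = ⊤`
  apply hNtop
  rw [eq_top_iff]
  intro x _
  by_cases hx0 : x = 0
  · rw [hx0]; exact N.zero_mem
  have hxpt : (x : (W⁄Qb).Point) ≠ 0 := fun h => hx0 (Subtype.ext h)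
  have hxtor : p • (x : (W⁄Qb).Point) = 0 := (hmem _).mp x.2
  -- coordinates
  rcases hxe : (x : (W⁄Qb).Point) with _ | ⟨r, y, h⟩
  · exact absurd hxe hxpt
  rcases hx₀e : (x₀ : (W⁄Qb).Point) with _ | ⟨r₀, y₀, h₀⟩
  · exact absurd hx₀e hx₀pt
  have hr : aeval r F = 0 := by
    rw [hxe] at hxtor; exact (hiff r y h).mp hxtor
  have hr₀ : aeval r₀ F = 0 := by
    rw [hx₀e] at hx₀tor; exact (hiff r₀ y₀ h₀).mp hx₀tor
  obtain ⟨σ, hσ⟩ := htrans r₀ r hr₀ hr
  have hσN : σ • x₀ ∈ N := hNst σ x₀ hx₀N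
  -- the underlying point of `σ • x₀`
  have hσpt : ((σ • x₀ : Submodule.torsionBy ℤ (W⁄Qb).Point p) : (W⁄Qb).Point) =
      Point.map σ.toAlgHom (x₀ : (W⁄Qb).Point) := rfl
  rw [hx₀e] at hσpt
  have hmap : Point.map (W' := W) σ.toAlgHom (Point.some r₀ y₀ h₀) =
      Point.some (σ r₀) (σ y₀)
        ((W.baseChange_nonsingular σ.toAlgHom.injective r₀ y₀).mpr h₀) := rfl
  have hσns : (W⁄Qb).Nonsingular r (σ y₀) := by
    have := (W.baseChange_nonsingular σ.toAlgHom.injective r₀ y₀).mpr h₀
    simpa [hσ] using this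
  have hσpt' : ((σ • x₀ : Submodule.torsionBy ℤ (W⁄Qb).Point p) : (W⁄Qb).Point) =
      Point.some r (σ y₀) hσns := by
    rw [hσpt, hmap]
    congr 1
  rcases Y_eq_of_X_eq hσns.1 h.1 rfl with hy | hy
  · -- `σ • x₀ = x`
    have : σ • x₀ = x := by
      apply Subtype.ext
      rw [hσpt', hxe]
      congr 1
    rw [← this]; exact hσN
  · -- `σ • x₀ = -x`
    have : σ • x₀ = -x := by
      apply Subtype.ext
      rw [Submodule.coe_neg, hσpt', hxe, Point.neg_some]
      congr 1
    have h2 : x = -(σ • x₀) := by rw [this, neg_neg]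
    rw [h2]; exact N.neg_mem hσN

end Fermat.Agent.S13lib.NotAllE1
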